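import Fermat.Agent.Mazur.Unit.JZero
import Fermat.Agent.Mazur.PairT
import Fermat.Agent.Mazur.ESDensity
import Fermat.Agent.JAN.PsiDegree

/-!
# The fields at `r` of `TheoremA.Inputs`, for `J₀(N)`, unconditionally
-/

set_option autoImplicit false
set_option linter.unusedSectionVars false
set_option linter.style.haveILetI false

open PadicInt ModularCurve AlgebraicCurve

namespace Fermat.Agent.Mazur.Unit

open Fermat.Agent.Tate Fermat.Agent.Mazur.ES Fermat.Agent.Mazur.PairT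

local notation "Qb" => AlgebraicClosure ℚ
local notation "GQ" => AlgebraicClosure ℚ ≃ₐ[ℚ] AlgebraicClosure ℚ

theorem X_smul (N : ℕ) [NeZero N] (ℓ : {ℓ : Nat.Primes // (ℓ : ℕ) ≠ N}) (x : JZero N) :
    (letI := modRN N; (MvPolynomial.X ℓ : RN N) • x) = heckeOperatorBar N ℓ.1 x := by
  rw [smul_def, incl, MvPolynomial.rename_X]
  exact heckeModuleBar_heckeGen_smul (JAN.PsiDegree.heckeOperatorsCommuteBar N) ℓ.1 x

variable {N : ℕ} [NeZero N] {r : ℕ} [hr : Fact r.Prime] {ζ : ℕ → Qb} {χ : GQ → ℤ_[r]}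
  {A : ValuationSubring Qb}

theorem bijective_weilT (hζ : IsSys r ζ) : Function.Bijective (weilT N hζ) := by
  constructor
  · rw [← LinearMap.ker_eq_bot, LinearMap.ker_eq_bot']
    intro x hx
    refine weilT_nondeg N hζ fun y => ?_
    rw [weilT_swap, hx, LinearMap.zero_apply, neg_zero]
  · intro f
    obtain ⟨z, hz⟩ := weilT_perfect N hζ (-f)
    refine ⟨z, LinearMap.ext fun x => ?_⟩
    rw [weilT_swap, hz, LinearMap.neg_apply, neg_neg]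

/-- **Piece G of S15**: the fields at `r` of `TheoremA.Inputs` for `J₀(N)`. -/
theorem inputs_at_r (hN : N.Prime) (hrN : r ≠ N) (hA : A.LiesOverPrime r) (hζ : IsSys r ζ)
    (hχ : IsCyc ζ χ) :
    letI := modRN N
    ∃ (Tc TP : Submodule ℤ_[r] (TateModule r (JZero N)))
      (e : TateModule r (JZero N) →ₗ[ℤ_[r]] TateModule r (JZero N)),
      (∀ τ ∈ A.inertiaSubgroupIn ℚ, ∀ y : Hat r (JZero N), dl τ y ∈ Tc) ∧
      (∀ x, e x ∈ TP) ∧
      (∀ x ∈ TP, e x = x) ∧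
      (∀ x ∈ Tc, e x ∈ Tc) ∧
      (∀ m : ℕ, ∃ s : ℕ, ∀ t, ev m (e t) =
        (MvPolynomial.X ⟨⟨r, hr.out⟩, hrN⟩ : RN N) ^ s • ev m t) ∧
      (∀ x ∈ Tc ⊓ TP, ∀ y ∈ Tc ⊓ TP, weilT N hζ x y = 0) ∧
      (∀ τ ∈ A.inertiaSubgroupIn ℚ, ∀ x ∈ Tc ⊓ TP, gT τ x = χ τ • x) ∧
      (∀ (m : ℕ) (y : JZero N), (∀ σ : GQ, σ • (r ^ m • y) = r ^ m • y) →
        ∀ (B : AddSubgroup (JZero N)), (∀ b ∈ B, ∃ x ∈ TP, ev m x = b) →
        ∀ (β : B →+ Additive Qbˣ), (∀ b, r • β b = 0) →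
        ∀ (hyB : ∀ τ ∈ A.inertiaSubgroupIn ℚ, τ • y - y ∈ B) (θ : Qb), θ ≠ 0 →
        (∀ τ (hτ : τ ∈ A.inertiaSubgroupIn ℚ), τ θ = vl (β ⟨τ • y - y, hyB τ hτ⟩) * θ) →
        ∀ b : ℚ, θ ^ r = (b : Qb) → (r : ℤ) ∣ padicValRat r b) := by
  letI := modRN N
  haveI := smulComm N
  have hrN' : ¬ r ∣ N := fun h => hrN ((Nat.prime_dvd_prime_iff_eq hr.out hN).mp h)
  refine exists_inputs_at_r (E := weilT N hζ)
    (MvPolynomial.X ⟨⟨r, hr.out⟩, hrN⟩ : RN N) (fun x => X_smul N _ x) hrN' hA hζ hχ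
    (fun k x y => zp_weilT N hζ x y k) (bijective_weilT hζ) fun m σ => ?_
  haveI : NeZero (r ^ m) := ⟨pow_ne_zero _ hr.out.ne_zero⟩
  obtain ⟨ℓ, -, h1, -, h2⟩ := es_density N hN r m σ
  refine ⟨(ℓ : ℕ), fun x => (MvPolynomial.X ℓ : RN N) • x, ?_, fun τ x => ?_, h2⟩
  · rw [toZModPow_eq_cyc hζ hχ]
    exact h1
  · exact (smul_comm τ (MvPolynomial.X ℓ : RN N) x).symm

end Fermat.Agent.Mazur.Unit
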