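import Fermat.Agent.Mazur.Unit.Pair

/-!
# The unit condition: finite level output (piece U3 of S15)
-/

set_option autoImplicit false

open PadicInt

namespace Fermat.Agent.Mazur.Unit

open Fermat.Agent.Tate

local notation "Qb" => AlgebraicClosure ℚ
local notation "GQ" => AlgebraicClosure ℚ ≃ₐ[ℚ] AlgebraicClosure ℚ

section Extend

variable {r : ℕ} [hr : Fact r.Prime] {T : Type*} [AddCommGroup T] [Module ℤ_[r] T]
  [Module.Finite ℤ_[r] T]

/-- A functional on a saturated submodule extends. -/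
theorem exists_extend (TP Tc : Submodule ℤ_[r] T)
    (hsat : ∀ (a : ℤ_[r]) (x : T), a ≠ 0 → a • x ∈ Tc → x ∈ Tc)
    (g : ↥(TP ⊓ Tc) →ₗ[ℤ_[r]] ℤ_[r]) :
    ∃ f : TP →ₗ[ℤ_[r]] ℤ_[r], ∀ (x : T) (hx : x ∈ TP) (hx' : x ∈ Tc),
      f ⟨x, hx⟩ = g ⟨x, hx, hx'⟩ := by
  let K : Submodule ℤ_[r] TP := Tc.comap TP.subtype
  have htf : Module.IsTorsionFree ℤ_[r] (TP ⧸ K) :=
    Module.isTorsionFree_iff_smul_eq_zero.mpr fun a x h => by
      by_cases ha : a = 0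
      · exact Or.inl ha
      · right
        obtain ⟨x, rfl⟩ := Submodule.Quotient.mk_surjective _ x
        rw [← Submodule.Quotient.mk_smul, Submodule.Quotient.mk_eq_zero] at h
        rw [Submodule.Quotient.mk_eq_zero]
        exact hsat a _ ha h
  have hfree : Module.Free ℤ_[r] (TP ⧸ K) := Module.free_of_finite_type_torsion_free'
  obtain ⟨s, hs⟩ := Module.projective_lifting_property K.mkQ LinearMap.id K.mkQ_surjective
  have hs' : ∀ x : TP ⧸ K, K.mkQ (s x) = x := fun x => LinearMap.congr_fun hs x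
  let d : TP →ₗ[ℤ_[r]] TP := LinearMap.id - s ∘ₗ K.mkQ
  have hmem : ∀ x : TP, (TP.subtype ∘ₗ d) x ∈ TP ⊓ Tc := by
    intro x
    refine ⟨(x - s (K.mkQ x)).2, ?_⟩
    have h1 : K.mkQ (x - s (K.mkQ x)) = 0 := by rw [map_sub, hs', sub_self]
    rw [Submodule.mkQ_apply, Submodule.Quotient.mk_eq_zero] at h1
    exact h1
  let p : TP →ₗ[ℤ_[r]] ↥(TP ⊓ Tc) :=
    (TP.subtype ∘ₗ d).codRestrict (TP ⊓ Tc) hmem
  refine ⟨g ∘ₗ p, fun x hx hx' => ?_⟩
  have h1 : p ⟨x, hx⟩ = ⟨x, hx, hx'⟩ := by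
    apply Subtype.ext
    change (((⟨x, hx⟩ : TP) - s (K.mkQ ⟨x, hx⟩) : TP) : T) = x
    have h2 : K.mkQ ⟨x, hx⟩ = 0 := by
      rw [Submodule.mkQ_apply, Submodule.Quotient.mk_eq_zero]
      exact hx'
    rw [h2, map_zero, sub_zero]
  rw [LinearMap.comp_apply, h1]

end Extend

section Functional

/-- the underlying element of `ℚ̄` -/
def vl (u : Additive Qbˣ) : Qb := (u.toMul : Qbˣ)

theorem vl_zero : vl 0 = 1 := rfl

theorem vl_add (u v : Additive Qbˣ) : vl (u + v) = vl u * vl v := rfl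

theorem vl_nsmul (n : ℕ) (u : Additive Qbˣ) : vl (n • u) = vl u ^ n := by
  induction n with
  | zero => rw [zero_smul, pow_zero, vl_zero]
  | succ n ih => rw [succ_nsmul, vl_add, ih, pow_succ]

variable {r : ℕ} [hr : Fact r.Prime] {ζ : ℕ → Qb} (hζ : IsSys r ζ)

include hζ

theorem zp_mul_of_eq {k n : ℕ} (a b : ℤ_[r]) (h : toZModPow k a = (n : ZMod (r ^ k))) :
    zp ζ k (a * b) = zp ζ k b ^ n := by
  rw [← zp_nat_mul hζ]
  apply zp_congr hζ
  rw [map_mul, map_mul, map_natCast, h]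

theorem zp_pow_mul (k j : ℕ) (a : ℤ_[r]) : zp ζ (k + j) ((r : ℤ_[r]) ^ j * a) = zp ζ k a := by
  induction j with
  | zero => rw [pow_zero, one_mul, Nat.add_zero]
  | succ j ih =>
    rw [← ih, ← zp_succ_pow hζ (k + j), ← zp_nat_mul hζ, ← Nat.add_assoc, pow_succ', mul_assoc]

/-- A homomorphism `B → μ_r` on a subgroup of the level `m+1` part comes from a functional. -/
theorem exists_functional {J : Type*} [AddCommGroup J] {T : Submodule ℤ_[r] (TateModule r J)}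
    [Module.Finite ℤ_[r] (TateModule r J)] [Module.Free ℤ_[r] (TateModule r J)]
    (m : ℕ) (B : AddSubgroup J) (β : B →+ Additive Qbˣ) (hβ : ∀ b, r • β b = 0) :
    ∃ g : T →ₗ[ℤ_[r]] ℤ_[r], ∀ (x : TateModule r J) (hx : x ∈ T) (hB : ev (m + 1) x ∈ B),
      vl (β ⟨ev (m + 1) x, hB⟩) = zp ζ (m + 1) (g ⟨x, hx⟩) := by
  classical
  -- the submodule of elements whose level `m+1` part is in `B`
  let B' : Submodule ℤ_[r] (TateModule r J) :=
    { carrier := {x | x ∈ T ∧ ev (m + 1) x ∈ B}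
      zero_mem' := ⟨T.zero_mem, by rw [map_zero]; exact B.zero_mem⟩
      add_mem' := fun {a b} ha hb => ⟨T.add_mem ha.1 hb.1, by
        rw [map_add]; exact B.add_mem ha.2 hb.2⟩
      smul_mem' := fun a x hx => ⟨T.smul_mem a hx.1, by
        rw [ev_smul']; exact B.nsmul_mem hx.2 _⟩ }
  let F : B' →+ Additive Qbˣ :=
    { toFun := fun x => β ⟨ev (m + 1) x.1, x.2.2⟩
      map_zero' := by
        rw [← map_zero β]
        congr 1
      map_add' := fun x y => by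
        rw [← map_add β]
        congr 1 }
  have hF : ∀ (a : ℤ_[r]) (x : B'), F (a • x) = a.appr (m + 1) • F x := by
    intro a x
    change β _ = a.appr (m + 1) • β _
    rw [← map_nsmul β]
    congr 1
  have hFr : ∀ x, vl (F x) ^ r = 1 := by
    intro x
    have h1 := hβ ⟨ev (m + 1) x.1, x.2.2⟩
    rw [← vl_nsmul]
    exact congrArg vl h1
  -- a functional on `B'` lifting `β`
  obtain ⟨f, hf⟩ : ∃ f : B' →ₗ[ℤ_[r]] ℤ_[r], ∀ x, vl (F x) = zp ζ 1 (f x) := by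
    let b := Module.Free.chooseBasis ℤ_[r] B'
    have h1 : ∀ i, ∃ n : ℕ, vl (F (b i)) = ζ 1 ^ n := by
      intro i
      have h2 : IsPrimitiveRoot (ζ 1) r := by
        have := hζ.prim 1
        rwa [pow_one] at this
      have : NeZero r := ⟨hr.out.ne_zero⟩
      obtain ⟨n, -, hn⟩ := h2.eq_pow_of_pow_eq_one (hFr (b i))
      exact ⟨n, hn.symm⟩
    choose n hn using h1
    let f : B' →ₗ[ℤ_[r]] ℤ_[r] := b.constr ℤ_[r] fun i => (n i : ℤ_[r])
    have hfb : ∀ i, f (b i) = (n i : ℤ_[r]) := fun i => b.constr_basis ℤ_[r] _ i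
    refine ⟨f, ?_⟩
    let S : Submodule ℤ_[r] B' :=
      { carrier := {x | vl (F x) = zp ζ 1 (f x)}
        zero_mem' := by
          change vl (F 0) = zp ζ 1 (f 0)
          rw [map_zero, map_zero, zp_zero hζ, vl_zero]
        add_mem' := fun {x y} hx hy => by
          change vl (F (x + y)) = zp ζ 1 (f (x + y))
          change vl (F x) = zp ζ 1 (f x) at hx
          change vl (F y) = zp ζ 1 (f y) at hy
          rw [map_add, map_add, zp_add hζ, ← hx, ← hy, vl_add]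
        smul_mem' := fun a x hx => by
          change vl (F (a • x)) = zp ζ 1 (f (a • x))
          change vl (F x) = zp ζ 1 (f x) at hx
          rw [hF, map_smul, smul_eq_mul, zp_mul_of_eq hζ (n := a.appr (m + 1)) a (f x), ← hx,
            vl_nsmul]
          · have h3 := cast_toZModPow 1 (m + 1) (by omega) a
            rw [← h3]
            change ((a.appr (m + 1) : ZMod (r ^ (m + 1))).cast : ZMod (r ^ 1)) = _
            rw [ZMod.cast_natCast (pow_dvd_pow r (by omega))] }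
    have hS : S = ⊤ := by
      rw [eq_top_iff, ← b.span_eq, Submodule.span_le]
      rintro _ ⟨i, rfl⟩
      change vl (F (b i)) = zp ζ 1 (f (b i))
      rw [hn, hfb]
      rw [zp_eq_pow hζ (m := n i) (map_natCast _ _)]
    intro x
    have : x ∈ S := by rw [hS]; trivial
    exact this
  -- divide by `r`
  have hr0 : (r : ℤ_[r]) ≠ 0 := by exact_mod_cast hr.out.ne_zero
  have hmem : ∀ x : T, (r : ℤ_[r]) ^ (m + 1) • (x : TateModule r J) ∈ B' := by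
    intro x
    refine ⟨T.smul_mem _ x.2, ?_⟩
    rw [ev_pow_smul, pow_smul_ev]
    exact B.zero_mem
  let q : T →ₗ[ℤ_[r]] B' :=
    (((r : ℤ_[r]) ^ (m + 1)) • T.subtype).codRestrict B' hmem
  have hdvd : ∀ x : T, (f ∘ₗ q) x ∈ Submodule.span ℤ_[r] {(r : ℤ_[r])} := by
    intro x
    have h1 : F (q x) = 0 := by
      change β _ = 0
      rw [← map_zero β]
      congr 1
      apply Subtype.ext
      change ev (m + 1) ((r : ℤ_[r]) ^ (m + 1) • (x : TateModule r J)) = 0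
      rw [ev_pow_smul, pow_smul_ev]
    have h2 := hf (q x)
    rw [h1, vl_zero] at h2
    have h3 : zp ζ 1 (f (q x)) = 1 := h2.symm
    rw [zp_eq_one_iff hζ, ← RingHom.mem_ker, ker_toZModPow, pow_one] at h3
    exact h3
  let g0 : T →ₗ[ℤ_[r]] Submodule.span ℤ_[r] {(r : ℤ_[r])} := (f ∘ₗ q).codRestrict _ hdvd
  let e := LinearEquiv.toSpanNonzeroSingleton ℤ_[r] ℤ_[r] (r : ℤ_[r]) hr0
  refine ⟨e.symm.toLinearMap ∘ₗ g0, fun x hx hB => ?_⟩
  have h1 : (e.symm (g0 ⟨x, hx⟩)) * (r : ℤ_[r]) = (r : ℤ_[r]) ^ (m + 1) * f ⟨x, hx, hB⟩ := by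
    have h2 : (e (e.symm (g0 ⟨x, hx⟩)) : ℤ_[r]) = g0 ⟨x, hx⟩ := by
      rw [LinearEquiv.apply_symm_apply]
    have h3 : (e (e.symm (g0 ⟨x, hx⟩)) : ℤ_[r]) = e.symm (g0 ⟨x, hx⟩) • (r : ℤ_[r]) := rfl
    rw [h3, smul_eq_mul] at h2
    rw [h2]
    change f (q ⟨x, hx⟩) = _
    rw [← smul_eq_mul, ← map_smul]
    rfl
  have h2 : e.symm (g0 ⟨x, hx⟩) = (r : ℤ_[r]) ^ m * f ⟨x, hx, hB⟩ := by
    apply mul_right_cancel₀ hr0
    rw [h1]
    ring
  change _ = zp ζ (m + 1) (e.symm (g0 ⟨x, hx⟩))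
  rw [h2]
  have h3 := zp_pow_mul hζ 1 m (f ⟨x, hx, hB⟩)
  rw [Nat.add_comm 1 m] at h3
  rw [h3]
  exact hf ⟨x, hx, hB⟩

end Functional

section Final

theorem valuation_rat {A : ValuationSubring Qb} {r : ℕ} (hr : r.Prime) (hA : A.LiesOverPrime r)
    {b : ℚ} (hb : b ≠ 0) :
    A.valuation (b : Qb) = A.valuation ((r : Qb) ^ padicValRat r b) := by
  have : Fact r.Prime := ⟨hr⟩
  have hr0 : (r : Qb) ≠ 0 := by exact_mod_cast hr.ne_zero
  have hr0' : (r : ℚ) ≠ 0 := by exact_mod_cast hr.ne_zero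
  have key : ∀ n : ℤ, n ≠ 0 → A.valuation (n : Qb) = A.valuation ((r : Qb) ^ padicValInt r n) := by
    intro n hn
    obtain ⟨m, hm⟩ : (r : ℤ) ^ padicValInt r n ∣ n := padicValInt_dvd n
    have h1 : ¬ (r : ℤ) ∣ m := by
      rintro ⟨k, rfl⟩
      have h2 : (r : ℤ) ^ (padicValInt r n + 1) ∣ n := ⟨k, by rw [pow_succ]; linarith⟩
      rw [padicValInt_dvd_iff] at h2
      rcases h2 with h2 | h2
      · exact hn h2
      · omega
    have h2 : A.valuation (m : Qb) = 1 := by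
      refine ECRed.valuation_int_eq_one A hA ?_
      exact ((Nat.prime_iff_prime_int.mp hr).coprime_iff_not_dvd.mpr h1).symm
    conv_lhs => rw [hm]
    push_cast
    rw [map_mul, h2, mul_one]
  have hnum : b.num ≠ 0 := Rat.num_ne_zero.mpr hb
  have hden : (b.den : ℤ) ≠ 0 := by exact_mod_cast b.den_nz
  have h1 := key b.num hnum
  have h2 := key b.den hden
  have h3 : (b : Qb) = (b.num : Qb) / ((b.den : ℤ) : Qb) := by
    conv_lhs => rw [← Rat.num_div_den b]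
    push_cast
    rfl
  rw [h3, map_div₀, h1, h2, ← map_div₀, ← zpow_natCast, ← zpow_natCast, ← zpow_sub₀ hr0]
  congr 2

variable {r : ℕ} [hr : Fact r.Prime] {J : Type*} [AddCommGroup J] [DistribMulAction GQ J]
  [Module.Finite ℤ_[r] (TateModule r J)] [Module.Free ℤ_[r] (TateModule r J)]
  {A : ValuationSubring Qb} {χ : GQ → ℤ_[r]} {ζ : ℕ → Qb}
  {E : TateModule r J →ₗ[ℤ_[r]] TateModule r J →ₗ[ℤ_[r]] ℤ_[r]}
  {Tc TP : Submodule ℤ_[r] (TateModule r J)}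

/-- The unit condition at finite level, given the vanishing of all weights. -/
theorem dvd_padicValRat_aux (hζ : IsSys r ζ) (hA : A.LiesOverPrime r) (H : Hyp A χ E Tc TP)
    (hval : ∀ (y : Hat r J), ∀ z ∈ TP, HasVal A ζ (fun τ => E (dl τ y) z) 0)
    (hdiv : ∀ x : J, ∃ y, r • y = x)
    (hsat : ∀ (a : ℤ_[r]) (x : TateModule r J), a ≠ 0 → a • x ∈ Tc → x ∈ Tc)
    (hperf : ∀ f : TP →ₗ[ℤ_[r]] ℤ_[r], ∃ z ∈ TP, ∀ x : TP, E x z = f x)
    (e : TateModule r J →ₗ[ℤ_[r]] TateModule r J) (he : ∀ x, e x ∈ TP)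
    (heid : ∀ x ∈ TP, e x = x) (hec : ∀ x ∈ Tc, e x ∈ Tc)
    (heE : ∀ x, ∀ z ∈ TP, E (e x) z = E x z)
    {m : ℕ} {y : J} (hy : ∀ σ : GQ, σ • (r ^ (m + 1) • y) = r ^ (m + 1) • y)
    (B : AddSubgroup J) (hB : ∀ b ∈ B, ∃ x ∈ TP, ev (m + 1) x = b)
    (β : B →+ Additive Qbˣ) (hβ : ∀ b, r • β b = 0)
    (hyB : ∀ τ ∈ A.inertiaSubgroupIn ℚ, τ • y - y ∈ B)
    {θ : Qb} (hθ0 : θ ≠ 0)
    (hθ : ∀ τ (hτ : τ ∈ A.inertiaSubgroupIn ℚ), τ θ = vl (β ⟨τ • y - y, hyB τ hτ⟩) * θ)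
    {b : ℚ} (hb : θ ^ r = (b : Qb)) : (r : ℤ) ∣ padicValRat r b := by
  obtain ⟨g, hg⟩ := exists_functional hζ (T := TP ⊓ Tc) m B β hβ
  obtain ⟨f, hf⟩ := exists_extend TP Tc hsat g
  obtain ⟨z, hz, hzf⟩ := hperf f
  obtain ⟨y', hy'⟩ := exists_hat hdiv (m + 1) hy
  obtain ⟨n, hn, hn0⟩ := hval y' z hz (m + 1)
  rw [map_zero] at hn0
  have hn1 : ((r ^ (m + 1) : ℕ) : ℤ) ∣ n := by
    rw [← ZMod.intCast_zmod_eq_zero_iff_dvd]
    exact hn0.symm
  -- the second description of the value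
  have hb0 : b ≠ 0 := by
    rintro rfl
    rw [Rat.cast_zero] at hb
    exact hθ0 (pow_eq_zero_iff hr.out.ne_zero |>.mp hb)
  have h2 : IsVal A r (m + 1) (fun τ => zp ζ (m + 1) (E (dl τ y') z))
      (padicValRat r b * (r ^ m : ℕ)) := by
    refine ⟨θ, hθ0, fun τ hτ => ?_, ?_⟩
    · rw [hθ τ hτ]
      congr 1
      -- the projection of `dl τ y'`
      have h3 : e (dl τ y') ∈ Tc := hec _ (H.inertia τ hτ y')
      have h4 : ev (m + 1) (dl τ y') = τ • y - y := by rw [ev_dl, hy']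
      have h5 : ev (m + 1) (e (dl τ y')) = τ • y - y := by
        obtain ⟨x', hx', hx'e⟩ := hB _ (hyB τ hτ)
        have h6 : ev (m + 1) (dl τ y' - x') = 0 := by rw [map_sub, h4, hx'e, sub_self]
        rw [ev_eq_zero_iff] at h6
        obtain ⟨t, ht⟩ := h6
        have h7 : e (dl τ y') = x' + (r : ℤ_[r]) ^ (m + 1) • e t := by
          rw [← map_smul, ht, map_sub, heid x' hx']
          abel
        rw [h7, map_add, ev_pow_smul, pow_smul_ev, add_zero, hx'e]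
      have h6 : ev (m + 1) (e (dl τ y')) ∈ B := by rw [h5]; exact hyB τ hτ
      have h7 := hg (e (dl τ y')) ⟨he _, h3⟩ h6
      have h8 : (⟨ev (m + 1) (e (dl τ y')), h6⟩ : B) = ⟨τ • y - y, hyB τ hτ⟩ := Subtype.ext h5
      rw [← h8, h7, ← hf _ (he _) h3, ← hzf, heE _ _ hz]
    · have h3 : θ ^ (r ^ (m + 1)) = (b : Qb) ^ (r ^ m) := by
        rw [pow_succ', pow_mul, hb]
      rw [h3, map_pow, valuation_rat hr.out hA hb0, ← map_pow, zpow_mul, zpow_natCast]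
  have h3 := hn.unique hr.out hA h2
  have h4 : ((r ^ (m + 1) : ℕ) : ℤ) ∣ padicValRat r b * (r ^ m : ℕ) := by
    have := dvd_sub hn1 h3
    rwa [sub_sub_cancel] at this
  rw [pow_succ', Nat.cast_mul] at h4
  have hrm : ((r ^ m : ℕ) : ℤ) ≠ 0 := by exact_mod_cast pow_ne_zero m hr.out.ne_zero
  exact Int.dvd_of_mul_dvd_mul_right hrm h4

/-- **The unit condition** (piece U of S15). -/
theorem dvd_padicValRat (hζ : IsSys r ζ) (hχ : IsCyc ζ χ) (hA : A.LiesOverPrime r)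
    (H : Hyp A χ E Tc TP) {φ : GQ} (hφ : φ ∈ A.decompositionSubgroup ℚ)
    (hnorm : ∀ τ ∈ A.inertiaSubgroupIn ℚ, φ⁻¹ * τ * φ ∈ A.inertiaSubgroupIn ℚ)
    (hχφ : χ φ ≠ 1)
    (hcomm : ∀ τ ∈ A.inertiaSubgroupIn ℚ, ∀ t : TateModule r J,
      gT τ (gT φ t + χ φ • gT φ⁻¹ t) = gT φ (gT τ t) + χ φ • gT φ⁻¹ (gT τ t))
    (hfin : ∃ n : ℕ, ∀ t : TateModule r J, ∃ t' : TateModule r J, ∃ c ∈ Tc,
      (r : ℤ_[r]) ^ n • t = gT φ (gT φ t') - t' + c)
    (hfin' : ∃ n : ℕ, ∀ z ∈ TP, ∃ z' ∈ TP, ∃ c ∈ TP, c ∈ Tc ∧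
      (r : ℤ_[r]) ^ n • z = gT φ z' - z' + c)
    (hdiv : ∀ x : J, ∃ y, r • y = x)
    (hsat : ∀ (a : ℤ_[r]) (x : TateModule r J), a ≠ 0 → a • x ∈ Tc → x ∈ Tc)
    (hperf : ∀ f : TP →ₗ[ℤ_[r]] ℤ_[r], ∃ z ∈ TP, ∀ x : TP, E x z = f x)
    (e : TateModule r J →ₗ[ℤ_[r]] TateModule r J) (he : ∀ x, e x ∈ TP)
    (heid : ∀ x ∈ TP, e x = x) (hec : ∀ x ∈ Tc, e x ∈ Tc)
    (heE : ∀ x, ∀ z ∈ TP, E (e x) z = E x z)
    {m : ℕ} {y : J} (hy : ∀ σ : GQ, σ • (r ^ m • y) = r ^ m • y)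
    (B : AddSubgroup J) (hB : ∀ b ∈ B, ∃ x ∈ TP, ev m x = b)
    (β : B →+ Additive Qbˣ) (hβ : ∀ b, r • β b = 0)
    (hyB : ∀ τ ∈ A.inertiaSubgroupIn ℚ, τ • y - y ∈ B)
    {θ : Qb} (hθ0 : θ ≠ 0)
    (hθ : ∀ τ (hτ : τ ∈ A.inertiaSubgroupIn ℚ), τ θ = vl (β ⟨τ • y - y, hyB τ hτ⟩) * θ)
    {b : ℚ} (hb : θ ^ r = (b : Qb)) : (r : ℤ) ∣ padicValRat r b := by
  refine dvd_padicValRat_aux hζ hA H
    (fun y z hz => val_eq_zero H hζ hχ hA hφ hnorm hχφ hcomm hfin hfin' y hz) hdiv hsat hperf e he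
    heid hec heE (m := m) (y := y) (fun σ => ?_) B (fun b hb => ?_) β hβ hyB hθ0 hθ hb
  · rw [pow_succ', mul_smul, smul_comm σ, hy]
  · obtain ⟨x, hx, hxb⟩ := hB b hb
    refine ⟨(r : ℤ_[r]) ^ 1 • x, TP.smul_mem _ hx, ?_⟩
    rw [ev_pow_smul, pow_one, smul_ev_succ, hxb]

end Final

end Fermat.Agent.Mazur.Unit
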