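import Fermat.Agent.Mazur.Unit.OrdOutput
import Fermat.Agent.DefCond.InertiaCyc
import Fermat.Agent.FrobExists

/-!
# Concrete inputs of the unit condition: roots of unity, cyclotomic character, Frobenius
-/

set_option autoImplicit false

open PadicInt

namespace Fermat.Agent.Mazur.Unit

open Fermat.Agent.Tate

local notation "Qb" => AlgebraicClosure ℚ
local notation "GQ" => AlgebraicClosure ℚ ≃ₐ[ℚ] AlgebraicClosure ℚ

section Sys

variable (r : ℕ) [hr : Fact r.Prime]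

theorem primitive_succ {x y : Qb} {k : ℕ} (hk : k ≠ 0) (hy : IsPrimitiveRoot y (r ^ k))
    (h : x ^ r = y) : IsPrimitiveRoot x (r ^ (k + 1)) := by
  refine IsPrimitiveRoot.iff_orderOf.mpr ?_
  have h1 : x ^ (r ^ (k + 1)) = 1 := by
    rw [pow_succ', pow_mul, h, hy.pow_eq_one]
  refine orderOf_eq_prime_pow (p := r) (fun h2 => ?_) h1
  obtain ⟨j, rfl⟩ := Nat.exists_eq_succ_of_ne_zero hk
  rw [pow_succ', pow_mul, h] at h2
  have h3 := hy.dvd_of_pow_eq_one _ h2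
  rw [Nat.pow_dvd_pow_iff_le_right hr.out.one_lt] at h3
  omega

/-- Existence of a compatible system of roots of unity. -/
theorem exists_isSys : ∃ ζ : ℕ → Qb, IsSys r ζ := by
  obtain ⟨z, hz⟩ := HasEnoughRootsOfUnity.exists_primitiveRoot Qb r
  have hroot : ∀ y : Qb, ∃ x : Qb, x ^ r = y := fun y =>
    IsAlgClosed.exists_pow_nat_eq y hr.out.pos
  choose f hf using hroot
  let g : ℕ → Qb := fun k => Nat.rec z (fun _ y => f y) k
  have hg : ∀ k, g (k + 1) ^ r = g k := fun k => hf (g k)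
  have hg' : ∀ k, IsPrimitiveRoot (g k) (r ^ (k + 1)) := by
    intro k
    induction k with
    | zero => rw [zero_add, pow_one]; exact hz
    | succ k ih => exact primitive_succ r (Nat.succ_ne_zero k) ih (hg k)
  refine ⟨fun k => g k ^ r, fun k => ?_, fun k => ?_⟩
  · have h1 := (hg' k).pow (pow_pos hr.out.pos _) (pow_succ' r k)
    exact h1
  · change (g (k + 1) ^ r) ^ r = g k ^ r
    rw [hg]

variable {r}

/-- The `r`-adic cyclotomic character. -/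
noncomputable def cyclo (r : ℕ) [Fact r.Prime] (σ : GQ) : ℤ_[r] :=
  (cyclotomicCharacter Qb r (σ : Qb ≃+* Qb) : ℤ_[r]ˣ)

theorem isCyc_cyclo {ζ : ℕ → Qb} (hζ : IsSys r ζ) : IsCyc ζ (cyclo r) := by
  intro σ k
  have h1 := cyclotomicCharacter.spec (L := Qb) r (n := k) (σ : Qb ≃+* Qb) (ζ k)
    (hζ.prim k).pow_eq_one
  have : NeZero (r ^ k) := ⟨pow_ne_zero _ hr.out.ne_zero⟩
  rw [zp_eq_pow hζ (m := (toZModPow k (cyclo r σ)).val) (ZMod.natCast_zmod_val _).symm]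
  exact h1

end Sys

section Inertia

variable {A : ValuationSubring Qb}

theorem smul_residue {τ : A.decompositionSubgroup ℚ} (hτ : τ ∈ A.inertiaSubgroup ℚ)
    (x : IsLocalRing.ResidueField A) : τ • x = x := by
  have h2 : MulSemiringAction.toRingAut (A.decompositionSubgroup ℚ)
      (IsLocalRing.ResidueField A) τ = 1 := hτ
  exact congrArg (fun f : IsLocalRing.ResidueField A ≃+* IsLocalRing.ResidueField A => f x) h2

/-- The inertia group is normal in the decomposition group. -/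
theorem inertia_normal {σ τ : GQ} (hσ : σ ∈ A.decompositionSubgroup ℚ)
    (hτ : τ ∈ A.inertiaSubgroupIn ℚ) : σ⁻¹ * τ * σ ∈ A.inertiaSubgroupIn ℚ := by
  obtain ⟨τ', hτ', rfl⟩ := hτ
  refine ⟨(⟨σ, hσ⟩ : A.decompositionSubgroup ℚ)⁻¹ * τ' * ⟨σ, hσ⟩, ?_, rfl⟩
  show _ ∈ MonoidHom.ker _
  rw [MonoidHom.mem_ker]
  refine RingEquiv.ext fun x => ?_
  show ((⟨σ, hσ⟩ : A.decompositionSubgroup ℚ)⁻¹ * τ' * ⟨σ, hσ⟩) • x = x
  rw [mul_smul, mul_smul, smul_residue hτ', inv_smul_smul]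

theorem isFrobeniusAt_mul {σ τ : GQ} {q : ℕ} (hσ : A.IsFrobeniusAt σ q)
    (hτ : τ ∈ A.inertiaSubgroupIn ℚ) : A.IsFrobeniusAt (σ * τ) q := by
  obtain ⟨hσ1, hσ2⟩ := hσ
  obtain ⟨τ', hτ', rfl⟩ := hτ
  refine ⟨mul_mem hσ1 τ'.2, fun x => ?_⟩
  rw [← hσ2]
  show ((⟨σ, hσ1⟩ : A.decompositionSubgroup ℚ) * τ') • x = _
  rw [mul_smul, smul_residue hτ']

/-- Existence of a Frobenius element which is nontrivial on `r`-power roots of unity. -/
theorem exists_frobenius {r : ℕ} [hr : Fact r.Prime] (hA : A.LiesOverPrime r) {ζ : ℕ → Qb}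
    (hζ : IsSys r ζ) {χ : GQ → ℤ_[r]} (hχ : IsCyc ζ χ) :
    ∃ φ : GQ, A.IsFrobeniusAt φ r ∧ χ φ ≠ 1 := by
  obtain ⟨φ, hφ⟩ := FrobExists.exists_isFrobeniusAt A hr.out hA
  by_cases h : χ φ = 1
  · -- multiply by an inertia element moving `ζ_2`
    have : NeZero (r ^ 2) := ⟨pow_ne_zero _ hr.out.ne_zero⟩
    obtain ⟨u, hu⟩ : ∃ u : (ZMod (r ^ 2))ˣ, u ≠ 1 := by
      have h1 : Nat.card (ZMod (r ^ 2))ˣ = r * (r - 1) := by
        rw [Nat.card_eq_fintype_card, ZMod.card_units_eq_totient, Nat.totient_prime_pow hr.out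
          (by norm_num)]
        simp
      have h2 : 2 ≤ r := hr.out.two_le
      have h3 : 1 < Nat.card (ZMod (r ^ 2))ˣ := by
        rw [h1]
        have : 1 ≤ r - 1 := by omega
        nlinarith
      have : Nontrivial (ZMod (r ^ 2))ˣ := (Finite.one_lt_card_iff_nontrivial).mp h3
      exact exists_ne 1
    obtain ⟨τ, hτ, hτu⟩ := DefCond.exists_inertia_cyc hr.out 2 A hA u
    refine ⟨φ * τ, isFrobeniusAt_mul hφ hτ, fun h1 => hu ?_⟩
    rw [hχ.map_mul hζ, h, one_mul] at h1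
    have h2 : τ (ζ 2) = ζ 2 := by rw [hχ τ 2, h1, zp_one hζ]
    rw [← hτu]
    exact Cyclotomic.cyc_eq_one_of_fixes (r ^ 2) τ (hζ.prim 2) h2
  · exact ⟨φ, hφ, h⟩

end Inertia

section Final

variable {r : ℕ} [hr : Fact r.Prime] {J : Type*} [AddCommGroup J] [DistribMulAction GQ J]
  [Module.Finite ℤ_[r] (TateModule r J)]
  {A : ValuationSubring Qb} {χ : GQ → ℤ_[r]} {ζ : ℕ → Qb}
  {e : TateModule r J →ₗ[ℤ_[r]] TateModule r J}

/-- **The unit condition** (piece U of S15), with the Frobenius element chosen internally. -/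
theorem unit_condition' (hζ : IsSys r ζ) (hχ : IsCyc ζ χ) (hA : A.LiesOverPrime r)
    {Jb : Type*} [AddCommGroup Jb] (red : J →+ Jb) (H : Ord A χ e (subTate r red.ker))
    {F : Jb →+ Jb}
    (hcomm : ∀ φ : GQ, A.IsFrobeniusAt φ r → ∀ τ ∈ A.inertiaSubgroupIn ℚ,
      ∀ t : TateModule r J,
        gT τ (gT φ t + χ φ • gT φ⁻¹ t) = gT φ (gT τ t) + χ φ • gT φ⁻¹ (gT τ t))
    (hF : ∀ φ : GQ, A.IsFrobeniusAt φ r → ∀ x, red (φ • x) = F (red x))
    (hfix : {z : Jb | F (F z) = z ∧ ∃ (k : ℕ) (x : J), r ^ k • x = 0 ∧ red x = z}.Finite)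
    (hinj : ∀ φ : GQ, A.IsFrobeniusAt φ r → ∀ x ∈ subTate r red.ker, e x = x →
      gT φ x = χ φ • x → x = 0)
    (hdiv : ∀ x : J, ∃ y, r • y = x)
    {m : ℕ} {y : J} (hy : ∀ σ : GQ, σ • (r ^ m • y) = r ^ m • y)
    (B : AddSubgroup J) (hB : ∀ b ∈ B, ∃ x, ev m (e x) = b)
    (β : B →+ Additive Qbˣ) (hyB : ∀ τ ∈ A.inertiaSubgroupIn ℚ, τ • y - y ∈ B)
    {θ : Qb} (hθ0 : θ ≠ 0)
    (hθ : ∀ τ (hτ : τ ∈ A.inertiaSubgroupIn ℚ), τ θ = vl (β ⟨τ • y - y, hyB τ hτ⟩) * θ) :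
    ∃ j : ℤ, A.valuation (θ * (r : Qb) ^ j) = 1 := by
  obtain ⟨φ, hφ, hφ1⟩ := exists_frobenius hA hζ hχ
  exact unit_condition hζ hχ hA red H hφ.mem_decompositionSubgroup
    (fun σ hσ τ hτ => inertia_normal hσ hτ) hφ1 (hcomm φ hφ) (hF φ hφ) hfix (hinj φ hφ) hdiv hy B
    hB β hyB hθ0 hθ

end Final

end Fermat.Agent.Mazur.Unit
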