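import Fermat.Agent.Mazur.Unit.Projector
import Fermat.Agent.Mazur.Unit.Concrete
import Fermat.Agent.Mazur.Lagrange

/-!
# The place over `r`: the connected ordinary part (pieces G4, G5 of S15), abstract form
-/

set_option autoImplicit false
set_option linter.unusedSectionVars false

open PadicInt

namespace Fermat.Agent.Mazur.Unit

open Fermat.Agent.Tate

local notation "Qb" => AlgebraicClosure ℚ
local notation "GQ" => AlgebraicClosure ℚ ≃ₐ[ℚ] AlgebraicClosure ℚ

section Abs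

variable {r : ℕ} [hr : Fact r.Prime] {J : Type*} [AddCommGroup J] [DistribMulAction GQ J]
  {Jb : Type*} [AddCommGroup Jb]

/-- The inputs at the place `A` over `r`. -/
structure RInput (A : ValuationSubring Qb) (ζ : ℕ → Qb) (χ : GQ → ℤ_[r])
    (E : TateModule r J →ₗ[ℤ_[r]] TateModule r J →ₗ[ℤ_[r]] ℤ_[r])
    (U : J →+ J) (red : J →+ Jb) (F : Jb →+ Jb) : Prop where
  liesr : A.LiesOverPrime r
  sys : IsSys r ζ
  cyc : IsCyc ζ χ
  fin : ∀ k, Finite {x : J // r ^ k • x = 0}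
  div : ∀ x : J, ∃ y, r • y = x
  smooth : ∀ y : J, ∃ L : IntermediateField ℚ Qb, FiniteDimensional ℚ L ∧
    ∀ g : GQ, (∀ x ∈ L, g x = x) → g • y = y
  comm : ∀ (σ : GQ) (x : J), U (σ • x) = σ • U x
  bij : Function.Bijective E
  skew : ∀ x y, E x y = -E y x
  gal : ∀ (σ : GQ) (x y : TateModule r J), E (gT σ x) (gT σ y) = χ σ * E x y
  selfadj : ∀ x y : TateModule r J, E (Tate.map U x) y = E x (Tate.map U y)
  inertia : ∀ τ ∈ A.inertiaSubgroupIn ℚ, ∀ x, red (τ • x) = red x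
  frob : ∀ φ : GQ, A.IsFrobeniusAt φ r → ∀ x, red (φ • x) = F (red x)
  finite : {z : Jb | F (F z) = z ∧ ∃ (k : ℕ) (x : J), r ^ k • x = 0 ∧ red x = z}.Finite
  hecke : ∀ x, red x = 0 → red (U x) = 0
  tame : ∀ W : Set J, W.Finite → (∀ t ∈ W, r • t = 0) → (∀ t ∈ W, red t = 0) →
    (∀ t ∈ W, ∃ s ∈ W, U s = t) →
    ∀ x y : TateModule r J, ev 1 x ∈ W → ev 1 y ∈ W → (r : ℤ_[r]) ∣ E x y
  es : ∀ (m : ℕ) (σ : GQ), ∃ (c : ℕ) (a : J → J), (c : ZMod (r ^ m)) = toZModPow m (χ σ) ∧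
    (∀ (τ : GQ) (x : J), a (τ • x) = τ • a x) ∧
    ∀ x : J, r ^ m • x = 0 → σ • σ • x + c • x = a (σ • x)

namespace RInput

variable {A : ValuationSubring Qb} {ζ : ℕ → Qb} {χ : GQ → ℤ_[r]}
    {E : TateModule r J →ₗ[ℤ_[r]] TateModule r J →ₗ[ℤ_[r]] ℤ_[r]}
    {U : J →+ J} {red : J →+ Jb} {F : Jb →+ Jb}
    (H : RInput A ζ χ E U red F)

include H

theorem moduleFinite : Module.Finite ℤ_[r] (TateModule r J) := by
  have h1 := H.fin 1
  have h2 : Finite {x : J // r • x = 0} := by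
    rwa [pow_one] at h1
  exact Tate.finite_of_finite h2

/-- The projector. -/
noncomputable def e : TateModule r J →ₗ[ℤ_[r]] TateModule r J := proj U H.fin

theorem e_idem (x : TateModule r J) : H.e (H.e x) = H.e x := proj_idem H.fin x

theorem e_comm (σ : GQ) (x : TateModule r J) : H.e (gT σ x) = gT σ (H.e x) :=
  proj_comm H.fin (g := DistribSMul.toAddMonoidHom J σ) (fun x => (H.comm σ x).symm) x

theorem e_c (x : TateModule r J) (hx : x ∈ subTate r red.ker) : H.e x ∈ subTate r red.ker :=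
  proj_mem H.fin (fun x hx => H.hecke x hx) hx

theorem inertia_mem (τ : GQ) (hτ : τ ∈ A.inertiaSubgroupIn ℚ) (y : Hat r J) :
    dl τ y ∈ subTate r red.ker := by
  intro k
  rw [ev_dl]
  change red _ = 0
  rw [map_sub, H.inertia τ hτ, sub_self]

/-- the adjoint of `e` is `e` -/
theorem e_selfadj (x y : TateModule r J) : E (H.e x) y = E x (H.e y) := by
  -- powers of `U`
  have h1 : ∀ (n : ℕ) (x y : TateModule r J),
      E (Tate.map (itr U n) x) y = E x (Tate.map (itr U n) y) := by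
    intro n
    induction n with
    | zero => intro x y; rfl
    | succ n ih =>
      intro x y
      have e1 : ∀ z : TateModule r J, Tate.map (itr U (n + 1)) z =
          Tate.map U (Tate.map (itr U n) z) := fun z => Tate.ext fun k => by
        rw [ev_map, ev_map, ev_map, itr_succ]
      have e2 : ∀ z : TateModule r J, Tate.map (itr U (n + 1)) z =
          Tate.map (itr U n) (Tate.map U z) := fun z => Tate.ext fun k => by
        rw [ev_map, ev_map, ev_map, itr_add]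
        rfl
      rw [e1, H.selfadj, ih, ← e2]
  refine ext_of_toZModPow.mp fun k => ?_
  have h2 : ∀ z : TateModule r J, ∃ t : TateModule r J,
      H.e z = Tate.map (itr U (sq U H.fin k)) z + (r : ℤ_[r]) ^ k • t := by
    intro z
    have h3 : ev k (H.e z - Tate.map (itr U (sq U H.fin k)) z) = 0 := by
      rw [map_sub, ev_map]
      exact sub_self _
    rw [ev_eq_zero_iff] at h3
    obtain ⟨t, ht⟩ := h3
    exact ⟨t, by rw [ht]; abel⟩
  have h0 : ∀ a : ℤ_[r], toZModPow k ((r : ℤ_[r]) ^ k * a) = 0 := by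
    intro a
    rw [map_mul, map_pow, map_natCast, ← Nat.cast_pow, ZMod.natCast_self, zero_mul]
  obtain ⟨t, ht⟩ := h2 x
  obtain ⟨s, hs⟩ := h2 y
  rw [ht, hs, map_add, map_add, LinearMap.add_apply, map_smul, map_smul, LinearMap.smul_apply,
    smul_eq_mul, smul_eq_mul, map_add, map_add, h0, h0, h1]

theorem isCompl : IsCompl (LinearMap.range H.e) (LinearMap.ker H.e) := by
  constructor
  · rw [Submodule.disjoint_def]
    rintro x ⟨y, rfl⟩ hx
    rw [LinearMap.mem_ker, H.e_idem] at hx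
    exact hx
  · rw [codisjoint_iff, eq_top_iff]
    intro x _
    refine Submodule.mem_sup.mpr ⟨H.e x, ⟨x, rfl⟩, x - H.e x, ?_, by abel⟩
    rw [LinearMap.mem_ker, map_sub, H.e_idem, sub_self]

theorem e_of_mem {x : TateModule r J} (hx : x ∈ LinearMap.range H.e) : H.e x = x := by
  obtain ⟨y, rfl⟩ := hx
  exact H.e_idem y

/-- The pairing on the ordinary part. -/
noncomputable def EP : LinearMap.range H.e →ₗ[ℤ_[r]] LinearMap.range H.e →ₗ[ℤ_[r]] ℤ_[r] :=
  ((LinearMap.lcomp ℤ_[r] ℤ_[r] (LinearMap.range H.e).subtype).comp E).comp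
    (LinearMap.range H.e).subtype

theorem EP_apply (x y : LinearMap.range H.e) :
    H.EP x y = E (x : TateModule r J) (y : TateModule r J) := rfl

theorem EP_bijective : Function.Bijective H.EP := by
  refine Lagrange.bijective_of_orthogonal E H.bij (LinearMap.range H.e) (LinearMap.ker H.e)
    H.isCompl ?_ ?_
  · intro x hx y hy
    rw [← H.e_of_mem hx, H.e_selfadj, LinearMap.mem_ker.mp hy, map_zero]
  · intro x hx y hy
    rw [← H.e_of_mem hy, ← H.e_selfadj, LinearMap.mem_ker.mp hx, map_zero, LinearMap.zero_apply]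

/-- The connected ordinary part. -/
noncomputable def W : Submodule ℤ_[r] (LinearMap.range H.e) :=
  (subTate r red.ker).comap (LinearMap.range H.e).subtype

theorem mem_W {x : LinearMap.range H.e} :
    x ∈ H.W ↔ (x : TateModule r J) ∈ subTate r red.ker := Iff.rfl

/-- The Galois action on the ordinary part. -/
noncomputable def gP (σ : GQ) : LinearMap.range H.e →ₗ[ℤ_[r]] LinearMap.range H.e :=
  (gT σ).restrict fun x hx => by
    obtain ⟨y, rfl⟩ := hx
    exact ⟨gT σ y, H.e_comm σ y⟩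

theorem coe_gP (σ : GQ) (x : LinearMap.range H.e) :
    (H.gP σ x : TateModule r J) = gT σ (x : TateModule r J) := rfl

theorem gP_surjective (σ : GQ) : Function.Surjective (H.gP σ) := fun x =>
  ⟨H.gP σ⁻¹ x, Subtype.ext (by rw [coe_gP, coe_gP, gT_self_inv])⟩

theorem EP_skew (x y : LinearMap.range H.e) : H.EP x y = -H.EP y x := H.skew _ _

theorem EP_gP (σ : GQ) (x y : LinearMap.range H.e) :
    H.EP (H.gP σ x) (H.gP σ y) = χ σ * H.EP x y := H.gal σ _ _

theorem gP_sub_mem {τ : GQ} (hτ : τ ∈ A.inertiaSubgroupIn ℚ) (x : LinearMap.range H.e) :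
    H.gP τ x - x ∈ H.W := by
  rw [mem_W]
  have h1 := H.inertia_mem τ hτ (inc (x : TateModule r J))
  rw [dl_inc] at h1
  exact h1

theorem saturated_W : Lagrange.Saturated H.W := fun _ _ ha h => mem_subTate_of_smul_mem ha h

theorem dvd_EP (x : LinearMap.range H.e) (hx : x ∈ H.W) (y : LinearMap.range H.e) (hy : y ∈ H.W) :
    (r : ℤ_[r]) ∣ H.EP x y := by
  refine H.tame {t | ∃ z : TateModule r J, z ∈ subTate r red.ker ∧ H.e z = z ∧ ev 1 z = t}
    ?_ ?_ ?_ ?_ x y ⟨x, hx, H.e_of_mem x.2, rfl⟩ ⟨y, hy, H.e_of_mem y.2, rfl⟩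
  · have h1 : Finite {t : J | r ^ 1 • t = 0} := H.fin 1
    refine (Set.toFinite {t : J | r ^ 1 • t = 0}).subset ?_
    rintro _ ⟨z, -, -, rfl⟩
    exact pow_smul_ev z 1
  · rintro _ ⟨z, -, -, rfl⟩
    have := pow_smul_ev z 1
    rwa [pow_one] at this
  · rintro _ ⟨z, hz, -, rfl⟩
    exact hz 1
  · rintro _ ⟨z, hz, hez, rfl⟩
    obtain ⟨s, hs, hes, hU⟩ := exists_level H.fin (fun x hx => H.hecke x hx) hz hez 1
    exact ⟨ev 1 s, ⟨s, hs, hes, rfl⟩, hU⟩

/-- There is an inertia element acting nontrivially on the roots of unity. -/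
theorem exists_tau : ∃ τ ∈ A.inertiaSubgroupIn ℚ, χ τ ≠ 1 := by
  have : NeZero (r ^ 2) := ⟨pow_ne_zero _ hr.out.ne_zero⟩
  obtain ⟨u, hu⟩ : ∃ u : (ZMod (r ^ 2))ˣ, u ≠ 1 := by
    have h1 : Nat.card (ZMod (r ^ 2))ˣ = r * (r - 1) := by
      rw [Nat.card_eq_fintype_card, ZMod.card_units_eq_totient, Nat.totient_prime_pow hr.out
        (by norm_num)]
      simp
    have h2 : 2 ≤ r := hr.out.two_le
    have h3 : 1 < Nat.card (ZMod (r ^ 2))ˣ := by
      rw [h1]
      have : 1 ≤ r - 1 := by omega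
      nlinarith
    have : Nontrivial (ZMod (r ^ 2))ˣ := (Finite.one_lt_card_iff_nontrivial).mp h3
    exact exists_ne 1
  obtain ⟨τ, hτ, hτu⟩ := DefCond.exists_inertia_cyc hr.out 2 A H.liesr u
  refine ⟨τ, hτ, fun h1 => hu ?_⟩
  have h2 : τ (ζ 2) = ζ 2 := by rw [H.cyc τ 2, h1, zp_one H.sys]
  rw [← hτu]
  exact Cyclotomic.cyc_eq_one_of_fixes (r ^ 2) τ (H.sys.prim 2) h2

theorem perp_W : Lagrange.perp H.EP H.W = H.W := by
  have := H.moduleFinite
  have hfree : Module.Free ℤ_[r] (LinearMap.range H.e) := Module.free_of_finite_type_torsion_free'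
  obtain ⟨τ, hτ, hτ1⟩ := H.exists_tau
  exact (Lagrange.lagrangian H.EP_bijective.2 H.EP_skew H.saturated_W (H.gP τ) hτ1
    (H.gP_surjective τ) (H.EP_gP τ) (H.gP_sub_mem hτ) PadicInt.prime_p.not_isUnit
    H.dvd_EP H.EP_bijective.1).1

/-- The connected ordinary part is isotropic. -/
theorem iso (x : TateModule r J) (hx : x ∈ subTate r red.ker ⊓ LinearMap.range H.e)
    (y : TateModule r J) (hy : y ∈ subTate r red.ker ⊓ LinearMap.range H.e) : E x y = 0 := by
  have h1 : (⟨x, hx.2⟩ : LinearMap.range H.e) ∈ H.W := hx.1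
  rw [← H.perp_W] at h1
  exact h1 ⟨y, hy.2⟩ hy.1

/-- Inertia acts on it by the cyclotomic character. -/
theorem actW (τ : GQ) (hτ : τ ∈ A.inertiaSubgroupIn ℚ) (x : TateModule r J)
    (hx : x ∈ subTate r red.ker ⊓ LinearMap.range H.e) : gT τ x = χ τ • x := by
  have h1 : (⟨x, hx.2⟩ : LinearMap.range H.e) ∈ Lagrange.perp H.EP H.W := by
    rw [H.perp_W]
    exact hx.1
  have h2 : H.gP τ ⟨x, hx.2⟩ = χ τ • (⟨x, hx.2⟩ : LinearMap.range H.e) := by
    apply H.EP_bijective.1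
    refine LinearMap.ext fun y => ?_
    obtain ⟨y, rfl⟩ := H.gP_surjective τ y
    rw [H.EP_gP, map_smul, LinearMap.smul_apply, smul_eq_mul]
    have h2 := h1 _ (H.gP_sub_mem hτ y)
    rw [map_sub, sub_eq_zero] at h2
    rw [h2]
  exact congrArg Subtype.val h2

theorem ord : Ord A χ H.e (subTate r red.ker) where
  smooth := H.smooth
  idem := H.e_idem
  comm := H.e_comm
  pres := H.e_c
  inertia := H.inertia_mem
  cyc τ hτ x hx := H.actW τ hτ _ ⟨H.e_c x hx, x, rfl⟩

/-- The commutation input. -/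
theorem hcomm (φ τ : GQ) (t : TateModule r J) :
    gT τ (gT φ t + χ φ • gT φ⁻¹ t) = gT φ (gT τ t) + χ φ • gT φ⁻¹ (gT τ t) := by
  refine Tate.ext fun m => ?_
  obtain ⟨c, a, hc, ha, hes⟩ := H.es m φ
  -- the operator at level `m`
  have h1 : ∀ s : TateModule r J, ev m (gT φ s + χ φ • gT φ⁻¹ s) = a (ev m s) := by
    intro s
    have h2 := hes (φ⁻¹ • ev m s) (by rw [smul_comm, pow_smul_ev, smul_zero])
    rw [smul_inv_smul] at h2
    rw [← h2, map_add, ev_gT]
    congr 1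
    rw [ev_smul_of_eq hc.symm, ev_gT]
  have h2 : ev m (gT φ (gT τ t) + χ φ • gT φ⁻¹ (gT τ t)) = a (ev m (gT τ t)) := h1 _
  rw [h2, ev_gT, ev_gT, h1, ha]

theorem hinj {φ : GQ} (hφ : A.IsFrobeniusAt φ r) (x : TateModule r J)
    (hx : x ∈ subTate r red.ker) (hex : H.e x = x) (h : gT φ x = χ φ • x) : x = 0 := by
  have := H.moduleFinite
  have hr0 : (r : ℤ_[r]) ≠ 0 := by exact_mod_cast hr.out.ne_zero
  let x' : LinearMap.range H.e := ⟨x, x, hex⟩
  have hxW : x' ∈ H.W := hx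
  -- the finiteness input
  let g : TateModule r J →ₗ[ℤ_[r]] TateModule r J := gT φ - LinearMap.id
  have hfin : ∃ n : ℕ, ∀ z ∈ LinearMap.range H.e, ∃ z' ∈ LinearMap.range H.e,
      ∃ c ∈ LinearMap.range H.e, c ∈ subTate r red.ker ∧
        (r : ℤ_[r]) ^ n • z = g z' + c := by
    refine exists_pow_smul_mem g (LinearMap.range H.e) (subTate r red.ker)
      (fun z hz => Submodule.sub_mem _ (H.gP φ ⟨z, hz⟩).2 hz)
      (fun z hz => Submodule.sub_mem _ (gT_mem_kerTate (H.frob φ hφ) hz) hz)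
      (fun z _ hz => ?_) (kerTate_sat red)
    let S : AddSubgroup Jb :=
      { carrier := {z : Jb | F (F z) = z ∧ ∃ (k : ℕ) (x : J), r ^ k • x = 0 ∧ red x = z}
        zero_mem' := ⟨by rw [map_zero, map_zero], 0, 0, smul_zero _, map_zero _⟩
        add_mem' := by
          rintro a b ⟨ha, k, x, hx, rfl⟩ ⟨hb, l, y, hy, rfl⟩
          refine ⟨by rw [map_add, map_add, ha, hb], k + l, x + y, ?_, map_add _ _ _⟩
          rw [smul_add, pow_add, mul_smul, mul_smul, hy, smul_zero, add_zero,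
            smul_comm, hx, smul_zero]
        neg_mem' := by
          rintro a ⟨ha, k, x, hx, rfl⟩
          exact ⟨by rw [map_neg, map_neg, ha], k, -x, by rw [smul_neg, hx, neg_zero],
            map_neg _ _⟩ }
    have : Finite S := H.finite.to_subtype
    refine eq_zero_of_finite (r := r) S (y := fun n => red (ev n z)) (fun n => ?_) ?_ fun n => ?_
    · have h1 : red (φ • ev n z - ev n z) = 0 := hz n
      rw [map_sub, H.frob φ hφ, sub_eq_zero] at h1
      exact ⟨by rw [h1, h1], n, ev n z, pow_smul_ev z n, rfl⟩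
    · change red (ev 0 z) = 0
      rw [ev_zero, map_zero]
    · change r • red (ev (n + 1) z) = red (ev n z)
      rw [← map_nsmul, smul_ev_succ]
  obtain ⟨n, hn⟩ := hfin
  have h0 : x' = 0 := by
    apply H.EP_bijective.1
    rw [map_zero]
    refine LinearMap.ext fun z => ?_
    rw [LinearMap.zero_apply]
    obtain ⟨z', hz', c, hc, hcc, hz⟩ := hn z z.2
    -- `E (x, φ z' - z') = 0`
    have h1 : E x (g z') = 0 := by
      change E x (gT φ z' - z') = 0
      have h2 := H.gal φ x z'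
      rw [h, map_smul, LinearMap.smul_apply, smul_eq_mul] at h2
      have h3 : χ φ ≠ 0 := left_ne_zero_of_mul_eq_one (H.cyc.mul_inv H.sys φ)
      have h4 := mul_left_cancel₀ h3 h2
      rw [map_sub, h4, sub_self]
    have h2 : E x c = 0 := H.iso x ⟨hx, x, hex⟩ c ⟨hcc, hc⟩
    have h3 : (r : ℤ_[r]) ^ n * H.EP x' z = 0 := by
      have h4 : (r : ℤ_[r]) ^ n * H.EP x' z = E x ((r : ℤ_[r]) ^ n • (z : TateModule r J)) := by
        rw [map_smul, smul_eq_mul]
        rfl
      rw [h4, hz, map_add, h1, h2, add_zero]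
    exact (mul_eq_zero.mp h3).resolve_left (pow_ne_zero _ hr0)
  exact congrArg Subtype.val h0

/-- **The unit condition.** -/
theorem unit (m : ℕ) (y : J) (hy : ∀ σ : GQ, σ • (r ^ m • y) = r ^ m • y)
    (B : AddSubgroup J) (hB : ∀ b ∈ B, ∃ x ∈ LinearMap.range H.e, ev m x = b)
    (β : B →+ Additive Qbˣ)
    (hyB : ∀ τ ∈ A.inertiaSubgroupIn ℚ, τ • y - y ∈ B) (θ : Qb) (hθ0 : θ ≠ 0)
    (hθ : ∀ τ (hτ : τ ∈ A.inertiaSubgroupIn ℚ), τ θ = vl (β ⟨τ • y - y, hyB τ hτ⟩) * θ)
    (b : ℚ) (hb : θ ^ r = (b : Qb)) : (r : ℤ) ∣ padicValRat r b := by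
  have := H.moduleFinite
  obtain ⟨j, hj⟩ := unit_condition' H.sys H.cyc H.liesr red H.ord
    (fun φ _ τ _ t => H.hcomm φ τ t) H.frob H.finite
    (fun φ hφ x hx hex h => H.hinj hφ x hx hex h) H.div hy B
    (fun b hb => by
      obtain ⟨x, ⟨z, rfl⟩, h⟩ := hB b hb
      exact ⟨z, h⟩) β hyB hθ0 hθ
  have hr0 : (r : Qb) ≠ 0 := by exact_mod_cast hr.out.ne_zero
  have hb0 : b ≠ 0 := by
    rintro rfl
    rw [Rat.cast_zero] at hb
    exact hθ0 (pow_eq_zero_iff hr.out.ne_zero |>.mp hb)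
  have h1 : A.valuation ((r : Qb) ^ (padicValRat r b + r * j)) = A.valuation ((r : Qb) ^ (0 : ℤ)) := by
    rw [zpow_zero, map_one, zpow_add₀ hr0, map_mul, ← valuation_rat hr.out H.liesr hb0, ← hb,
      mul_comm (r : ℤ) j, zpow_mul, zpow_natCast, ← map_mul, ← mul_pow, map_pow, hj, one_pow]
  have h2 := valuation_zpow_inj hr.out H.liesr h1
  exact ⟨-j, by linarith⟩

end RInput

end Abs

end Fermat.Agent.Mazur.Unit
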