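import Fermat.Agent.Mazur.Unit.Output

/-!
# Finiteness inputs of the unit condition from a reduction map
-/

set_option autoImplicit false
set_option linter.unusedSectionVars false

open PadicInt

namespace Fermat.Agent.Mazur.Unit

open Fermat.Agent.Tate

local notation "Qb" => AlgebraicClosure ℚ
local notation "GQ" => AlgebraicClosure ℚ ≃ₐ[ℚ] AlgebraicClosure ℚ

section Algebra

variable {r : ℕ} [hr : Fact r.Prime]

/-- An injective endomorphism of a finite free `ℤ_r`-module has cokernel killed by a power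
of `r`. -/
theorem exists_pow_smul {Q : Type*} [AddCommGroup Q] [Module ℤ_[r] Q] [Module.Finite ℤ_[r] Q]
    [Module.Free ℤ_[r] Q] (f : Q →ₗ[ℤ_[r]] Q) (hf : Function.Injective f) :
    ∃ n : ℕ, ∀ q, ∃ q', (r : ℤ_[r]) ^ n • q = f q' := by
  classical
  let b := Module.Free.chooseBasis ℤ_[r] Q
  let M := LinearMap.toMatrix b b f
  have hdet : M.det ≠ 0 := by
    intro h0
    obtain ⟨v, hv, hMv⟩ := Matrix.exists_mulVec_eq_zero_iff.mpr h0
    apply hv
    have h1 : f (b.equivFun.symm v) = 0 := by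
      apply b.equivFun.injective
      rw [map_zero]
      have h2 := LinearMap.toMatrix_mulVec_repr b b f (b.equivFun.symm v)
      have h3 : ⇑(b.repr (b.equivFun.symm v)) = v := by
        rw [← b.equivFun_apply, LinearEquiv.apply_symm_apply]
      rw [h3] at h2
      rw [b.equivFun_apply, ← h2]
      exact hMv
    have h2 : b.equivFun.symm v = 0 := hf (by rw [h1, map_zero])
    rwa [LinearEquiv.map_eq_zero_iff] at h2
  refine ⟨M.det.valuation, fun q => ?_⟩
  let g := Matrix.toLin b b M.adjugate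
  have h1 : ∀ x, f (g x) = M.det • x := by
    intro x
    have h2 : f = Matrix.toLin b b M := (Matrix.toLin_toMatrix b b f).symm
    have h3 : f ∘ₗ g = M.det • LinearMap.id := by
      rw [h2, ← Matrix.toLin_mul b b b, Matrix.mul_adjugate, map_smul, Matrix.toLin_one]
    exact LinearMap.congr_fun h3 x
  refine ⟨g (((unitCoeff hdet)⁻¹ : ℤ_[r]ˣ).1 • q), ?_⟩
  rw [h1, ← mul_smul]
  congr 1
  conv_rhs =>
    enter [1]
    rw [PadicInt.unitCoeff_spec hdet]
  rw [mul_comm, ← mul_assoc, Units.inv_mul, one_mul]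

variable {T : Type*} [AddCommGroup T] [Module ℤ_[r] T] [Module.Finite ℤ_[r] T]

theorem exists_pow_smul_mem (g : T →ₗ[ℤ_[r]] T) (TP Tc : Submodule ℤ_[r] T)
    (hg : ∀ x ∈ TP, g x ∈ TP) (hgc : ∀ x ∈ Tc, g x ∈ Tc)
    (hinj : ∀ x ∈ TP, g x ∈ Tc → x ∈ Tc)
    (hsat : ∀ (a : ℤ_[r]) (x : T), a ≠ 0 → a • x ∈ Tc → x ∈ Tc) :
    ∃ n : ℕ, ∀ z ∈ TP, ∃ z' ∈ TP, ∃ c ∈ TP, c ∈ Tc ∧ (r : ℤ_[r]) ^ n • z = g z' + c := by
  let K : Submodule ℤ_[r] TP := Tc.comap TP.subtype
  have htf : Module.IsTorsionFree ℤ_[r] (TP ⧸ K) :=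
    Module.isTorsionFree_iff_smul_eq_zero.mpr fun a x h => by
      by_cases ha : a = 0
      · exact Or.inl ha
      · right
        obtain ⟨x, rfl⟩ := Submodule.Quotient.mk_surjective _ x
        rw [← Submodule.Quotient.mk_smul, Submodule.Quotient.mk_eq_zero] at h
        rw [Submodule.Quotient.mk_eq_zero]
        exact hsat a _ ha h
  have hfree : Module.Free ℤ_[r] (TP ⧸ K) := Module.free_of_finite_type_torsion_free'
  let g' : TP →ₗ[ℤ_[r]] TP := g.restrict hg
  have hg' : K ≤ K.comap g' := fun x hx => hgc _ hx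
  let f : (TP ⧸ K) →ₗ[ℤ_[r]] (TP ⧸ K) := K.mapQ K g' hg'
  have hf : Function.Injective f := by
    rw [← LinearMap.ker_eq_bot, LinearMap.ker_eq_bot']
    intro x hx
    obtain ⟨x, rfl⟩ := Submodule.Quotient.mk_surjective _ x
    change Submodule.Quotient.mk (g' x) = 0 at hx
    rw [Submodule.Quotient.mk_eq_zero] at hx ⊢
    exact hinj x x.2 hx
  obtain ⟨n, hn⟩ := exists_pow_smul f hf
  refine ⟨n, fun z hz => ?_⟩
  obtain ⟨q', hq'⟩ := hn (Submodule.Quotient.mk ⟨z, hz⟩)
  obtain ⟨z', rfl⟩ := Submodule.Quotient.mk_surjective _ q'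
  change _ = Submodule.Quotient.mk (g' z') at hq'
  rw [← Submodule.Quotient.mk_smul, Submodule.Quotient.eq] at hq'
  have h1 : (r : ℤ_[r]) ^ n • z - g z' ∈ Tc := hq'
  refine ⟨z', z'.2, (r : ℤ_[r]) ^ n • z - g z', TP.sub_mem (TP.smul_mem _ hz) (hg _ z'.2), h1, ?_⟩
  abel

/-- The Tate module of a finite group vanishes. -/
theorem eq_zero_of_finite {G : Type*} [AddCommGroup G] (S : AddSubgroup G) [Finite S]
    {y : ℕ → G} (hy : ∀ n, y n ∈ S) (h0 : y 0 = 0) (hs : ∀ n, r • y (n + 1) = y n) (n : ℕ) :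
    y n = 0 := by
  have hpow : ∀ k n, r ^ k • y (n + k) = y n := by
    intro k n
    induction k with
    | zero => rw [pow_zero, one_smul, add_zero]
    | succ k ih => rw [pow_succ, mul_smul, ← add_assoc, hs, ih]
  have h1 : r ^ n • y n = 0 := by
    have := hpow n 0
    rwa [zero_add, h0] at this
  have hcard : Nat.card S ≠ 0 := Nat.card_pos.ne'
  obtain ⟨v, s, hs', hcs⟩ := Nat.exists_eq_pow_mul_and_not_dvd hcard r hr.out.ne_one
  have h2 : ∀ k, Nat.card S • y k = 0 := by
    intro k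
    have := card_nsmul_eq_zero' (G := S) (x := ⟨y k, hy k⟩)
    exact congrArg Subtype.val this
  have h3 : s • y n = 0 := by
    rw [← hpow v n, ← mul_smul, mul_comm, ← hcs]
    exact h2 _
  have h4 : Nat.Coprime s (r ^ n) :=
    Nat.Coprime.pow_right n ((Nat.Prime.coprime_iff_not_dvd hr.out).mpr hs').symm
  have h5 : addOrderOf (y n) ∣ 1 := by
    rw [← Nat.Coprime.gcd_eq_one h4]
    exact Nat.dvd_gcd (addOrderOf_dvd_of_nsmul_eq_zero h3) (addOrderOf_dvd_of_nsmul_eq_zero h1)
  rw [Nat.dvd_one, AddMonoid.addOrderOf_eq_one_iff] at h5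
  exact h5

end Algebra

section Red

variable {r : ℕ} [hr : Fact r.Prime] {J Jb : Type*} [AddCommGroup J] [DistribMulAction GQ J]
  [AddCommGroup Jb] (red : J →+ Jb)

theorem mem_kerTate {x : TateModule r J} :
    x ∈ subTate r red.ker ↔ ∀ n, red (ev n x) = 0 := Iff.rfl

theorem kerTate_sat (a : ℤ_[r]) (x : TateModule r J) (ha : a ≠ 0)
    (h : a • x ∈ subTate r red.ker) : x ∈ subTate r red.ker :=
  mem_subTate_of_smul_mem ha h

variable {red} {φ : GQ} {F : Jb →+ Jb} (hF : ∀ x, red (φ • x) = F (red x))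

include hF

theorem gT_mem_kerTate {x : TateModule r J} (hx : x ∈ subTate r red.ker) :
    gT φ x ∈ subTate r red.ker := by
  intro n
  change red (φ • ev n x) = 0
  rw [hF, show red (ev n x) = 0 from hx n, map_zero]

/-- First finiteness input. -/
theorem hfin_of_finite [Module.Finite ℤ_[r] (TateModule r J)]
    (hfix : {z : Jb | F (F z) = z ∧ ∃ (k : ℕ) (x : J), r ^ k • x = 0 ∧ red x = z}.Finite) :
    ∃ n : ℕ, ∀ t : TateModule r J, ∃ t' : TateModule r J, ∃ c ∈ subTate r red.ker,
      (r : ℤ_[r]) ^ n • t = gT φ (gT φ t') - t' + c := by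
  let g : TateModule r J →ₗ[ℤ_[r]] TateModule r J := gT φ ∘ₗ gT φ - LinearMap.id
  obtain ⟨n, hn⟩ := exists_pow_smul_mem g ⊤ (subTate r red.ker) (fun _ _ => trivial)
    (fun x hx => (subTate r red.ker).sub_mem (gT_mem_kerTate hF (gT_mem_kerTate hF hx)) hx)
    (fun x _ hx => by
      let S : AddSubgroup Jb :=
        { carrier := {z : Jb | F (F z) = z ∧ ∃ (k : ℕ) (x : J), r ^ k • x = 0 ∧ red x = z}
          zero_mem' := ⟨by rw [map_zero, map_zero], 0, 0, smul_zero _, map_zero _⟩
          add_mem' := by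
            rintro a b ⟨ha, k, x, hx, rfl⟩ ⟨hb, l, y, hy, rfl⟩
            refine ⟨by rw [map_add, map_add, ha, hb], k + l, x + y, ?_, map_add _ _ _⟩
            rw [smul_add, pow_add, mul_smul, mul_smul, hy, smul_zero, add_zero,
              smul_comm, hx, smul_zero]
          neg_mem' := by
            rintro a ⟨ha, k, x, hx, rfl⟩
            exact ⟨by rw [map_neg, map_neg, ha], k, -x, by rw [smul_neg, hx, neg_zero],
              map_neg _ _⟩ }
      have : Finite S := hfix.to_subtype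
      refine eq_zero_of_finite (r := r) S (y := fun n => red (ev n x)) (fun n => ?_) ?_ fun n => ?_
      · have h1 : red (φ • φ • ev n x - ev n x) = 0 := hx n
        rw [map_sub, hF, hF, sub_eq_zero] at h1
        exact ⟨h1, n, ev n x, pow_smul_ev x n, rfl⟩
      · change red (ev 0 x) = 0
        rw [ev_zero, map_zero]
      · change r • red (ev (n + 1) x) = red (ev n x)
        rw [← map_nsmul, smul_ev_succ])
    (kerTate_sat red)
  refine ⟨n, fun t => ?_⟩
  obtain ⟨z', -, c, -, hc, h⟩ := hn t trivial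
  exact ⟨z', c, hc, h⟩

/-- Second finiteness input. -/
theorem hfin'_of_finite [Module.Finite ℤ_[r] (TateModule r J)]
    {TP : Submodule ℤ_[r] (TateModule r J)} (hTP : ∀ x ∈ TP, gT φ x ∈ TP)
    (hfix : {x : Jb | F x = x}.Finite) :
    ∃ n : ℕ, ∀ z ∈ TP, ∃ z' ∈ TP, ∃ c ∈ TP, c ∈ subTate r red.ker ∧
      (r : ℤ_[r]) ^ n • z = gT φ z' - z' + c := by
  let g : TateModule r J →ₗ[ℤ_[r]] TateModule r J := gT φ - LinearMap.id
  exact exists_pow_smul_mem g TP (subTate r red.ker) (fun x hx => TP.sub_mem (hTP x hx) hx)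
    (fun x hx => (subTate r red.ker).sub_mem (gT_mem_kerTate hF hx) hx)
    (fun x _ hx => by
      let S : AddSubgroup Jb :=
        { carrier := {x : Jb | F x = x}
          zero_mem' := map_zero F
          add_mem' := fun {a b} ha hb => by
            change F (a + b) = a + b
            rw [map_add, ha, hb]
          neg_mem' := fun {a} ha => by
            change F (-a) = -a
            rw [map_neg, ha] }
      have : Finite S := hfix.to_subtype
      refine eq_zero_of_finite (r := r) S (y := fun n => red (ev n x)) (fun n => ?_) ?_ fun n => ?_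
      · have h1 : red (φ • ev n x - ev n x) = 0 := hx n
        rw [map_sub, hF, sub_eq_zero] at h1
        exact h1
      · change red (ev 0 x) = 0
        rw [ev_zero, map_zero]
      · change r • red (ev (n + 1) x) = red (ev n x)
        rw [← map_nsmul, smul_ev_succ])
    (kerTate_sat red)

end Red

end Fermat.Agent.Mazur.Unit
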