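import Fermat.Agent.Mazur.Ord.Modular
import Fermat.Agent.Mazur.Weil.Pairing
import Fermat.Agent.RT.UnitRoot.Main
import Fermat.Agent.EllRed.ResidueField
import Fermat.Agent.S27Lib.FrobCount
import Fermat.Agent.S27Lib.FrobExist

/-!
# The reduction of `J₀(N)` at a place above `r ∤ N` (pieces G1, G2 of S15)
-/

set_option autoImplicit false
set_option linter.unusedSectionVars false
set_option linter.style.haveILetI false
set_option synthInstance.maxHeartbeats 400000

open AlgebraicCurve ModularCurve Fermat.Agent.JRED Fermat.Agent.JRED.ESSemi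
  Fermat.Agent.JRED.ESGalois Fermat.Agent.JRED.ESFinal

noncomputable section

namespace Fermat.Agent.Mazur.Unit

section Frob

open Fermat.Agent.S27Lib

variable {K F : Type*} [Field K] [Field F] [Algebra K F] [IsAlgClosed K] [RR.FunctionField K F]

theorem finite_fixed_sq {p : ℕ} [Fact p.Prime] [CharP K p] {s : ℕ} {σ : SemilinearAut K F}
    (hσ : IsFrob p s σ) : {x : Pic0 K F | σ • σ • x = x}.Finite := by
  obtain ⟨P⟩ := RR.FunctionField.nonempty_place (K := K) (F := F)
  obtain ⟨m, hm, hmP⟩ := place_periodic hσ P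
  have h1 : (σ ^ (2 * m)) • P = P := by
    rw [two_mul, pow_add, mul_smul, hmP, hmP]
  have h2 := finite_fixedCls (hσ.pow (m := 2 * m) (by omega)) h1
  refine Set.Finite.subset (s := {x : Pic0 K F | (σ ^ (2 * m)) • x = x}) h2 fun x hx => ?_
  change (σ ^ (2 * m)) • x = x
  have h3 : ∀ n : ℕ, (σ ^ (2 * n)) • x = x := by
    intro n
    induction n with
    | zero => rw [mul_zero, pow_zero, one_smul]
    | succ n ih =>
      have e1 : 2 * (n + 1) = 2 * n + 1 + 1 := by ring
      rw [e1, pow_succ, pow_succ, mul_smul, mul_smul]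
      have hx' : σ • σ • x = x := hx
      rw [hx', ih]
  exact h3 m

end Frob

section Coeff

variable {k : Type} [Field k] (N : ℕ)

theorem isFrob_coeffSemi {p : ℕ} [hp : Fact p.Prime] [CharP k p] [ExpChar k p] [PerfectRing k p]
    (halg : ∀ a : k, ∃ m : ℕ, 1 ≤ m ∧ a ^ (p ^ m) = a) :
    S27Lib.IsFrob p 1 (coeffSemi N (frobeniusEquiv k p)) where
  r_ne_zero := one_ne_zero
  base a := by
    rw [pow_one]
    change frobeniusEquiv k p a = a ^ p
    rw [frobeniusEquiv_apply, frobenius_def]
  fin f := by
    set σ := coeffSemi N (frobeniusEquiv k p) with hσ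
    have hcoe : ∀ (m : ℕ) (x : modularFunctionFieldFullC k N),
        (((σ ^ m) • x : modularFunctionFieldFullC k N) : LaurentSeries k) =
          coeffMap (iterateFrobenius k p m) (x : LaurentSeries k) := by
      intro m
      induction m with
      | zero =>
        intro x
        rw [pow_zero, one_smul, coeffMap_congr (g := RingHom.id k) (RingHom.ext fun a => by
          rw [iterateFrobenius_def, pow_zero, pow_one]; rfl) (x : LaurentSeries k), coeffMap_id]
      | succ m ih =>
        intro x
        rw [pow_succ, mul_smul, ih, hσ, coe_coeffSemi_smul, coeffMap_coeffMap]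
        refine coeffMap_congr (RingHom.ext fun a => ?_) _
        change iterateFrobenius k p m (frobeniusEquiv k p a) = _
        rw [iterateFrobenius_def, iterateFrobenius_def, frobeniusEquiv_apply, frobenius_def,
          ← pow_mul, pow_succ']
    -- the elements fixed by some power form a subfield
    have key : ∀ x : LaurentSeries k, x ∈ Subfield.closure
        (Set.range (algebraMap k (LaurentSeries k)) ∪ divisorExpansionsC k N) →
        ∃ m : ℕ, 1 ≤ m ∧ ∀ n : ℕ, coeffMap (iterateFrobenius k p (m * n)) x = x := by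
      intro x hx
      have hid : coeffMap (iterateFrobenius k p 0) = RingHom.id (LaurentSeries k) := by
        refine RingHom.ext fun y => ?_
        rw [coeffMap_congr (g := RingHom.id k) (RingHom.ext fun a => by
          rw [iterateFrobenius_def, pow_zero, pow_one]; rfl) y, coeffMap_id]
        rfl
      induction hx using Subfield.closure_induction with
      | mem y hy =>
          rcases hy with ⟨a, rfl⟩ | ⟨d, hd, hdN, rfl⟩
          · obtain ⟨m, hm, ha⟩ := halg a
            refine ⟨m, hm, fun n => ?_⟩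
            rw [coeffMap_algebraMap]
            congr 1
            rw [iterateFrobenius_def]
            induction n with
            | zero => rw [mul_zero, pow_zero, pow_one]
            | succ n ih => rw [Nat.mul_succ, pow_add, pow_mul, ih, ha]
          · refine ⟨1, le_rfl, fun n => ?_⟩
            rw [coeffMap_qExpand, coeffMap_jqModC]
      | one => exact ⟨1, le_rfl, fun n => map_one _⟩
      | add x y _ _ hx hy =>
        obtain ⟨m, hm, h⟩ := hx
        obtain ⟨m', hm', h'⟩ := hy
        refine ⟨m * m', Nat.mul_pos hm hm', fun n => ?_⟩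
        rw [map_add, mul_assoc, h, ← mul_assoc, mul_comm m m', mul_assoc, h']
      | neg x _ hx =>
        obtain ⟨m, hm, h⟩ := hx
        exact ⟨m, hm, fun n => by rw [map_neg, h]⟩
      | inv x _ hx =>
        obtain ⟨m, hm, h⟩ := hx
        exact ⟨m, hm, fun n => by rw [map_inv₀, h]⟩
      | mul x y _ _ hx hy =>
        obtain ⟨m, hm, h⟩ := hx
        obtain ⟨m', hm', h'⟩ := hy
        refine ⟨m * m', Nat.mul_pos hm hm', fun n => ?_⟩
        rw [map_mul, mul_assoc, h, ← mul_assoc, mul_comm m m', mul_assoc, h']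
    obtain ⟨m, hm, h⟩ := key (f : LaurentSeries k) f.2
    refine ⟨m, hm, Subtype.ext ?_⟩
    rw [hcoe]
    have := h 1
    rwa [mul_one] at this

end Coeff

section Data

/-- Reduction data for `J₀(N)` at a place `A` above `r`. -/
structure RedData (N : ℕ) [NeZero N] {r : ℕ} (hr : r.Prime)
    (A : ValuationSubring (AlgebraicClosure ℚ)) where
  /-- the target -/
  Jb : Type
  [inst : AddCommGroup Jb]
  /-- the reduction map -/
  red : JZero N →+ Jb
  /-- the Frobenius -/
  F : Jb →+ Jb
  inertia : ∀ τ ∈ A.inertiaSubgroupIn ℚ, ∀ x, red (τ • x) = red x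
  frob : ∀ φ : AlgebraicClosure ℚ ≃ₐ[ℚ] AlgebraicClosure ℚ, A.IsFrobeniusAt φ r →
    ∀ x, red (φ • x) = F (red x)
  finite : {z : Jb | F (F z) = z ∧ ∃ (k : ℕ) (x : JZero N), r ^ k • x = 0 ∧ red x = z}.Finite
  hecke : ∀ x, red x = 0 → red (heckeOperatorBar N ⟨r, hr⟩ x) = 0
  tame : ∀ W : Set (JZero N), W.Finite → (∀ t ∈ W, r • t = 0) → (∀ t ∈ W, red t = 0) →
    (∀ t ∈ W, ∃ s ∈ W, heckeOperatorBar N ⟨r, hr⟩ s = t) →
    ∀ t ∈ W, ∀ t' ∈ W, Weil.weil r t t' = 1

attribute [instance] RedData.inst

/-- the projection `Pic⁰ → Div / principal` -/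
def toCls {K F : Type*} [Field K] [Field F] [Algebra K F] : Pic0 K F →+
    (Divisor K F ⧸ Divisor.principal (K := K) (F := F)) :=
  QuotientAddGroup.map _ _ (Divisor.degZero (K := K) (F := F)).subtype (fun _ h => h)

theorem toCls_mk {K F : Type*} [Field K] [Field F] [Algebra K F]
    (D : Divisor.degZero (K := K) (F := F)) :
    toCls (Pic0.mk D) = QuotientAddGroup.mk (D : Divisor K F) := rfl

theorem toCls_injective {K F : Type*} [Field K] [Field F] [Algebra K F] :
    Function.Injective (toCls (K := K) (F := F)) := by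
  rw [injective_iff_map_eq_zero]
  intro x hx
  obtain ⟨D, rfl⟩ := Pic0.mk_surjective x
  rw [toCls_mk] at hx
  have h1 := (QuotientAddGroup.eq_zero_iff _).mp hx
  exact (QuotientAddGroup.eq_zero_iff _).mpr (AddSubgroup.mem_addSubgroupOf.mpr h1)

/-- the action of a semilinear automorphism on `Div / principal` -/
def actCls {K F : Type*} [Field K] [Field F] [Algebra K F] (σ : SemilinearAut K F) :
    (Divisor K F ⧸ Divisor.principal (K := K) (F := F)) →+
      (Divisor K F ⧸ Divisor.principal (K := K) (F := F)) :=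
  QuotientAddGroup.map _ _ (DistribSMul.toAddMonoidHom (Divisor K F) σ)
    (fun _ h => SemilinearAut.smul_mem_principal σ h)

theorem actCls_mk {K F : Type*} [Field K] [Field F] [Algebra K F] (σ : SemilinearAut K F)
    (D : Divisor K F) : actCls σ (QuotientAddGroup.mk D) = QuotientAddGroup.mk (σ • D) := rfl

theorem actCls_toCls {K F : Type*} [Field K] [Field F] [Algebra K F] (σ : SemilinearAut K F)
    (x : Pic0 K F) : actCls σ (toCls x) = toCls (σ • x) := by
  obtain ⟨D, rfl⟩ := Pic0.mk_surjective x
  rfl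

/-- Existence of the reduction data. -/
theorem exists_redData (N : ℕ) [NeZero N] {r : ℕ} (hr : r.Prime) (hrN : ¬ r ∣ N)
    {A : ValuationSubring (AlgebraicClosure ℚ)} (hA : A.LiesOverPrime r) :
    Nonempty (RedData N hr A) := by
  have hπ : Function.Surjective (IsLocalRing.residue A) := IsLocalRing.residue_surjective
  have i1 : CharP (IsLocalRing.ResidueField A) r := charP_of_liesOver hπ hr hA
  have i2 : IsAlgClosed (IsLocalRing.ResidueField A) := isAlgClosed_of_surjective hπ
  have : NeZero r := ⟨hr.ne_zero⟩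
  have : Fact r.Prime := ⟨hr⟩
  have i3 : ExpChar (IsLocalRing.ResidueField A) r := ExpChar.prime hr
  have i4 : PerfectRing (IsLocalRing.ResidueField A) r := inferInstance
  have hD : DegreeInput N (IsLocalRing.ResidueField A) := degreeInput' (NeZero.ne N) hrN
  have hG : GoodReduction N (IsLocalRing.ResidueField A) :=
    JRED.goodReduction hπ hr (NeZero.ne N) hrN
  have hAL := AL.atkinLehnerInput N r hr hrN
  have i6 := hD.functionField'
  let M : ModularConstRed N (IsLocalRing.residue A) := hD.modularConstRed hπ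
  obtain ⟨q, hq⟩ := M.exists_isPlaceMap hπ hD hG
  have hτ : ∀ σ : AlgebraicClosure ℚ ≃ₐ[ℚ] AlgebraicClosure ℚ, A.IsFrobeniusAt σ r →
      IsResidual (IsLocalRing.residue A) σ (frobeniusEquiv (IsLocalRing.ResidueField A) r) :=
    fun σ hσ => isResidual_of_frobenius hπ hσ _ fun x => by rw [frobeniusEquiv_apply, frobenius_def]
  set τ := frobeniusEquiv (IsLocalRing.ResidueField A) r
  have hdeg : ∀ P, (q P).deg = P.deg := (M.isPlaceReductionAlong hπ hD hq).1
  have hfrob : ∀ φ : AlgebraicClosure ℚ ≃ₐ[ℚ] AlgebraicClosure ℚ, A.IsFrobeniusAt φ r →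
      ∀ x, redMap M hq (φ • x) = actCls (coeffSemi N τ) (redMap M hq x) := by
    intro φ hφ x
    obtain ⟨D, rfl⟩ := Pic0.mk_surjective x
    rw [redMap_smul_mk M hq (hτ φ hφ), redMap_mk, actCls_mk]
  let _ : Algebra (ZMod r) (IsLocalRing.ResidueField A) := ZMod.algebra _ r
  have halg : Algebra.IsAlgebraic (ZMod r) (IsLocalRing.ResidueField A) :=
    ResField.isAlgebraic_residueField hr
  have hFrob : S27Lib.IsFrob r 1 (coeffSemi N τ) :=
    isFrob_coeffSemi N (fun a => S27Lib.exists_pow_eq r a)
  refine ⟨⟨_, redMap M hq, actCls (coeffSemi N τ), fun σ hσ x => redMap_inertia M hq hπ hσ x,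
    hfrob, ?_, ?_, ?_⟩⟩
  · -- finiteness
    refine Set.Finite.subset ((finite_fixed_sq hFrob).image toCls) ?_
    rintro z ⟨hz, k, x, -, rfl⟩
    obtain ⟨D, rfl⟩ := Pic0.mk_surjective x
    have h1 : redMap M hq (Pic0.mk D) = toCls (Pic0.mk ⟨Finsupp.mapDomain q
        (D : Divisor (AlgebraicClosure ℚ) (modularFunctionFieldBar N)),
          mapDomain_mem_degZero_of_deg_eq hdeg D.2⟩) := rfl
    refine ⟨_, ?_, h1.symm⟩
    change _ • _ • _ = _
    apply toCls_injective
    rw [← actCls_toCls, ← actCls_toCls, ← h1]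
    exact hz
  · -- stability of the kernel under `T_r`
    intro x hx
    obtain ⟨φ, hφ⟩ := FrobExists.exists_isFrobeniusAt A hr hA
    have hinv : redMap M hq (φ⁻¹ • x) = 0 := by
      obtain ⟨hφD, -⟩ := hφ
      obtain ⟨τ', hτ'⟩ := exists_isResidual hπ (inv_mem hφD)
      exact redMap_eq_zero_of_smul M hq hτ' x hx
    have h1 := RT.UnitRoot.redMap_frobenius M hq hπ hr hA hD hAL hφ (φ⁻¹ • x)
    rw [smul_inv_smul, map_add, map_sub, map_nsmul, hinv, smul_zero, add_zero, hfrob φ hφ, hx,
      map_zero, zero_sub, neg_eq_zero] at h1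
    exact h1
  · -- tameness
    intro W hW htors hred hsurj t ht t' ht'
    obtain ⟨D, D', f, f', hf, hf', hDt, hDt', hrD, hrD', hdis, hdis', himp⟩ :=
      Ord.exists_tame_pair hπ hr hrN hG M hq hW htors hred hsurj ht ht'
    have hr0 : (r : ℤ) ≠ 0 := by exact_mod_cast hr.ne_zero
    have hdisj : ∀ P, (D : Divisor (AlgebraicClosure ℚ) (modularFunctionFieldBar N)) P ≠ 0 →
        (D' : Divisor (AlgebraicClosure ℚ) (modularFunctionFieldBar N)) P = 0 := by
      intro P hP
      by_contra h0
      have h1 : P.ord f = 0 := hdis P h0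
      have h2 : (r • (D : Divisor (AlgebraicClosure ℚ) (modularFunctionFieldBar N))) P = 0 := by
        rw [hrD, RR.divOf_apply, h1]
      rw [Finsupp.smul_apply, nsmul_eq_mul] at h2
      exact hP ((mul_eq_zero.mp h2).resolve_left (by exact_mod_cast hr.ne_zero))
    have h3 := Weil.weil_eq hf hf' hDt hDt' hrD hrD' hdisj
    have h4 := Weil.weil_pow r t t'
    have h5 : Weil.evalDiv f' (D : Divisor (AlgebraicClosure ℚ) (modularFunctionFieldBar N)) ≠ 0 :=
      Weil.evalDiv_ne_zero hf' hdis'
    rw [h3, div_pow, div_eq_one_iff_eq (pow_ne_zero r h5)] at h4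
    rw [h3, himp h4, div_self h5]

end Data

end Fermat.Agent.Mazur.Unit
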