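import Fermat.Agent.Mazur.Unit.Final
import Fermat.Agent.Mazur.Unit.ModRed
import Fermat.Agent.Mazur.Weil.HeckeAdj
import Fermat.Agent.S27D.Divisible
import Fermat.Agent.GAL.Smooth
import Fermat.Agent.Jan.GaloisHecke
import Fermat.Agent.RR.HoloModular

/-!
# The inputs at `r` of the Eisenstein descent for `J₀(N)` (piece G of S15)
-/

set_option autoImplicit false
set_option linter.unusedSectionVars false

open PadicInt ModularCurve AlgebraicCurve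

namespace Fermat.Agent.Mazur.Unit

open Fermat.Agent.Tate

local notation "Qb" => AlgebraicClosure ℚ
local notation "GQ" => AlgebraicClosure ℚ ≃ₐ[ℚ] AlgebraicClosure ℚ

section Cyc

variable {r : ℕ} [hr : Fact r.Prime] {ζ : ℕ → Qb} {χ : GQ → ℤ_[r]}

theorem toZModPow_eq_cyc (hζ : IsSys r ζ) (hχ : IsCyc ζ χ) (m : ℕ) [NeZero (r ^ m)] (σ : GQ) :
    toZModPow m (χ σ) = ((Cyclotomic.cyc (r ^ m) σ : (ZMod (r ^ m))ˣ) : ZMod (r ^ m)) := by
  have h1 : σ (ζ m) = zp ζ m (χ σ) := hχ σ m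
  have h2 := Cyclotomic.cyc_spec (r ^ m) σ (hζ.prim m).pow_eq_one
  have h3 : toZModPow m (χ σ) =
      ((toZModPow m (χ σ)).val : ZMod (r ^ m)) := (ZMod.natCast_zmod_val _).symm
  rw [h2, zp_eq_pow hζ h3] at h1
  have h4 := (pow_eq_pow_iff' hζ (k := m)).mp h1
  rw [h3, ← h4, ZMod.natCast_zmod_val]

end Cyc

section Pairing

variable {N : ℕ} [RR.FunctionField Qb (modularFunctionFieldBar N)]
  {r : ℕ} [hr : Fact r.Prime] {ζ : ℕ → Qb} {χ : GQ → ℤ_[r]}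
  {E : TateModule r (JZero N) →ₗ[ℤ_[r]] TateModule r (JZero N) →ₗ[ℤ_[r]] ℤ_[r]}

theorem skew_of_weil (hζ : IsSys r ζ)
    (hE : ∀ (k : ℕ) (x y : TateModule r (JZero N)),
      zp ζ k (E x y) = Weil.weil (r ^ k) (ev k x) (ev k y)) (x y : TateModule r (JZero N)) :
    E x y = -E y x := by
  refine eq_of_zp hζ fun k => ?_
  have h1 : zp ζ k (E y x) * zp ζ k (-E y x) = 1 := by
    rw [← zp_add hζ, add_neg_cancel, zp_zero hζ]
  rw [hE, Weil.weil_swap, ← hE]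
  exact (eq_inv_of_mul_eq_one_right h1).symm

theorem gal_of_weil (hζ : IsSys r ζ) (hχ : IsCyc ζ χ)
    (hE : ∀ (k : ℕ) (x y : TateModule r (JZero N)),
      zp ζ k (E x y) = Weil.weil (r ^ k) (ev k x) (ev k y)) (σ : GQ)
    (x y : TateModule r (JZero N)) :
    E (gT σ x) (gT σ y) = χ σ * E x y := by
  refine eq_of_zp hζ fun k => ?_
  rw [hE, ev_gT, ev_gT, Weil.weil_galois, ← hE, zp_galois hζ hχ]

theorem dvd_of_weil (hζ : IsSys r ζ)
    (hE : ∀ (k : ℕ) (x y : TateModule r (JZero N)),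
      zp ζ k (E x y) = Weil.weil (r ^ k) (ev k x) (ev k y)) {x y : TateModule r (JZero N)}
    (h : Weil.weil r (ev 1 x) (ev 1 y) = 1) : (r : ℤ_[r]) ∣ E x y := by
  have h1 := hE 1 x y
  rw [pow_one, h, zp_eq_one_iff hζ, ← RingHom.mem_ker, ker_toZModPow, pow_one,
    Ideal.mem_span_singleton] at h1
  exact h1

end Pairing

section Main

variable {N : ℕ} [NeZero N] {r : ℕ} [hr : Fact r.Prime] {ζ : ℕ → Qb} {χ : GQ → ℤ_[r]}
  {A : ValuationSubring Qb}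
  {E : TateModule r (JZero N) →ₗ[ℤ_[r]] TateModule r (JZero N) →ₗ[ℤ_[r]] ℤ_[r]}

theorem selfadj_of_weil (hrN : ¬ r ∣ N) (hζ : IsSys r ζ)
    (hE : ∀ (k : ℕ) (x y : TateModule r (JZero N)),
      zp ζ k (E x y) = Weil.weil (r ^ k) (ev k x) (ev k y)) (x y : TateModule r (JZero N)) :
    E (Tate.map (heckeOperatorBar N ⟨r, hr.out⟩) x) y =
      E x (Tate.map (heckeOperatorBar N ⟨r, hr.out⟩) y) := by
  refine eq_of_zp hζ fun k => ?_
  rw [hE, hE, ev_map, ev_map]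
  exact Weil.weil_hecke N ⟨r, hr.out⟩ hrN (pow_smul_ev x k) (pow_smul_ev y k)

/-- The inputs at `r`. -/
theorem exists_rInput (hrN : ¬ r ∣ N) (hA : A.LiesOverPrime r) (hζ : IsSys r ζ) (hχ : IsCyc ζ χ)
    (hE : ∀ (k : ℕ) (x y : TateModule r (JZero N)),
      zp ζ k (E x y) = Weil.weil (r ^ k) (ev k x) (ev k y))
    (hbij : Function.Bijective E)
    (hes : ∀ (m : ℕ) (σ : GQ), ∃ (c : ℕ) (a : JZero N → JZero N),
      (c : ZMod (r ^ m)) = toZModPow m (χ σ) ∧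
      (∀ (τ : GQ) (x : JZero N), a (τ • x) = τ • a x) ∧
      ∀ x : JZero N, r ^ m • x = 0 → σ • σ • x + c • x = a (σ • x)) :
    ∃ (Jb : Type) (_ : AddCommGroup Jb) (red : JZero N →+ Jb) (F : Jb →+ Jb),
      RInput A ζ χ E (heckeOperatorBar N ⟨r, hr.out⟩) red F := by
  obtain ⟨D⟩ := exists_redData N hr.out hrN hA
  refine ⟨D.Jb, D.inst, D.red, D.F, ?_⟩
  exact
    { liesr := hA
      sys := hζ
      cyc := hχ
      fin := fun k => (S27D.finite_torsion Qb (modularFunctionFieldBar N) r k).to_subtype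
      div := fun x => S27D.pic0_divisible Qb (modularFunctionFieldBar N) r hr.out.ne_zero x
      smooth := fun y => GAL.Smooth.smooth_JZero N y
      comm := fun σ x => Jan.GaloisHecke.heckeOperatorBar_smul N ⟨r, hr.out⟩ σ x
      bij := hbij
      skew := skew_of_weil hζ hE
      gal := gal_of_weil hζ hχ hE
      selfadj := selfadj_of_weil hrN hζ hE
      inertia := D.inertia
      frob := D.frob
      finite := D.finite
      hecke := D.hecke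
      tame := fun W h1 h2 h3 h4 x y hx hy => dvd_of_weil hζ hE (D.tame W h1 h2 h3 h4 _ hx _ hy)
      es := hes }

/-- **Piece G of S15**: all the fields at `r` of `TheoremA.Inputs`. -/
theorem exists_inputs_at_r {R : Type*} [CommRing R] [Module R (JZero N)] (U : R)
    (hU : ∀ x : JZero N, U • x = heckeOperatorBar N ⟨r, hr.out⟩ x)
    (hrN : ¬ r ∣ N) (hA : A.LiesOverPrime r) (hζ : IsSys r ζ) (hχ : IsCyc ζ χ)
    (hE : ∀ (k : ℕ) (x y : TateModule r (JZero N)),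
      zp ζ k (E x y) = Weil.weil (r ^ k) (ev k x) (ev k y))
    (hbij : Function.Bijective E)
    (hes : ∀ (m : ℕ) (σ : GQ), ∃ (c : ℕ) (a : JZero N → JZero N),
      (c : ZMod (r ^ m)) = toZModPow m (χ σ) ∧
      (∀ (τ : GQ) (x : JZero N), a (τ • x) = τ • a x) ∧
      ∀ x : JZero N, r ^ m • x = 0 → σ • σ • x + c • x = a (σ • x)) :
    ∃ (Tc TP : Submodule ℤ_[r] (TateModule r (JZero N)))
      (e : TateModule r (JZero N) →ₗ[ℤ_[r]] TateModule r (JZero N)),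
      (∀ τ ∈ A.inertiaSubgroupIn ℚ, ∀ y : Hat r (JZero N), dl τ y ∈ Tc) ∧
      (∀ x, e x ∈ TP) ∧
      (∀ x ∈ TP, e x = x) ∧
      (∀ x ∈ Tc, e x ∈ Tc) ∧
      (∀ m : ℕ, ∃ s : ℕ, ∀ t, ev m (e t) = U ^ s • ev m t) ∧
      (∀ x ∈ Tc ⊓ TP, ∀ y ∈ Tc ⊓ TP, E x y = 0) ∧
      (∀ τ ∈ A.inertiaSubgroupIn ℚ, ∀ x ∈ Tc ⊓ TP, gT τ x = χ τ • x) ∧
      (∀ (m : ℕ) (y : JZero N), (∀ σ : GQ, σ • (r ^ m • y) = r ^ m • y) →
        ∀ (B : AddSubgroup (JZero N)), (∀ b ∈ B, ∃ x ∈ TP, ev m x = b) →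
        ∀ (β : B →+ Additive Qbˣ), (∀ b, r • β b = 0) →
        ∀ (hyB : ∀ τ ∈ A.inertiaSubgroupIn ℚ, τ • y - y ∈ B) (θ : Qb), θ ≠ 0 →
        (∀ τ (hτ : τ ∈ A.inertiaSubgroupIn ℚ), τ θ = vl (β ⟨τ • y - y, hyB τ hτ⟩) * θ) →
        ∀ b : ℚ, θ ^ r = (b : Qb) → (r : ℤ) ∣ padicValRat r b) := by
  obtain ⟨Jb, _, red, F, H⟩ := exists_rInput hrN hA hζ hχ hE hbij hes
  refine ⟨subTate r red.ker, LinearMap.range H.e, H.e, H.inertia_mem, fun x => ⟨x, rfl⟩,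
    fun x hx => H.e_of_mem hx, H.e_c, fun m => ⟨sq (heckeOperatorBar N ⟨r, hr.out⟩) H.fin m,
      fun t => ?_⟩, H.iso, H.actW,
    fun m y hy B hB β _ hyB θ hθ0 hθ b hb => H.unit m y hy B hB β hyB θ hθ0 hθ b hb⟩
  have h1 : ∀ (n : ℕ) (x : JZero N),
      itr (heckeOperatorBar N ⟨r, hr.out⟩) n x = U ^ n • x := by
    intro n x
    induction n with
    | zero => rw [pow_zero, one_smul]; rfl
    | succ n ih =>
      rw [itr_succ, ih, pow_succ', mul_smul, hU]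
      rfl
  exact h1 _ _

end Main

end Fermat.Agent.Mazur.Unit
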