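import Fermat.Agent.Mazur.Unit.Finite

/-!
# The unit condition by weights, ordinary projector form (piece U of S15)

Same argument as in `Pair.lean`, with functionals instead of a pairing.
-/

set_option autoImplicit false
set_option linter.unusedSectionVars false

open PadicInt

namespace Fermat.Agent.Mazur.Unit

open Fermat.Agent.Tate

local notation "Qb" => AlgebraicClosure ℚ
local notation "GQ" => AlgebraicClosure ℚ ≃ₐ[ℚ] AlgebraicClosure ℚ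

section Cyc

variable {r : ℕ} [hr : Fact r.Prime] {ζ : ℕ → Qb} {χ : GQ → ℤ_[r]}

theorem eq_of_zp (hζ : IsSys r ζ) {a b : ℤ_[r]} (h : ∀ k, zp ζ k a = zp ζ k b) : a = b :=
  ext_of_toZModPow.mp fun k => zp_inj hζ (h k)

theorem IsCyc.map_mul (hχ : IsCyc ζ χ) (hζ : IsSys r ζ) (σ τ : GQ) :
    χ (σ * τ) = χ σ * χ τ := by
  refine eq_of_zp hζ fun k => ?_
  rw [← hχ, ← zp_galois hζ hχ, ← hχ]
  rfl

theorem IsCyc.map_one (hχ : IsCyc ζ χ) (hζ : IsSys r ζ) : χ 1 = 1 := by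
  refine eq_of_zp hζ fun k => ?_
  rw [← hχ, zp_one hζ]
  rfl

theorem IsCyc.mul_inv (hχ : IsCyc ζ χ) (hζ : IsSys r ζ) (σ : GQ) : χ σ * χ σ⁻¹ = 1 := by
  rw [← hχ.map_mul hζ, mul_inv_cancel, hχ.map_one hζ]

theorem IsCyc.inv_mul (hχ : IsCyc ζ χ) (hζ : IsSys r ζ) (σ : GQ) : χ σ⁻¹ * χ σ = 1 := by
  rw [← hχ.map_mul hζ, inv_mul_cancel, hχ.map_one hζ]

end Cyc

section Algebra

variable {r : ℕ} [hr : Fact r.Prime]

/-- An injective endomorphism of a finite free `ℤ_r`-module divides a power of `r`. -/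
theorem exists_comp_eq {Q : Type*} [AddCommGroup Q] [Module ℤ_[r] Q] [Module.Finite ℤ_[r] Q]
    [Module.Free ℤ_[r] Q] (f : Q →ₗ[ℤ_[r]] Q) (hf : Function.Injective f) :
    ∃ (n : ℕ) (g : Q →ₗ[ℤ_[r]] Q), ∀ q, g (f q) = (r : ℤ_[r]) ^ n • q := by
  obtain ⟨n, hn⟩ := exists_pow_smul f hf
  choose g hg using hn
  refine ⟨n, { toFun := g, map_add' := fun x y => hf ?_, map_smul' := fun a x => hf ?_ },
    fun q => hf ?_⟩
  · rw [map_add, ← hg, ← hg, ← hg, smul_add]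
  · rw [RingHom.id_apply, map_smul, ← hg, ← hg, smul_comm]
  · change f (g (f q)) = _
    rw [← hg, map_smul]

end Algebra

section Main

variable {r : ℕ} [hr : Fact r.Prime] {J : Type*} [AddCommGroup J] [DistribMulAction GQ J]

/-- The hypotheses of the unit condition, with a projector `e`. -/
structure Ord (A : ValuationSubring Qb) (χ : GQ → ℤ_[r])
    (e : TateModule r J →ₗ[ℤ_[r]] TateModule r J)
    (Tc : Submodule ℤ_[r] (TateModule r J)) : Prop where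
  /-- `J` is a smooth Galois module. -/
  smooth : ∀ y : J, ∃ L : IntermediateField ℚ Qb, FiniteDimensional ℚ L ∧
    ∀ g : GQ, (∀ x ∈ L, g x = x) → g • y = y
  idem : ∀ x, e (e x) = e x
  comm : ∀ (σ : GQ) (x : TateModule r J), e (gT σ x) = gT σ (e x)
  pres : ∀ x ∈ Tc, e x ∈ Tc
  /-- Inertia acts trivially on the reduction. -/
  inertia : ∀ τ ∈ A.inertiaSubgroupIn ℚ, ∀ y : Hat r J, dl τ y ∈ Tc
  /-- Inertia acts through the cyclotomic character on the connected part. -/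
  cyc : ∀ τ ∈ A.inertiaSubgroupIn ℚ, ∀ x ∈ Tc, gT τ (e x) = χ τ • e x

variable {A : ValuationSubring Qb} {χ : GQ → ℤ_[r]} {ζ : ℕ → Qb}
  {e : TateModule r J →ₗ[ℤ_[r]] TateModule r J}
  {Tc : Submodule ℤ_[r] (TateModule r J)} (H : Ord A χ e Tc)

include H

theorem exists_valO (hζ : IsSys r ζ) (hχ : IsCyc ζ χ) (hA : A.LiesOverPrime r)
    (y : Hat r J) (Λ : TateModule r J →ₗ[ℤ_[r]] ℤ_[r]) :
    ∃ v : ℤ_[r], HasVal A ζ (fun τ => Λ (e (dl τ y))) v := by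
  refine exists_hasVal hζ hA hχ (fun g hg h hh => ?_) fun k => ?_
  · rw [dl_mul, map_add, map_add, H.comm, H.cyc g hg _ (H.inertia h hh y), map_smul, smul_eq_mul,
      add_comm]
  · obtain ⟨L, hL, h⟩ := H.smooth (y.1 k)
    refine ⟨L, hL, fun g _ hgL => ?_⟩
    have h1 : ev k (dl g y) = 0 := by rw [ev_dl, h g hgL, sub_self]
    rw [ev_eq_zero_iff] at h1
    obtain ⟨t, ht⟩ := h1
    rw [← ht, map_smul, map_smul, smul_eq_mul, map_mul, map_pow, map_natCast,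
      ← Nat.cast_pow, ZMod.natCast_self, zero_mul]

theorem valO_conj (hζ : IsSys r ζ) (hχ : IsCyc ζ χ) {σ : GQ} (hσ : σ ∈ A.decompositionSubgroup ℚ)
    (hnorm : ∀ τ ∈ A.inertiaSubgroupIn ℚ, σ⁻¹ * τ * σ ∈ A.inertiaSubgroupIn ℚ)
    {y : Hat r J} {Λ : TateModule r J →ₗ[ℤ_[r]] ℤ_[r]} {v : ℤ_[r]}
    (hv : HasVal A ζ (fun τ => (Λ ∘ₗ gT σ) (e (dl τ y))) v) :
    HasVal A ζ (fun τ => χ σ * Λ (e (dl τ (act σ y)))) v :=
  (hv.conj hζ hχ hσ hnorm).congr fun τ _ => by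
    rw [dl_act, H.comm]
    rfl

/-- The weight of a hat `y` and a functional `Λ`. -/
theorem exists_weight (hζ : IsSys r ζ) (hχ : IsCyc ζ χ) (hA : A.LiesOverPrime r) :
    ∃ w : Hat r J → (TateModule r J →ₗ[ℤ_[r]] ℤ_[r]) → ℤ_[r],
      (∀ y Λ, HasVal A ζ (fun τ => Λ (e (dl τ y))) (w y Λ)) ∧
      (∀ y y' Λ, w (y + y') Λ = w y Λ + w y' Λ) ∧
      (∀ y Λ Λ', w y (Λ + Λ') = w y Λ + w y Λ') ∧
      (∀ (a : ℤ_[r]) y Λ, w y (a • Λ) = a * w y Λ) ∧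
      (∀ (a : ℤ_[r]) t Λ, w (inc (a • t)) Λ = a * w (inc t) Λ) ∧
      (∀ y Λ, (∀ x ∈ Tc, Λ (e x) = 0) → w y Λ = 0) ∧
      (∀ t ∈ Tc, ∀ Λ, w (inc t) Λ = 0) ∧
      (∀ σ ∈ A.decompositionSubgroup ℚ,
        (∀ τ ∈ A.inertiaSubgroupIn ℚ, σ⁻¹ * τ * σ ∈ A.inertiaSubgroupIn ℚ) → ∀ y Λ,
          w y (Λ ∘ₗ gT σ) = χ σ * w (act σ y) Λ) := by
  choose w hw using fun y Λ => exists_valO H hζ hχ hA y Λ
  refine ⟨w, hw, fun y y' Λ => ?_, fun y Λ Λ' => ?_, fun a y Λ => ?_, fun a t Λ => ?_,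
    fun y Λ h => ?_, fun t ht Λ => ?_, fun σ hσ hnorm y Λ => ?_⟩
  · refine HasVal.unique hA (hw _ _) (((hw y Λ).add hζ (hw y' Λ)).congr fun τ _ => ?_)
    rw [dl_add, map_add, map_add]
  · exact HasVal.unique hA (hw _ _) (((hw y Λ).add hζ (hw y Λ')).congr fun τ _ => rfl)
  · exact HasVal.unique hA (hw _ _) (((hw y Λ).mul hζ a).congr fun τ _ => rfl)
  · refine HasVal.unique hA (hw _ _) (((hw (inc t) Λ).mul hζ a).congr fun τ _ => ?_)
    rw [dl_inc, dl_inc, map_smul, ← smul_sub, map_smul, map_smul, smul_eq_mul]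
  · refine HasVal.unique hA (hw _ _) ((hasVal_zero hζ).congr fun τ hτ => ?_)
    exact (h _ (H.inertia τ hτ y)).symm
  · refine HasVal.unique hA (hw _ _) ((hasVal_coboundary hζ hχ (Λ (e t))).congr fun τ hτ => ?_)
    rw [dl_inc, map_sub, H.comm, H.cyc τ hτ t ht, map_sub, map_smul, smul_eq_mul]
  · exact HasVal.unique hA (valO_conj H hζ hχ hσ hnorm (hw y (Λ ∘ₗ gT σ)))
      ((hw (act σ y) Λ).mul hζ (χ σ))

/-- **The unit condition**: all weights vanish. -/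
theorem weight_eq_zero [Module.Finite ℤ_[r] (TateModule r J)] (hζ : IsSys r ζ) (hχ : IsCyc ζ χ)
    (hA : A.LiesOverPrime r) {φ : GQ} (hφ : φ ∈ A.decompositionSubgroup ℚ)
    (hnormal : ∀ σ ∈ A.decompositionSubgroup ℚ, ∀ τ ∈ A.inertiaSubgroupIn ℚ,
      σ⁻¹ * τ * σ ∈ A.inertiaSubgroupIn ℚ)
    (hχφ : χ φ ≠ 1)
    (hcomm : ∀ τ ∈ A.inertiaSubgroupIn ℚ, ∀ t : TateModule r J,
      gT τ (gT φ t + χ φ • gT φ⁻¹ t) = gT φ (gT τ t) + χ φ • gT φ⁻¹ (gT τ t))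
    (hfin : ∃ n : ℕ, ∀ t : TateModule r J, ∃ t' : TateModule r J, ∃ c ∈ Tc,
      (r : ℤ_[r]) ^ n • t = gT φ (gT φ t') - t' + c)
    (hTc : ∀ x ∈ Tc, gT φ x ∈ Tc)
    (hsat : ∀ (a : ℤ_[r]) (x : TateModule r J), a ≠ 0 → a • x ∈ Tc → x ∈ Tc)
    (hinj : ∀ x ∈ Tc, e x = x → gT φ x = χ φ • x → x = 0)
    (y : Hat r J) (Λ : TateModule r J →ₗ[ℤ_[r]] ℤ_[r]) :
    HasVal A ζ (fun τ => Λ (e (dl τ y))) 0 := by
  obtain ⟨w, hw, w_add, w_add', w_smul', w_smul, w_zero, w_Tc, w_conj⟩ :=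
    exists_weight H hζ hχ hA
  have hr0 : (r : ℤ_[r]) ≠ 0 := by exact_mod_cast hr.out.ne_zero
  have hφ' : φ⁻¹ ∈ A.decompositionSubgroup ℚ := inv_mem hφ
  have c1 : ∀ y Λ, w y (Λ ∘ₗ gT φ) = χ φ * w (act φ y) Λ := w_conj φ hφ (hnormal φ hφ)
  have c2 : ∀ y Λ, w y (Λ ∘ₗ gT φ⁻¹) = χ φ⁻¹ * w (act φ⁻¹ y) Λ :=
    w_conj φ⁻¹ hφ' (hnormal φ⁻¹ hφ')
  -- weights on the Tate module
  have key : ∀ t Λ, w (inc t) Λ = 0 := by
    have inc_add : ∀ t t' : TateModule r J, inc (t + t') = inc t + inc t' := fun t t' => by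
      apply Subtype.ext
      funext k
      exact map_add (ev k) t t'
    have h1 : ∀ t Λ, w (inc (gT φ t + χ φ • gT φ⁻¹ t)) Λ =
        w (inc t) (Λ ∘ₗ (gT φ + χ φ • gT φ⁻¹)) := by
      intro t Λ
      refine HasVal.unique hA (hw _ _) ((hw _ _).congr fun τ hτ => ?_)
      rw [dl_inc, dl_inc, hcomm τ hτ]
      change Λ (gT φ (e (gT τ t - t)) + χ φ • gT φ⁻¹ (e (gT τ t - t))) = _
      rw [← H.comm, ← H.comm, ← map_smul, ← map_add]
      congr 2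
      rw [map_sub, map_sub, smul_sub]
      abel
    have h2 : ∀ t Λ, w (inc (gT φ t)) Λ = w (inc (gT φ⁻¹ t)) Λ := by
      intro t Λ
      have h3 := h1 t Λ
      have e1 : Λ ∘ₗ (gT φ + χ φ • gT φ⁻¹) = Λ ∘ₗ gT φ + χ φ • (Λ ∘ₗ gT φ⁻¹) := by
        rw [LinearMap.comp_add, LinearMap.comp_smul]
      rw [e1, inc_add, w_add, w_smul, w_add', w_smul', c1, c2, ← inc_gT, ← inc_gT] at h3
      have h4 : χ φ * (χ φ⁻¹ * w (inc (gT φ⁻¹ t)) Λ) = w (inc (gT φ⁻¹ t)) Λ := by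
        rw [← mul_assoc, hχ.mul_inv hζ, one_mul]
      rw [h4] at h3
      have h5 : (1 - χ φ) * (w (inc (gT φ t)) Λ - w (inc (gT φ⁻¹ t)) Λ) = 0 := by
        linear_combination h3
      rcases mul_eq_zero.mp h5 with h6 | h6
      · exact absurd (sub_eq_zero.mp h6).symm hχφ
      · exact sub_eq_zero.mp h6
    intro t Λ
    obtain ⟨n, hn⟩ := hfin
    obtain ⟨t', c, hc, h5⟩ := hn t
    have h6 : (r : ℤ_[r]) ^ n * w (inc t) Λ = 0 := by
      have e1 : gT φ (gT φ t') - t' + c = gT φ (gT φ t') + ((-1 : ℤ_[r]) • t' + c) := by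
        rw [neg_smul, one_smul]
        abel
      rw [← w_smul, h5, e1, inc_add, inc_add, w_add, w_add, w_smul, w_Tc c hc, h2, gT_inv_self]
      ring
    rcases mul_eq_zero.mp h6 with h | h
    · exact absurd h (pow_ne_zero _ hr0)
    · exact h
  -- weights on hats
  have h1 : ∀ Λ, w y (Λ ∘ₗ gT φ - χ φ • Λ) = 0 := by
    intro Λ
    have e1 : Λ ∘ₗ gT φ - χ φ • Λ = Λ ∘ₗ gT φ + (-χ φ) • Λ := by
      refine LinearMap.ext fun x => ?_
      change Λ (gT φ x) - χ φ * Λ x = Λ (gT φ x) + (-χ φ) * Λ x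
      ring
    rw [e1, w_add', w_smul', c1, act_eq, w_add, key]
    ring
  -- the connected ordinary part
  let Xc : Submodule ℤ_[r] (TateModule r J) := Tc ⊓ LinearMap.ker (e - LinearMap.id)
  have hXc : ∀ x, x ∈ Xc ↔ x ∈ Tc ∧ e x = x := by
    intro x
    rw [Submodule.mem_inf, LinearMap.mem_ker, LinearMap.sub_apply, LinearMap.id_apply, sub_eq_zero]
  let f0 : TateModule r J →ₗ[ℤ_[r]] TateModule r J := gT φ - χ φ • LinearMap.id
  have hf0 : ∀ x ∈ Xc, f0 x ∈ Xc := by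
    intro x hx
    rw [hXc] at hx ⊢
    refine ⟨Tc.sub_mem (hTc x hx.1) (Tc.smul_mem _ hx.1), ?_⟩
    change e (gT φ x - χ φ • x) = gT φ x - χ φ • x
    rw [map_sub, H.comm, map_smul, hx.2]
  let f : Xc →ₗ[ℤ_[r]] Xc := f0.restrict hf0
  have hf : Function.Injective f := by
    rw [← LinearMap.ker_eq_bot, LinearMap.ker_eq_bot']
    intro x hx
    have hx' := (hXc x).mp x.2
    apply Subtype.ext
    refine hinj x hx'.1 hx'.2 ?_
    have h2 : gT φ (x : TateModule r J) - χ φ • (x : TateModule r J) = 0 :=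
      congrArg Subtype.val hx
    exact sub_eq_zero.mp h2
  have hfree : Module.Free ℤ_[r] Xc := Module.free_of_finite_type_torsion_free'
  obtain ⟨n, g, hg⟩ := exists_comp_eq f hf
  have hsat' : ∀ (a : ℤ_[r]) (x : TateModule r J), a ≠ 0 → a • x ∈ Xc → x ∈ Xc := by
    intro a x ha hx
    rw [hXc] at hx ⊢
    refine ⟨hsat a x ha hx.1, ?_⟩
    have h2 : a • (e x - x) = 0 := by rw [smul_sub, ← map_smul, hx.2, sub_self]
    exact sub_eq_zero.mp (eq_zero_of_smul_eq_zero ha h2)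
  obtain ⟨Λ', hΛ'⟩ := exists_extend (T := TateModule r J) ⊤ Xc hsat'
    ((Λ ∘ₗ Xc.subtype ∘ₗ g) ∘ₗ Submodule.inclusion inf_le_right)
  let Λ'' : TateModule r J →ₗ[ℤ_[r]] ℤ_[r] := Λ' ∘ₗ Submodule.topEquiv.symm.toLinearMap
  have h2 : ∀ x (hx : x ∈ Xc), Λ'' x = Λ (g ⟨x, hx⟩) := fun x hx => hΛ' x trivial hx
  have h3 : w y ((r : ℤ_[r]) ^ n • Λ) = 0 := by
    have h4 : w y ((r : ℤ_[r]) ^ n • Λ - (Λ'' ∘ₗ gT φ - χ φ • Λ'')) = 0 := by
      refine w_zero _ _ fun x hx => ?_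
      have hex : e x ∈ Xc := (hXc _).mpr ⟨H.pres x hx, H.idem x⟩
      change (r : ℤ_[r]) ^ n • Λ (e x) - (Λ'' (gT φ (e x)) - χ φ • Λ'' (e x)) = 0
      have h5 : Λ'' (gT φ (e x)) - χ φ • Λ'' (e x) = Λ'' (f0 (e x)) := by
        change _ = Λ'' (gT φ (e x) - χ φ • e x)
        rw [map_sub, map_smul]
      rw [h5, h2 _ (hf0 _ hex)]
      have h6 := hg ⟨e x, hex⟩
      have h7 : f ⟨e x, hex⟩ = ⟨f0 (e x), hf0 _ hex⟩ := rfl
      rw [h7] at h6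
      rw [h6, Submodule.coe_smul, map_smul, sub_self]
    have e1 : (r : ℤ_[r]) ^ n • Λ =
        ((r : ℤ_[r]) ^ n • Λ - (Λ'' ∘ₗ gT φ - χ φ • Λ'')) + (Λ'' ∘ₗ gT φ - χ φ • Λ'') := by
      rw [sub_add_cancel]
    rw [e1, w_add', h4, h1, add_zero]
  rw [w_smul'] at h3
  have h8 : w y Λ = 0 := by
    rcases mul_eq_zero.mp h3 with h | h
    · exact absurd h (pow_ne_zero _ hr0)
    · exact h
  rw [← h8]
  exact hw y Λ

end Main

end Fermat.Agent.Mazur.Unit
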