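import Fermat.Agent.Mazur.Unit.Ord

/-!
# The unit condition: finite level output, ordinary projector form (piece U of S15)
-/

set_option autoImplicit false
set_option linter.unusedSectionVars false

open PadicInt

namespace Fermat.Agent.Mazur.Unit

open Fermat.Agent.Tate

local notation "Qb" => AlgebraicClosure ℚ
local notation "GQ" => AlgebraicClosure ℚ ≃ₐ[ℚ] AlgebraicClosure ℚ

section Functional

variable {r : ℕ} [hr : Fact r.Prime] {ζ : ℕ → Qb} (hζ : IsSys r ζ)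

include hζ

/-- A homomorphism `B → ℚ̄ˣ` on a subgroup of the level `m` part comes from a functional. -/
theorem exists_functionalO {J : Type*} [AddCommGroup J] {T : Submodule ℤ_[r] (TateModule r J)}
    [Module.Finite ℤ_[r] (TateModule r J)]
    (m : ℕ) (B : AddSubgroup J) (β : B →+ Additive Qbˣ) :
    ∃ g : T →ₗ[ℤ_[r]] ℤ_[r], ∀ (x : TateModule r J) (hx : x ∈ T) (hB : ev m x ∈ B),
      vl (β ⟨ev m x, hB⟩) = zp ζ m (g ⟨x, hx⟩) := by
  classical
  have hfreeT : Module.Free ℤ_[r] (TateModule r J) := Module.free_of_finite_type_torsion_free'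
  -- the submodule of elements whose level `m` part is in `B`
  let B' : Submodule ℤ_[r] (TateModule r J) :=
    { carrier := {x | x ∈ T ∧ ev m x ∈ B}
      zero_mem' := ⟨T.zero_mem, by rw [map_zero]; exact B.zero_mem⟩
      add_mem' := fun {a b} ha hb => ⟨T.add_mem ha.1 hb.1, by
        rw [map_add]; exact B.add_mem ha.2 hb.2⟩
      smul_mem' := fun a x hx => ⟨T.smul_mem a hx.1, by
        rw [ev_smul']; exact B.nsmul_mem hx.2 _⟩ }
  let F : B' →+ Additive Qbˣ :=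
    { toFun := fun x => β ⟨ev m x.1, x.2.2⟩
      map_zero' := by
        rw [← map_zero β]
        congr 1
      map_add' := fun x y => by
        rw [← map_add β]
        congr 1 }
  have hF : ∀ (a : ℤ_[r]) (x : B'), F (a • x) = a.appr m • F x := by
    intro a x
    change β _ = a.appr m • β _
    rw [← map_nsmul β]
    congr 1
  have hFr : ∀ x, vl (F x) ^ (r ^ m) = 1 := by
    intro x
    rw [← vl_nsmul, ← map_nsmul F]
    have h1 : F (r ^ m • x) = 0 := by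
      change β _ = 0
      rw [← map_zero β]
      congr 1
      apply Subtype.ext
      change ev m (r ^ m • (x : TateModule r J)) = 0
      rw [map_nsmul, pow_smul_ev]
    rw [h1, vl_zero]
  -- a functional on `B'` lifting `β`
  obtain ⟨f, hf⟩ : ∃ f : B' →ₗ[ℤ_[r]] ℤ_[r], ∀ x, vl (F x) = zp ζ m (f x) := by
    let b := Module.Free.chooseBasis ℤ_[r] B'
    have h1 : ∀ i, ∃ n : ℕ, vl (F (b i)) = ζ m ^ n := by
      intro i
      have : NeZero (r ^ m) := ⟨pow_ne_zero _ hr.out.ne_zero⟩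
      obtain ⟨n, -, hn⟩ := (hζ.prim m).eq_pow_of_pow_eq_one (hFr (b i))
      exact ⟨n, hn.symm⟩
    choose n hn using h1
    let f : B' →ₗ[ℤ_[r]] ℤ_[r] := b.constr ℤ_[r] fun i => (n i : ℤ_[r])
    have hfb : ∀ i, f (b i) = (n i : ℤ_[r]) := fun i => b.constr_basis ℤ_[r] _ i
    refine ⟨f, ?_⟩
    let S : Submodule ℤ_[r] B' :=
      { carrier := {x | vl (F x) = zp ζ m (f x)}
        zero_mem' := by
          change vl (F 0) = zp ζ m (f 0)
          rw [map_zero, map_zero, zp_zero hζ, vl_zero]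
        add_mem' := fun {x y} hx hy => by
          change vl (F (x + y)) = zp ζ m (f (x + y))
          change vl (F x) = zp ζ m (f x) at hx
          change vl (F y) = zp ζ m (f y) at hy
          rw [map_add, map_add, zp_add hζ, ← hx, ← hy, vl_add]
        smul_mem' := fun a x hx => by
          change vl (F (a • x)) = zp ζ m (f (a • x))
          change vl (F x) = zp ζ m (f x) at hx
          rw [hF, map_smul, smul_eq_mul, zp_mul_of_eq hζ (n := a.appr m) a (f x) rfl, ← hx,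
            vl_nsmul] }
    have hS : S = ⊤ := by
      rw [eq_top_iff, ← b.span_eq, Submodule.span_le]
      rintro _ ⟨i, rfl⟩
      change vl (F (b i)) = zp ζ m (f (b i))
      rw [hn, hfb]
      rw [zp_eq_pow hζ (m := n i) (map_natCast _ _)]
    intro x
    have : x ∈ S := by rw [hS]; trivial
    exact this
  -- divide by `r ^ m`
  have hr0 : (r : ℤ_[r]) ^ m ≠ 0 := pow_ne_zero _ (by exact_mod_cast hr.out.ne_zero)
  have hmem : ∀ x : T, (((r : ℤ_[r]) ^ m) • T.subtype) x ∈ B' := by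
    intro x
    refine ⟨T.smul_mem _ x.2, ?_⟩
    change ev m ((r : ℤ_[r]) ^ m • (x : TateModule r J)) ∈ B
    rw [ev_pow_smul, pow_smul_ev]
    exact B.zero_mem
  let q : T →ₗ[ℤ_[r]] B' := (((r : ℤ_[r]) ^ m) • T.subtype).codRestrict B' hmem
  have hdvd : ∀ x : T, (f ∘ₗ q) x ∈ Submodule.span ℤ_[r] {(r : ℤ_[r]) ^ m} := by
    intro x
    have h1 : F (q x) = 0 := by
      change β _ = 0
      rw [← map_zero β]
      congr 1
      apply Subtype.ext
      change ev m ((r : ℤ_[r]) ^ m • (x : TateModule r J)) = 0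
      rw [ev_pow_smul, pow_smul_ev]
    have h2 := hf (q x)
    rw [h1, vl_zero] at h2
    have h3 : zp ζ m (f (q x)) = 1 := h2.symm
    rw [zp_eq_one_iff hζ, ← RingHom.mem_ker, ker_toZModPow] at h3
    exact h3
  let g0 : T →ₗ[ℤ_[r]] Submodule.span ℤ_[r] {(r : ℤ_[r]) ^ m} := (f ∘ₗ q).codRestrict _ hdvd
  let e := LinearEquiv.toSpanNonzeroSingleton ℤ_[r] ℤ_[r] ((r : ℤ_[r]) ^ m) hr0
  refine ⟨e.symm.toLinearMap ∘ₗ g0, fun x hx hB => ?_⟩
  have h1 : (e.symm (g0 ⟨x, hx⟩)) * (r : ℤ_[r]) ^ m = (r : ℤ_[r]) ^ m * f ⟨x, hx, hB⟩ := by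
    have h2 : (e (e.symm (g0 ⟨x, hx⟩)) : ℤ_[r]) = g0 ⟨x, hx⟩ := by
      rw [LinearEquiv.apply_symm_apply]
    have h3 : (e (e.symm (g0 ⟨x, hx⟩)) : ℤ_[r]) = e.symm (g0 ⟨x, hx⟩) • (r : ℤ_[r]) ^ m := rfl
    rw [h3, smul_eq_mul] at h2
    rw [h2]
    change f (q ⟨x, hx⟩) = _
    rw [← smul_eq_mul, ← map_smul]
    rfl
  have h2 : e.symm (g0 ⟨x, hx⟩) = f ⟨x, hx, hB⟩ := by
    apply mul_right_cancel₀ hr0
    rw [h1]
    ring
  change _ = zp ζ m (e.symm (g0 ⟨x, hx⟩))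
  rw [h2]
  exact hf ⟨x, hx, hB⟩

end Functional

section Value

variable {r : ℕ} {A : ValuationSubring Qb}

theorem valuation_zpow_pow_inj (hr : r.Prime) {x : Qb} {n : ℕ} (hn : n ≠ 0) {j : ℤ} (h : A.valuation (x ^ n) = A.valuation ((r : Qb) ^ (n * j))) :
    A.valuation x = A.valuation ((r : Qb) ^ j) := by
  have hr0 : (r : Qb) ≠ 0 := by exact_mod_cast hr.ne_zero
  have h1 : A.valuation ((r : Qb) ^ j) ≠ 0 := by
    rw [Ne, map_eq_zero]
    exact zpow_ne_zero _ hr0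
  have h2 : (A.valuation x / A.valuation ((r : Qb) ^ j)) ^ n = 1 := by
    rw [div_pow, ← map_pow, h, ← map_pow A.valuation ((r : Qb) ^ j), ← zpow_natCast, ← zpow_mul,
      mul_comm j]
    apply div_self
    rw [Ne, map_eq_zero]
    exact zpow_ne_zero _ hr0
  have h3 : A.valuation x / A.valuation ((r : Qb) ^ j) = 1 := by
    rcases lt_trichotomy (A.valuation x / A.valuation ((r : Qb) ^ j)) 1 with h4 | h4 | h4
    · exact absurd h2 (pow_lt_one₀ zero_le h4 hn).ne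
    · exact h4
    · exact absurd h2 (one_lt_pow₀ h4 hn).ne'
  rwa [div_eq_one_iff_eq h1] at h3

/-- If the value at level `k` is divisible by `r^k`, any Kummer generator has integral value. -/
theorem IsVal.exists_zpow (hr : r.Prime) (hA : A.LiesOverPrime r) {k : ℕ} {ψ : GQ → Qb}
    {n : ℤ} (hn : IsVal A r k ψ n) (hdvd : ((r ^ k : ℕ) : ℤ) ∣ n) {θ : Qb} (hθ0 : θ ≠ 0)
    (hθ : ∀ τ ∈ A.inertiaSubgroupIn ℚ, τ θ = ψ τ * θ) :
    ∃ j : ℤ, A.valuation (θ * (r : Qb) ^ j) = 1 := by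
  have hr0 : (r : Qb) ≠ 0 := by exact_mod_cast hr.ne_zero
  obtain ⟨η, hη0, hη, hw⟩ := hn
  obtain ⟨j, rfl⟩ := hdvd
  have h1 := valuation_zpow_pow_inj hr (pow_ne_zero k hr.ne_zero) hw
  have hfix : RT.PStep.Fix A (θ / η) := by
    intro τ hτ
    have h1 : ψ τ ≠ 0 := by
      intro h
      have := hθ τ hτ
      rw [h, zero_mul, EmbeddingLike.map_eq_zero_iff] at this
      exact hθ0 this
    rw [map_div₀, hθ τ hτ, hη τ hτ, mul_div_mul_left _ _ h1]
  obtain ⟨i, u, hu0, hu, hu', -, hx⟩ := RT.PStep.exists_zpow_mul hr hA (div_ne_zero hθ0 hη0) hfix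
  have hu1 : A.valuation u = 1 := RT.PStep.valuation_eq_one hu0 hu hu'
  refine ⟨-(i + j), ?_⟩
  have h2 : θ = (r : Qb) ^ i * u * η := by
    rw [← hx, div_mul_cancel₀ _ hη0]
  rw [h2, map_mul, map_mul, map_mul, hu1, h1, mul_one, ← map_mul, ← map_mul, ← zpow_add₀ hr0,
    ← zpow_add₀ hr0, add_neg_cancel, zpow_zero, map_one]

end Value

section Final

variable {r : ℕ} [hr : Fact r.Prime] {J : Type*} [AddCommGroup J] [DistribMulAction GQ J]
  [Module.Finite ℤ_[r] (TateModule r J)]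
  {A : ValuationSubring Qb} {χ : GQ → ℤ_[r]} {ζ : ℕ → Qb}
  {e : TateModule r J →ₗ[ℤ_[r]] TateModule r J}
  {Tc : Submodule ℤ_[r] (TateModule r J)}

/-- `τ y - y` is the level `m` part of the projection of `τ ŷ - ŷ`. -/
theorem ev_proj (H : Ord A χ e Tc) {m : ℕ} {y : J} {y' : Hat r J} (hy' : y'.1 m = y) {τ : GQ}
    (h : ∃ x, ev m (e x) = τ • y - y) : ev m (e (dl τ y')) = τ • y - y := by
  have h4 : ev m (dl τ y') = τ • y - y := by rw [ev_dl, hy']
  obtain ⟨x, hx⟩ := h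
  have h6 : ev m (dl τ y' - e x) = 0 := by rw [map_sub, h4, hx, sub_self]
  rw [ev_eq_zero_iff] at h6
  obtain ⟨t, ht⟩ := h6
  have h7 : e (dl τ y') = e x + (r : ℤ_[r]) ^ m • e t := by
    rw [← map_smul, ht, map_sub, H.idem]
    abel
  rw [h7, map_add, ev_pow_smul, pow_smul_ev, add_zero, hx]

/-- Output (a). -/
theorem exists_mem_Tc (H : Ord A χ e Tc) (hdiv : ∀ x : J, ∃ y, r • y = x)
    {m : ℕ} {y : J} (hy : ∀ σ : GQ, σ • (r ^ m • y) = r ^ m • y)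
    {τ : GQ} (hτ : τ ∈ A.inertiaSubgroupIn ℚ) (h : ∃ x, ev m (e x) = τ • y - y) :
    ∃ x ∈ Tc, e x = x ∧ ev m x = τ • y - y := by
  obtain ⟨y', hy'⟩ := exists_hat hdiv m hy
  exact ⟨e (dl τ y'), H.pres _ (H.inertia τ hτ y'), H.idem _, ev_proj H hy' h⟩

/-- Output (b), given the vanishing of all weights. -/
theorem exists_valuation_eq_one (hζ : IsSys r ζ) (hA : A.LiesOverPrime r) (H : Ord A χ e Tc)
    (hval : ∀ (y : Hat r J) (Λ : TateModule r J →ₗ[ℤ_[r]] ℤ_[r]),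
      HasVal A ζ (fun τ => Λ (e (dl τ y))) 0)
    (hdiv : ∀ x : J, ∃ y, r • y = x)
    {m : ℕ} {y : J} (hy : ∀ σ : GQ, σ • (r ^ m • y) = r ^ m • y)
    (B : AddSubgroup J) (hB : ∀ b ∈ B, ∃ x, ev m (e x) = b)
    (β : B →+ Additive Qbˣ) (hyB : ∀ τ ∈ A.inertiaSubgroupIn ℚ, τ • y - y ∈ B)
    {θ : Qb} (hθ0 : θ ≠ 0)
    (hθ : ∀ τ (hτ : τ ∈ A.inertiaSubgroupIn ℚ), τ θ = vl (β ⟨τ • y - y, hyB τ hτ⟩) * θ) :
    ∃ j : ℤ, A.valuation (θ * (r : Qb) ^ j) = 1 := by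
  obtain ⟨g, hg⟩ := exists_functionalO hζ (T := (⊤ : Submodule ℤ_[r] (TateModule r J))) m B β
  let Λ : TateModule r J →ₗ[ℤ_[r]] ℤ_[r] := g ∘ₗ Submodule.topEquiv.symm.toLinearMap
  obtain ⟨y', hy'⟩ := exists_hat hdiv m hy
  obtain ⟨n, hn, hn0⟩ := hval y' Λ m
  rw [map_zero] at hn0
  have hn1 : ((r ^ m : ℕ) : ℤ) ∣ n := by
    rw [← ZMod.intCast_zmod_eq_zero_iff_dvd]
    exact hn0.symm
  refine hn.exists_zpow hr.out hA hn1 hθ0 fun τ hτ => ?_
  rw [hθ τ hτ]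
  congr 1
  have h5 := ev_proj H hy' (hB _ (hyB τ hτ))
  have h6 : ev m (e (dl τ y')) ∈ B := by rw [h5]; exact hyB τ hτ
  have h7 := hg (e (dl τ y')) trivial h6
  have h8 : (⟨ev m (e (dl τ y')), h6⟩ : B) = ⟨τ • y - y, hyB τ hτ⟩ := Subtype.ext h5
  rw [← h8, h7]
  rfl

/-- **The unit condition** (piece U of S15). -/
theorem unit_condition (hζ : IsSys r ζ) (hχ : IsCyc ζ χ) (hA : A.LiesOverPrime r)
    {Jb : Type*} [AddCommGroup Jb] (red : J →+ Jb) (H : Ord A χ e (subTate r red.ker))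
    {φ : GQ} (hφ : φ ∈ A.decompositionSubgroup ℚ)
    (hnormal : ∀ σ ∈ A.decompositionSubgroup ℚ, ∀ τ ∈ A.inertiaSubgroupIn ℚ,
      σ⁻¹ * τ * σ ∈ A.inertiaSubgroupIn ℚ)
    (hχφ : χ φ ≠ 1)
    (hcomm : ∀ τ ∈ A.inertiaSubgroupIn ℚ, ∀ t : TateModule r J,
      gT τ (gT φ t + χ φ • gT φ⁻¹ t) = gT φ (gT τ t) + χ φ • gT φ⁻¹ (gT τ t))
    {F : Jb →+ Jb} (hF : ∀ x, red (φ • x) = F (red x))
    (hfix : {z : Jb | F (F z) = z ∧ ∃ (k : ℕ) (x : J), r ^ k • x = 0 ∧ red x = z}.Finite)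
    (hinj : ∀ x ∈ subTate r red.ker, e x = x → gT φ x = χ φ • x → x = 0)
    (hdiv : ∀ x : J, ∃ y, r • y = x)
    {m : ℕ} {y : J} (hy : ∀ σ : GQ, σ • (r ^ m • y) = r ^ m • y)
    (B : AddSubgroup J) (hB : ∀ b ∈ B, ∃ x, ev m (e x) = b)
    (β : B →+ Additive Qbˣ) (hyB : ∀ τ ∈ A.inertiaSubgroupIn ℚ, τ • y - y ∈ B)
    {θ : Qb} (hθ0 : θ ≠ 0)
    (hθ : ∀ τ (hτ : τ ∈ A.inertiaSubgroupIn ℚ), τ θ = vl (β ⟨τ • y - y, hyB τ hτ⟩) * θ) :
    ∃ j : ℤ, A.valuation (θ * (r : Qb) ^ j) = 1 :=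
  exists_valuation_eq_one hζ hA H
    (fun y Λ => weight_eq_zero H hζ hχ hA hφ hnormal hχφ hcomm (hfin_of_finite hF hfix)
      (fun _ hx => gT_mem_kerTate hF hx) (kerTate_sat red) hinj y Λ) hdiv hy B hB β hyB hθ0 hθ

end Final

end Fermat.Agent.Mazur.Unit
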