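import Fermat.Agent.Mazur.Unit.Val

/-!
# `ℤ_r`-valued Kummer cocycles and their valuations (piece U1 of S15)
-/

set_option autoImplicit false

open PadicInt

namespace Fermat.Agent.Mazur.Unit

open Fermat.Agent.RT.PStep

local notation "Qb" => AlgebraicClosure ℚ
local notation "GQ" => AlgebraicClosure ℚ ≃ₐ[ℚ] AlgebraicClosure ℚ

section zp

variable {r : ℕ} [hr : Fact r.Prime]

/-- `ζ_k ^ a` for `a : ℤ_r`. -/
noncomputable def zp (ζ : ℕ → Qb) (k : ℕ) (a : ℤ_[r]) : Qb := ζ k ^ a.appr k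

variable (r) in
/-- A compatible system of primitive `r^k`-th roots of unity. -/
structure IsSys (ζ : ℕ → Qb) : Prop where
  prim : ∀ k, IsPrimitiveRoot (ζ k) (r ^ k)
  pow_succ : ∀ k, ζ (k + 1) ^ r = ζ k

variable {ζ : ℕ → Qb} (hζ : IsSys r ζ)

include hζ

theorem pow_eq_pow_iff' {k m n : ℕ} :
    ζ k ^ m = ζ k ^ n ↔ (m : ZMod (r ^ k)) = (n : ZMod (r ^ k)) := by
  have h0 : ζ k ≠ 0 := (hζ.prim k).ne_zero (pow_ne_zero _ hr.out.ne_zero)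
  have h1 : ζ k ^ m = ζ k ^ n ↔ ζ k ^ ((m : ℤ) - n) = 1 := by
    rw [zpow_sub₀ h0, zpow_natCast, zpow_natCast, div_eq_one_iff_eq (pow_ne_zero _ h0)]
  rw [h1, (hζ.prim k).zpow_eq_one_iff_dvd, ← ZMod.intCast_zmod_eq_zero_iff_dvd, Int.cast_sub,
    Int.cast_natCast, Int.cast_natCast, sub_eq_zero]

theorem zp_eq_pow {k : ℕ} {a : ℤ_[r]} {m : ℕ} (h : toZModPow k a = (m : ZMod (r ^ k))) :
    zp ζ k a = ζ k ^ m := by
  have h1 : ((a.appr k : ℕ) : ZMod (r ^ k)) = (m : ZMod (r ^ k)) := h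
  rw [zp, pow_eq_pow_iff' hζ]
  exact h1

theorem zp_congr {k : ℕ} {a b : ℤ_[r]} (h : toZModPow k a = toZModPow k b) :
    zp ζ k a = zp ζ k b := zp_eq_pow hζ h

theorem zp_inj {k : ℕ} {a b : ℤ_[r]} (h : zp ζ k a = zp ζ k b) :
    toZModPow k a = toZModPow k b := by
  rw [zp, zp, pow_eq_pow_iff' hζ] at h
  exact h

theorem zp_zero (k : ℕ) : zp ζ k (0 : ℤ_[r]) = 1 := by
  rw [zp_eq_pow hζ (m := 0) (by rw [map_zero, Nat.cast_zero]), pow_zero]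

theorem zp_one (k : ℕ) : zp ζ k (1 : ℤ_[r]) = ζ k := by
  rw [zp_eq_pow hζ (m := 1) (by rw [map_one, Nat.cast_one]), pow_one]

theorem zp_add (k : ℕ) (a b : ℤ_[r]) : zp ζ k (a + b) = zp ζ k a * zp ζ k b := by
  rw [zp_eq_pow hζ (m := a.appr k + b.appr k) (by rw [map_add, Nat.cast_add]; rfl), pow_add]
  rfl

theorem zp_nat_mul (k m : ℕ) (a : ℤ_[r]) : zp ζ k ((m : ℤ_[r]) * a) = zp ζ k a ^ m := by
  rw [zp_eq_pow hζ (m := m * a.appr k) (by rw [map_mul, Nat.cast_mul, map_natCast]; rfl), zp,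
    ← pow_mul, mul_comm]

theorem zp_ne_zero (k : ℕ) (a : ℤ_[r]) : zp ζ k a ≠ 0 :=
  pow_ne_zero _ ((hζ.prim k).ne_zero (pow_ne_zero _ hr.out.ne_zero))

theorem zp_pow_card (k : ℕ) (a : ℤ_[r]) : zp ζ k a ^ (r ^ k) = 1 := by
  rw [zp, ← pow_mul, mul_comm, pow_mul, (hζ.prim k).pow_eq_one, one_pow]

theorem zp_succ_pow (k : ℕ) (a : ℤ_[r]) : zp ζ (k + 1) a ^ r = zp ζ k a := by
  rw [zp, ← pow_mul, mul_comm, pow_mul, hζ.pow_succ]
  rw [zp_eq_pow hζ (k := k) (m := a.appr (k + 1))]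
  have h1 := cast_toZModPow k (k + 1) (Nat.le_succ k) a
  rw [← h1]
  change ((a.appr (k + 1) : ZMod (r ^ (k + 1))).cast : ZMod (r ^ k)) = _
  rw [ZMod.cast_natCast (pow_dvd_pow r (Nat.le_succ k))]

theorem zp_eq_one_iff {k : ℕ} {a : ℤ_[r]} : zp ζ k a = 1 ↔ toZModPow k a = 0 := by
  rw [← zp_zero (r := r) hζ k]
  refine ⟨fun h => ?_, fun h => ?_⟩
  · have := zp_inj hζ h
    rwa [map_zero] at this
  · exact zp_congr hζ (by rw [h, map_zero])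

end zp

section HasVal

variable {r : ℕ} [hr : Fact r.Prime] {ζ : ℕ → Qb} (hζ : IsSys r ζ)

/-- The action of Galois on the system of roots of unity is through `χ`. -/
def IsCyc {r : ℕ} [Fact r.Prime] (ζ : ℕ → Qb) (χ : GQ → ℤ_[r]) : Prop :=
  ∀ (σ : GQ) (k : ℕ), σ (ζ k) = zp ζ k (χ σ)

theorem zp_galois (hζ : IsSys r ζ) {χ : GQ → ℤ_[r]} (hχ : IsCyc ζ χ) (σ : GQ) (k : ℕ)
    (a : ℤ_[r]) : σ (zp ζ k a) = zp ζ k (χ σ * a) := by
  rw [zp, map_pow, hχ σ k, ← zp_nat_mul hζ]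
  apply zp_congr hζ
  rw [map_mul, map_mul, map_natCast, mul_comm]
  congr 1

/-- The `ℤ_r`-valued cocycle `c` of the inertia group of `A` has value `v`. -/
def HasVal (A : ValuationSubring Qb) {r : ℕ} [Fact r.Prime] (ζ : ℕ → Qb) (c : GQ → ℤ_[r])
    (v : ℤ_[r]) : Prop :=
  ∀ k, ∃ n : ℤ, IsVal A r k (fun τ => zp ζ k (c τ)) n ∧ toZModPow k v = (n : ZMod (r ^ k))

variable {A : ValuationSubring Qb}

theorem HasVal.congr {c c' : GQ → ℤ_[r]} {v : ℤ_[r]}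
    (h : ∀ τ ∈ A.inertiaSubgroupIn ℚ, c τ = c' τ) (hc : HasVal A ζ c v) : HasVal A ζ c' v := by
  intro k
  obtain ⟨n, hn, hv⟩ := hc k
  exact ⟨n, hn.congr fun τ hτ => by rw [h τ hτ], hv⟩

theorem HasVal.unique (hA : A.LiesOverPrime r) {c : GQ → ℤ_[r]} {v w : ℤ_[r]}
    (hv : HasVal A ζ c v) (hw : HasVal A ζ c w) : v = w := by
  refine ext_of_toZModPow.mp fun k => ?_
  obtain ⟨n, hn, hv⟩ := hv k
  obtain ⟨m, hm, hw⟩ := hw k
  rw [hv, hw, ← sub_eq_zero, ← Int.cast_sub, ZMod.intCast_zmod_eq_zero_iff_dvd]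
  exact_mod_cast hn.unique hr.out hA hm

include hζ

theorem HasVal.add {c c' : GQ → ℤ_[r]} {v v' : ℤ_[r]} (hc : HasVal A ζ c v)
    (hc' : HasVal A ζ c' v') : HasVal A ζ (fun τ => c τ + c' τ) (v + v') := by
  intro k
  obtain ⟨n, hn, hv⟩ := hc k
  obtain ⟨m, hm, hw⟩ := hc' k
  refine ⟨n + m, (hn.mul hr.out hm).congr fun τ _ => (zp_add hζ _ _ _).symm, ?_⟩
  rw [map_add, hv, hw, Int.cast_add]

theorem HasVal.mul {c : GQ → ℤ_[r]} {v : ℤ_[r]} (hc : HasVal A ζ c v) (a : ℤ_[r]) :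
    HasVal A ζ (fun τ => a * c τ) (a * v) := by
  intro k
  obtain ⟨n, hn, hv⟩ := hc k
  refine ⟨a.appr k * n, (hn.pow (a.appr k)).congr fun τ _ => ?_, ?_⟩
  · rw [← zp_nat_mul hζ]
    apply zp_congr hζ
    rw [map_mul, map_mul, map_natCast]
    rfl
  · rw [map_mul, hv, Int.cast_mul, Int.cast_natCast]
    rfl

theorem hasVal_zero : HasVal A ζ (fun _ => (0 : ℤ_[r])) 0 := by
  intro k
  refine ⟨0, (isVal_one k).congr fun τ _ => (zp_zero hζ k).symm, by simp⟩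

theorem HasVal.sub {c c' : GQ → ℤ_[r]} {v v' : ℤ_[r]} (hc : HasVal A ζ c v)
    (hc' : HasVal A ζ c' v') : HasVal A ζ (fun τ => c τ - c' τ) (v - v') := by
  have h := hc.add hζ (hc'.mul hζ (-1))
  have e : v - v' = v + -1 * v' := by ring
  rw [e]
  exact h.congr fun τ _ => by ring

/-- Coboundaries have value `0`. -/
theorem hasVal_coboundary {χ : GQ → ℤ_[r]} (hχ : IsCyc ζ χ) (b : ℤ_[r]) :
    HasVal A ζ (fun τ => χ τ * b - b) 0 := by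
  intro k
  have h1 := isVal_coboundary (A := A) (r := r) k (pow_ne_zero k hr.out.ne_zero)
    (zp_pow_card hζ k b)
  refine ⟨0, h1.congr fun τ _ => ?_, by simp⟩
  rw [zp_galois hζ hχ, mul_inv_eq_iff_eq_mul₀ (zp_ne_zero hζ k b), ← zp_add hζ, sub_add_cancel]

/-- Conjugation invariance. -/
theorem HasVal.conj {χ : GQ → ℤ_[r]} (hχ : IsCyc ζ χ) {c : GQ → ℤ_[r]} {v : ℤ_[r]}
    (hc : HasVal A ζ c v) {σ : GQ} (hσ : σ ∈ A.decompositionSubgroup ℚ)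
    (hnorm : ∀ τ ∈ A.inertiaSubgroupIn ℚ, σ⁻¹ * τ * σ ∈ A.inertiaSubgroupIn ℚ) :
    HasVal A ζ (fun τ => χ σ * c (σ⁻¹ * τ * σ)) v := by
  intro k
  obtain ⟨n, hn, hv⟩ := hc k
  refine ⟨n, (hn.conj hσ hnorm).congr fun τ _ => ?_, hv⟩
  exact zp_galois hζ hχ σ k _

/-- Existence of the value of a continuous cocycle `I → ℤ_r(1)`. -/
theorem exists_hasVal (hA : A.LiesOverPrime r) {χ : GQ → ℤ_[r]} (hχ : IsCyc ζ χ)
    {c : GQ → ℤ_[r]}
    (hmul : ∀ g ∈ A.inertiaSubgroupIn ℚ, ∀ h ∈ A.inertiaSubgroupIn ℚ,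
      c (g * h) = c g + χ g * c h)
    (hloc : ∀ k, ∃ E : IntermediateField ℚ Qb, FiniteDimensional ℚ E ∧
      ∀ g ∈ A.inertiaSubgroupIn ℚ, (∀ x ∈ E, g x = x) → toZModPow k (c g) = 0) :
    ∃ v : ℤ_[r], HasVal A ζ c v := by
  have h1 : ∀ k, ∃ n : ℤ, IsVal A r k (fun τ => zp ζ k (c τ)) n := by
    intro k
    obtain ⟨E, hE, hE'⟩ := hloc k
    refine exists_isVal hr.out hA (fun τ _ => zp_pow_card hζ k _) (fun g hg h hh => ?_) E
      (fun g hg hgx => ?_)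
    · rw [hmul g hg h hh, zp_add hζ, zp_galois hζ hχ]
    · exact (zp_eq_one_iff hζ).mpr (hE' g hg hgx)
  choose n hn using h1
  have h2 : ∀ k, ((n (k + 1) : ℤ) : ZMod (r ^ k)) = (n k : ZMod (r ^ k)) := by
    intro k
    have h3 : IsVal A r k (fun τ => zp ζ k (c τ)) (n (k + 1)) :=
      (hn (k + 1)).level_down.congr fun τ _ => zp_succ_pow hζ k _
    rw [← sub_eq_zero, ← Int.cast_sub, ZMod.intCast_zmod_eq_zero_iff_dvd]
    exact_mod_cast h3.unique hr.out hA (hn k)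
  -- the limit
  have h3 : ∀ k l, k ≤ l → ((n l : ℤ) : ZMod (r ^ k)) = (n k : ZMod (r ^ k)) := by
    intro k l hkl
    induction l, hkl using Nat.le_induction with
    | base => rfl
    | succ l hkl ih =>
      rw [← ih, ← sub_eq_zero, ← Int.cast_sub, ZMod.intCast_zmod_eq_zero_iff_dvd]
      have h4 := h2 l
      rw [← sub_eq_zero, ← Int.cast_sub, ZMod.intCast_zmod_eq_zero_iff_dvd] at h4
      exact (Int.natCast_dvd_natCast.mpr (pow_dvd_pow r hkl)).trans h4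
  obtain ⟨v, hv⟩ : ∃ v : ℤ_[r], ∀ k, toZModPow k v = ((n k : ℤ) : ZMod (r ^ k)) := by
    have h5 : ∀ {k l : ℕ}, k ≤ l → ((n k : ℤ) : ℤ_[r]) ≡ ((n l : ℤ) : ℤ_[r])
        [SMOD (IsLocalRing.maximalIdeal ℤ_[r] ^ k • ⊤ : Submodule ℤ_[r] ℤ_[r])] := by
      intro k l hkl
      rw [SModEq.sub_mem, smul_eq_mul, Ideal.mul_top, PadicInt.maximalIdeal_eq_span_p,
        Ideal.span_singleton_pow, ← ker_toZModPow, RingHom.mem_ker, map_sub, map_intCast,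
        map_intCast, h3 k l hkl, sub_self]
    obtain ⟨v, hv⟩ := IsPrecomplete.prec (I := IsLocalRing.maximalIdeal ℤ_[r])
      (M := ℤ_[r]) inferInstance (f := fun k => ((n k : ℤ) : ℤ_[r])) h5
    refine ⟨v, fun k => ?_⟩
    have h6 := hv k
    rw [SModEq.sub_mem, smul_eq_mul, Ideal.mul_top, PadicInt.maximalIdeal_eq_span_p,
        Ideal.span_singleton_pow, ← ker_toZModPow, RingHom.mem_ker, map_sub, map_intCast,
        sub_eq_zero] at h6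
    exact h6.symm
  exact ⟨v, fun k => ⟨n k, hn k, hv k⟩⟩

end HasVal

end Fermat.Agent.Mazur.Unit
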