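import Fermat.Agent.Mazur.Unit.Padic
import Fermat.Agent.Tate.Ordinary

/-!
# The unit condition by weights (piece U2 of S15)
-/

set_option autoImplicit false

open PadicInt

namespace Fermat.Agent.Mazur.Unit

open Fermat.Agent.Tate

local notation "Qb" => AlgebraicClosure ℚ
local notation "GQ" => AlgebraicClosure ℚ ≃ₐ[ℚ] AlgebraicClosure ℚ

section Hat

variable (r : ℕ) (J : Type*) [AddCommGroup J] [DistribMulAction GQ J]

/-- Sequences `y` with `r y_{k+1} = y_k` and `y_0` rational. -/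
def Hat : AddSubgroup (ℕ → J) where
  carrier := {y | (∀ k, r • y (k + 1) = y k) ∧ ∀ σ : GQ, σ • y 0 = y 0}
  zero_mem' := ⟨fun k => smul_zero _, fun σ => smul_zero _⟩
  add_mem' := fun {a b} ha hb => ⟨fun k => by
    rw [Pi.add_apply, Pi.add_apply, smul_add, ha.1, hb.1], fun σ => by
    rw [Pi.add_apply, smul_add, ha.2, hb.2]⟩
  neg_mem' := fun {a} ha => ⟨fun k => by
    rw [Pi.neg_apply, Pi.neg_apply, smul_neg, ha.1], fun σ => by
    rw [Pi.neg_apply, smul_neg, ha.2]⟩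

variable {r J}

theorem exists_hat (hdiv : ∀ x : J, ∃ y, r • y = x) (m : ℕ) {y : J}
    (hy : ∀ σ : GQ, σ • (r ^ m • y) = r ^ m • y) : ∃ y' : Hat r J, y'.1 m = y := by
  choose f hf using hdiv
  have hit : ∀ k, r ^ k • (f^[k] y) = y := by
    intro k
    induction k with
    | zero => rw [pow_zero, one_smul]; rfl
    | succ k ih => rw [Function.iterate_succ_apply', pow_succ, mul_smul, hf, ih]
  refine ⟨⟨fun k => r ^ (m - k) • (f^[k - m] y), fun k => ?_, fun σ => ?_⟩, ?_⟩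
  · change r • (r ^ (m - (k + 1)) • f^[k + 1 - m] y) = r ^ (m - k) • f^[k - m] y
    rcases Nat.lt_or_ge k m with h | h
    · have e1 : k + 1 - m = 0 := by omega
      have e2 : k - m = 0 := by omega
      have e3 : m - k = (m - (k + 1)) + 1 := by omega
      rw [e1, e2, e3, pow_succ', mul_smul]
    · have e1 : m - (k + 1) = 0 := by omega
      have e2 : m - k = 0 := by omega
      have e3 : k + 1 - m = (k - m) + 1 := by omega
      rw [e1, e2, e3, pow_zero, one_smul, one_smul, Function.iterate_succ_apply', hf]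
  · change σ • (r ^ (m - 0) • f^[0 - m] y) = r ^ (m - 0) • f^[0 - m] y
    rw [Nat.sub_zero, Nat.zero_sub]
    exact hy σ
  · change r ^ (m - m) • f^[m - m] y = y
    rw [Nat.sub_self, pow_zero, one_smul]
    rfl

/-- The action of Galois. -/
noncomputable def act (σ : GQ) (y : Hat r J) : Hat r J :=
  ⟨fun k => σ • y.1 k, fun k => by
    change r • σ • y.1 (k + 1) = σ • y.1 k
    rw [smul_comm, y.2.1], fun τ => by
    change τ • σ • y.1 0 = σ • y.1 0
    rw [y.2.2, y.2.2]⟩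

/-- The inclusion of the Tate module. -/
noncomputable def inc (t : TateModule r J) : Hat r J :=
  ⟨fun k => ev k t, fun k => smul_ev_succ t k, fun σ => by
    change σ • ev 0 t = ev 0 t
    rw [ev_zero, smul_zero]⟩

/-- `σ y - y` as an element of the Tate module. -/
noncomputable def dl (σ : GQ) (y : Hat r J) : TateModule r J :=
  mkT (fun k => σ • y.1 k - y.1 k) (by rw [y.2.2, sub_self]) fun k => by
    rw [smul_sub, smul_comm, y.2.1]

theorem ev_dl (σ : GQ) (y : Hat r J) (k : ℕ) : ev k (dl σ y) = σ • y.1 k - y.1 k := rfl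

variable [hr : Fact r.Prime]

/-- The Galois action on the Tate module. -/
noncomputable def gT (σ : GQ) : TateModule r J →ₗ[ℤ_[r]] TateModule r J :=
  Tate.map (DistribSMul.toAddMonoidHom J σ)

@[simp] theorem ev_gT (σ : GQ) (t : TateModule r J) (k : ℕ) : ev k (gT σ t) = σ • ev k t := rfl

theorem gT_mul (σ τ : GQ) (t : TateModule r J) : gT (σ * τ) t = gT σ (gT τ t) :=
  ext fun k => mul_smul σ τ (ev k t)

theorem gT_one (t : TateModule r J) : gT (1 : GQ) t = t :=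
  ext fun k => one_smul _ (ev k t)

theorem gT_inv_self (σ : GQ) (t : TateModule r J) : gT σ⁻¹ (gT σ t) = t := by
  rw [← gT_mul, inv_mul_cancel, gT_one]

theorem gT_self_inv (σ : GQ) (t : TateModule r J) : gT σ (gT σ⁻¹ t) = t := by
  rw [← gT_mul, mul_inv_cancel, gT_one]

theorem dl_inc (σ : GQ) (t : TateModule r J) : dl σ (inc t) = gT σ t - t :=
  ext fun k => by rw [map_sub]; rfl

omit hr in
theorem dl_add (σ : GQ) (y y' : Hat r J) : dl σ (y + y') = dl σ y + dl σ y' :=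
  ext fun k => by
    rw [map_add, ev_dl, ev_dl, ev_dl]
    change σ • (y.1 k + y'.1 k) - (y.1 k + y'.1 k) = _
    rw [smul_add]
    abel

theorem dl_mul (σ τ : GQ) (y : Hat r J) : dl (σ * τ) y = gT σ (dl τ y) + dl σ y :=
  ext fun k => by
    rw [map_add, ev_gT, ev_dl, ev_dl, ev_dl, mul_smul, smul_sub]
    abel

theorem dl_act (σ τ : GQ) (y : Hat r J) : dl τ (act σ y) = gT σ (dl (σ⁻¹ * τ * σ) y) :=
  ext fun k => by
    rw [ev_gT, ev_dl, ev_dl, smul_sub]
    change τ • σ • y.1 k - σ • y.1 k = _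
    rw [← mul_smul, ← mul_smul, ← mul_assoc, ← mul_assoc, mul_inv_cancel, one_mul]

theorem inc_gT (σ : GQ) (t : TateModule r J) : inc (gT σ t) = act σ (inc t) := rfl

omit hr in
theorem act_eq (σ : GQ) (y : Hat r J) : act σ y = y + inc (dl σ y) := by
  apply Subtype.ext
  funext k
  change σ • y.1 k = y.1 k + (σ • y.1 k - y.1 k)
  abel

end Hat

section Main

variable {r : ℕ} [hr : Fact r.Prime] {J : Type*} [AddCommGroup J] [DistribMulAction GQ J]

/-- The hypotheses of the unit condition. -/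
structure Hyp (A : ValuationSubring Qb) (χ : GQ → ℤ_[r])
    (E : TateModule r J →ₗ[ℤ_[r]] TateModule r J →ₗ[ℤ_[r]] ℤ_[r])
    (Tc TP : Submodule ℤ_[r] (TateModule r J)) : Prop where
  /-- `J` is a smooth Galois module. -/
  smooth : ∀ y : J, ∃ L : IntermediateField ℚ Qb, FiniteDimensional ℚ L ∧
    ∀ g : GQ, (∀ x ∈ L, g x = x) → g • y = y
  /-- Galois equivariance of the pairing. -/
  gal : ∀ (σ : GQ) (x y : TateModule r J), E (gT σ x) (gT σ y) = χ σ * E x y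
  stable : ∀ (σ : GQ), ∀ x ∈ TP, gT σ x ∈ TP
  /-- Inertia acts trivially on the reduction. -/
  inertia : ∀ τ ∈ A.inertiaSubgroupIn ℚ, ∀ y : Hat r J, dl τ y ∈ Tc
  /-- The connected part is isotropic. -/
  iso : ∀ x ∈ Tc, ∀ z ∈ TP, z ∈ Tc → E x z = 0

variable {A : ValuationSubring Qb} {χ : GQ → ℤ_[r]} {ζ : ℕ → Qb}
  {E : TateModule r J →ₗ[ℤ_[r]] TateModule r J →ₗ[ℤ_[r]] ℤ_[r]}
  {Tc TP : Submodule ℤ_[r] (TateModule r J)} (H : Hyp A χ E Tc TP)

include H

theorem gT_mem_Tc {τ : GQ} (hτ : τ ∈ A.inertiaSubgroupIn ℚ) {x : TateModule r J} (hx : x ∈ Tc) :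
    gT τ x ∈ Tc := by
  have h := H.inertia τ hτ (inc x)
  rw [dl_inc] at h
  have := Tc.add_mem h hx
  rwa [sub_add_cancel] at this

/-- Inertia acts through `χ` on `E(x, z)`. -/
theorem E_gT {τ : GQ} (hτ : τ ∈ A.inertiaSubgroupIn ℚ) {x : TateModule r J} (hx : x ∈ Tc)
    {z : TateModule r J} (hz : z ∈ TP) : E (gT τ x) z = χ τ * E x z := by
  have h := H.inertia τ hτ (inc z)
  rw [dl_inc] at h
  have h2 := H.iso (gT τ x) (gT_mem_Tc H hτ hx) _ (TP.sub_mem (H.stable τ z hz) hz) h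
  rw [map_sub, sub_eq_zero] at h2
  rw [← h2, H.gal]

theorem exists_val (hζ : IsSys r ζ) (hχ : IsCyc ζ χ) (hA : A.LiesOverPrime r)
    (y : Hat r J) {z : TateModule r J} (hz : z ∈ TP) :
    ∃ v : ℤ_[r], HasVal A ζ (fun τ => E (dl τ y) z) v := by
  refine exists_hasVal hζ hA hχ (fun g hg h hh => ?_) fun k => ?_
  · rw [dl_mul, map_add, LinearMap.add_apply, E_gT H hg (H.inertia h hh y) hz, add_comm]
  · obtain ⟨L, hL, h⟩ := H.smooth (y.1 k)
    refine ⟨L, hL, fun g _ hgL => ?_⟩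
    have h1 : ev k (dl g y) = 0 := by rw [ev_dl, h g hgL, sub_self]
    rw [ev_eq_zero_iff] at h1
    obtain ⟨t, ht⟩ := h1
    rw [← ht, map_smul, LinearMap.smul_apply, smul_eq_mul, map_mul, map_pow, map_natCast,
      ← Nat.cast_pow, ZMod.natCast_self, zero_mul]

theorem val_conj (hζ : IsSys r ζ) (hχ : IsCyc ζ χ) {σ : GQ} (hσ : σ ∈ A.decompositionSubgroup ℚ)
    (hnorm : ∀ τ ∈ A.inertiaSubgroupIn ℚ, σ⁻¹ * τ * σ ∈ A.inertiaSubgroupIn ℚ)
    {y : Hat r J} {z : TateModule r J} {v : ℤ_[r]}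
    (hv : HasVal A ζ (fun τ => E (dl τ y) z) v) :
    HasVal A ζ (fun τ => E (dl τ (act σ y)) (gT σ z)) v :=
  (hv.conj hζ hχ hσ hnorm).congr fun τ _ => by rw [dl_act, H.gal]

/-- The unit condition on the Tate module. -/
theorem val_inc (hζ : IsSys r ζ) (hχ : IsCyc ζ χ) (hA : A.LiesOverPrime r) {φ : GQ}
    (hφ : φ ∈ A.decompositionSubgroup ℚ)
    (hnorm : ∀ τ ∈ A.inertiaSubgroupIn ℚ, φ⁻¹ * τ * φ ∈ A.inertiaSubgroupIn ℚ)
    (hχφ : χ φ ≠ 1)
    (hcomm : ∀ τ ∈ A.inertiaSubgroupIn ℚ, ∀ t : TateModule r J,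
      gT τ (gT φ t + χ φ • gT φ⁻¹ t) = gT φ (gT τ t) + χ φ • gT φ⁻¹ (gT τ t))
    (hfin : ∃ n : ℕ, ∀ t : TateModule r J, ∃ t' : TateModule r J, ∃ c ∈ Tc,
      (r : ℤ_[r]) ^ n • t = gT φ (gT φ t') - t' + c)
    (t : TateModule r J) {z : TateModule r J} (hz : z ∈ TP) {v : ℤ_[r]}
    (hv : HasVal A ζ (fun τ => E (dl τ (inc t)) z) v) : v = 0 := by
  -- the value as a linear function of `t`
  have hex : ∀ t : TateModule r J, ∀ z : TP, ∃ v : ℤ_[r],
      HasVal A ζ (fun τ => E (gT τ t - t) z) v := by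
    intro t z
    obtain ⟨v, hv⟩ := exists_val H hζ hχ hA (inc t) z.2
    exact ⟨v, hv.congr fun τ _ => by rw [dl_inc]⟩
  choose w hw using hex
  have w_add : ∀ t t' z, w (t + t') z = w t z + w t' z := by
    intro t t' z
    refine HasVal.unique hA (hw _ _) (((hw t z).add hζ (hw t' z)).congr fun τ _ => ?_)
    rw [← LinearMap.add_apply, ← map_add, map_add (gT τ)]
    congr 2
    abel
  have w_smul : ∀ (a : ℤ_[r]) t z, w (a • t) z = a * w t z := by
    intro a t z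
    refine HasVal.unique hA (hw _ _) (((hw t z).mul hζ a).congr fun τ _ => ?_)
    rw [map_smul, ← smul_sub, map_smul, LinearMap.smul_apply, smul_eq_mul]
  have w_add' : ∀ t z z', w t (z + z') = w t z + w t z' := by
    intro t z z'
    refine HasVal.unique hA (hw _ _) (((hw t z).add hζ (hw t z')).congr fun τ _ => ?_)
    rw [← map_add]
    rfl
  have w_smul' : ∀ (a : ℤ_[r]) t z, w t (a • z) = a * w t z := by
    intro a t z
    refine HasVal.unique hA (hw _ _) (((hw t z).mul hζ a).congr fun τ _ => ?_)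
    rw [← smul_eq_mul, ← map_smul]
    rfl
  -- the action of `φ` on `TP`
  have hφz : ∀ z : TP, gT φ (z : TateModule r J) ∈ TP := fun z => H.stable φ _ z.2
  have hφz' : ∀ z : TP, gT φ⁻¹ (z : TateModule r J) ∈ TP := fun z => H.stable φ⁻¹ _ z.2
  have w_conj : ∀ t (z : TP), w (gT φ t) ⟨gT φ z, hφz z⟩ = w t z := by
    intro t z
    have h1 : HasVal A ζ (fun τ => E (dl τ (inc t)) z) (w t z) :=
      (hw t z).congr fun τ _ => by rw [dl_inc]
    have h2 := val_conj H hζ hχ hφ hnorm h1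
    refine HasVal.unique hA (hw _ _) (h2.congr fun τ _ => ?_)
    rw [← inc_gT, dl_inc]
  have w_conj' : ∀ t (z : TP), w (gT φ t) z = w t ⟨gT φ⁻¹ z, hφz' z⟩ := by
    intro t z
    rw [← w_conj t ⟨gT φ⁻¹ z, hφz' z⟩]
    congr 1
    exact Subtype.ext (gT_self_inv φ _).symm
  have w_conj'' : ∀ t (z : TP), w (gT φ⁻¹ t) z = w t ⟨gT φ z, hφz z⟩ := by
    intro t z
    rw [← w_conj (gT φ⁻¹ t) z, gT_self_inv]
  -- adjunction
  have hadj : ∀ x z : TateModule r J,
      E (gT φ x + χ φ • gT φ⁻¹ x) z = E x (gT φ z + χ φ • gT φ⁻¹ z) := by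
    intro x z
    have h1 := H.gal φ x (gT φ⁻¹ z)
    rw [gT_self_inv] at h1
    have h2 := H.gal φ (gT φ⁻¹ x) z
    rw [gT_self_inv] at h2
    rw [map_add, LinearMap.add_apply, map_smul, LinearMap.smul_apply, smul_eq_mul, map_add,
      map_smul, smul_eq_mul, h1, h2, add_comm]
  have h1 : ∀ t (z : TP), w (gT φ t + χ φ • gT φ⁻¹ t) z =
      w t (⟨gT φ z, hφz z⟩ + χ φ • ⟨gT φ⁻¹ z, hφz' z⟩) := by
    intro t z
    refine HasVal.unique hA (hw _ _) ((hw t _).congr fun τ hτ => ?_)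
    change E (gT τ t - t) (gT φ z + χ φ • gT φ⁻¹ z) = _
    rw [← hadj, hcomm τ hτ, map_sub, map_sub]
    congr 2
    rw [smul_sub]
    abel
  have h2 : ∀ t (z : TP), w (gT φ t) z = w (gT φ⁻¹ t) z := by
    intro t z
    have h3 := h1 t z
    rw [w_add, w_smul, w_add', w_smul', ← w_conj', ← w_conj''] at h3
    have h4 : (1 - χ φ) * (w (gT φ t) z - w (gT φ⁻¹ t) z) = 0 := by linear_combination h3
    rcases mul_eq_zero.mp h4 with h5 | h5
    · exact absurd (sub_eq_zero.mp h5).symm hχφ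
    · exact sub_eq_zero.mp h5
  have h3 : ∀ t (z : TP), w (gT φ (gT φ t)) z = w t z := by
    intro t z
    rw [h2, gT_inv_self]
  -- the value vanishes on the connected part
  have h4 : ∀ t ∈ Tc, ∀ z : TP, w t z = 0 := by
    intro t ht z
    refine HasVal.unique hA (hw _ _) ((hasVal_coboundary hζ hχ (E t z)).congr fun τ hτ => ?_)
    rw [map_sub, LinearMap.sub_apply, E_gT H hτ ht z.2]
  have w_sub : ∀ t t' z, w (t - t') z = w t z - w t' z := by
    intro t t' z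
    have e : t - t' = t + (-1 : ℤ_[r]) • t' := by rw [neg_smul, one_smul, sub_eq_add_neg]
    rw [e, w_add, w_smul]
    ring
  obtain ⟨n, hn⟩ := hfin
  obtain ⟨t', c, hc, h5⟩ := hn t
  have h6 : (r : ℤ_[r]) ^ n * w t ⟨z, hz⟩ = 0 := by
    rw [← w_smul, h5, w_add, w_sub, h3, sub_self, h4 c hc, add_zero]
  have h7 : w t ⟨z, hz⟩ = 0 := by
    rcases mul_eq_zero.mp h6 with h | h
    · exact absurd h (pow_ne_zero _ (by exact_mod_cast hr.out.ne_zero))
    · exact h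
  rw [← h7]
  exact HasVal.unique hA (hv.congr fun τ _ => by rw [dl_inc]) (hw t ⟨z, hz⟩)

/-- The unit condition. -/
theorem val_eq_zero (hζ : IsSys r ζ) (hχ : IsCyc ζ χ) (hA : A.LiesOverPrime r) {φ : GQ}
    (hφ : φ ∈ A.decompositionSubgroup ℚ)
    (hnorm : ∀ τ ∈ A.inertiaSubgroupIn ℚ, φ⁻¹ * τ * φ ∈ A.inertiaSubgroupIn ℚ)
    (hχφ : χ φ ≠ 1)
    (hcomm : ∀ τ ∈ A.inertiaSubgroupIn ℚ, ∀ t : TateModule r J,
      gT τ (gT φ t + χ φ • gT φ⁻¹ t) = gT φ (gT τ t) + χ φ • gT φ⁻¹ (gT τ t))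
    (hfin : ∃ n : ℕ, ∀ t : TateModule r J, ∃ t' : TateModule r J, ∃ c ∈ Tc,
      (r : ℤ_[r]) ^ n • t = gT φ (gT φ t') - t' + c)
    (hfin' : ∃ n : ℕ, ∀ z ∈ TP, ∃ z' ∈ TP, ∃ c ∈ TP, c ∈ Tc ∧
      (r : ℤ_[r]) ^ n • z = gT φ z' - z' + c)
    (y : Hat r J) {z : TateModule r J} (hz : z ∈ TP) :
    HasVal A ζ (fun τ => E (dl τ y) z) 0 := by
  have hex : ∀ z : TP, ∃ v : ℤ_[r], HasVal A ζ (fun τ => E (dl τ y) z) v := fun z =>
    exists_val H hζ hχ hA y z.2
  choose w hw using hex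
  have w_add' : ∀ z z', w (z + z') = w z + w z' := by
    intro z z'
    refine HasVal.unique hA (hw _) (((hw z).add hζ (hw z')).congr fun τ _ => ?_)
    rw [← map_add]
    rfl
  have w_smul' : ∀ (a : ℤ_[r]) z, w (a • z) = a * w z := by
    intro a z
    refine HasVal.unique hA (hw _) (((hw z).mul hζ a).congr fun τ _ => ?_)
    rw [← smul_eq_mul, ← map_smul]
    rfl
  have hφz : ∀ z : TP, gT φ (z : TateModule r J) ∈ TP := fun z => H.stable φ _ z.2
  have h1 : ∀ z : TP, w ⟨gT φ z, hφz z⟩ = w z := by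
    intro z
    obtain ⟨u, hu⟩ := exists_val H hζ hχ hA (inc (dl φ y)) (hφz z)
    have hu0 := val_inc H hζ hχ hA hφ hnorm hχφ hcomm hfin (dl φ y) (hφz z) hu
    subst hu0
    have h2 := val_conj H hζ hχ hφ hnorm (hw z)
    have h3 := (hw ⟨gT φ z, hφz z⟩).add hζ hu
    rw [add_zero] at h3
    refine HasVal.unique hA h3 (h2.congr fun τ _ => ?_)
    rw [act_eq, dl_add, map_add, LinearMap.add_apply]
  have h2 : ∀ z : TP, (z : TateModule r J) ∈ Tc → w z = 0 := by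
    intro z hz
    refine HasVal.unique hA (hw _) ((hasVal_zero hζ).congr fun τ hτ => ?_)
    exact (H.iso _ (H.inertia τ hτ y) _ z.2 hz).symm
  obtain ⟨n, hn⟩ := hfin'
  obtain ⟨z', hz', c, hcP, hc, h5⟩ := hn z hz
  have h6 : (r : ℤ_[r]) ^ n * w ⟨z, hz⟩ = 0 := by
    rw [← w_smul']
    have e : (r : ℤ_[r]) ^ n • (⟨z, hz⟩ : TP) = (⟨gT φ z', hφz ⟨z', hz'⟩⟩ : TP) +
        (-1 : ℤ_[r]) • ⟨z', hz'⟩ + ⟨c, hcP⟩ := by
      apply Subtype.ext
      change (r : ℤ_[r]) ^ n • z = gT φ z' + (-1 : ℤ_[r]) • z' + c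
      rw [h5, neg_smul, one_smul, sub_eq_add_neg]
    rw [e, w_add', w_add', w_smul', h1 ⟨z', hz'⟩, h2 ⟨c, hcP⟩ hc]
    ring
  have h7 : w ⟨z, hz⟩ = 0 := by
    rcases mul_eq_zero.mp h6 with h | h
    · exact absurd h (pow_ne_zero _ (by exact_mod_cast hr.out.ne_zero))
    · exact h
  rw [← h7]
  exact hw ⟨z, hz⟩

end Main

end Fermat.Agent.Mazur.Unit
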