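import Fermat.Agent.Tate.Ordinary

/-!
# The ordinary projector on the Tate module (piece G3 of S15)

For an endomorphism `U` of `J` with `J[r^k]` finite, `e = lim U^{s_k}`.
-/

set_option autoImplicit false
set_option linter.unusedSectionVars false

open PadicInt

namespace Fermat.Agent.Mazur.Unit

open Fermat.Agent.Tate

section Finite

variable {X : Type*} [Finite X]

/-- Some positive power of a self-map of a finite set is idempotent. -/
theorem exists_iterate_idem (f : X → X) : ∃ s : ℕ, 0 < s ∧ ∀ x, f^[s] (f^[s] x) = f^[s] x := by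
  have : Finite (X → X) := Pi.finite
  obtain ⟨a, b, hab, h⟩ := Finite.exists_ne_map_eq_of_infinite (fun n : ℕ => f^[n])
  wlog hlt : a < b generalizing a b
  · exact this b a hab.symm h.symm (by omega)
  obtain ⟨d, hd, rfl⟩ : ∃ d, 0 < d ∧ b = a + d := ⟨b - a, by omega, by omega⟩
  have h' : f^[a + d] = f^[a] := h.symm
  -- `f^[n + d] = f^[n]` for `n ≥ a`
  have h1 : ∀ n, a ≤ n → f^[n + d] = f^[n] := by
    intro n hn
    obtain ⟨m, rfl⟩ := Nat.exists_eq_add_of_le hn
    have e1 : a + m + d = m + (a + d) := by ring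
    have e2 : a + m = m + a := by ring
    rw [e1, e2, Function.iterate_add, h', ← Function.iterate_add]
  have h2 : ∀ k n, a ≤ n → f^[n + k * d] = f^[n] := by
    intro k
    induction k with
    | zero => intro n _; rw [zero_mul, add_zero]
    | succ k ih =>
      intro n hn
      have e1 : n + (k + 1) * d = (n + k * d) + d := by ring
      rw [e1, h1 _ (by omega), ih n hn]
  refine ⟨(a + 1) * d, Nat.mul_pos (Nat.succ_pos a) hd, fun x => ?_⟩
  rw [← Function.iterate_add_apply]
  exact congrFun (h2 (a + 1) ((a + 1) * d) (le_trans (Nat.le_succ a)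
    (Nat.le_mul_of_pos_right _ hd))) x

end Finite

section Proj

variable {r : ℕ} {J : Type*} [AddCommGroup J] (U : J →+ J)

/-- the `n`-th iterate as an additive map -/
def itr (n : ℕ) : J →+ J := (show AddMonoid.End J from U) ^ n

theorem itr_zero (x : J) : itr U 0 x = x := rfl

theorem itr_succ (n : ℕ) (x : J) : itr U (n + 1) x = U (itr U n x) := by
  change ((show AddMonoid.End J from U) ^ (n + 1)) x = _
  rw [pow_succ']
  rfl

theorem itr_add (m n : ℕ) (x : J) : itr U (m + n) x = itr U m (itr U n x) := by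
  change ((show AddMonoid.End J from U) ^ (m + n)) x = _
  rw [pow_add]
  rfl

theorem itr_mul (m n : ℕ) (x : J) : itr U (m * n) x = itr (itr U m) n x := by
  change ((show AddMonoid.End J from U) ^ (m * n)) x = _
  rw [pow_mul]
  rfl

/-- `s` is idempotent at level `k`. -/
def IsIdem (r : ℕ) (k s : ℕ) : Prop :=
  0 < s ∧ ∀ x : J, r ^ k • x = 0 → itr U s (itr U s x) = itr U s x

variable {U}

theorem IsIdem.pow {k s : ℕ} (h : IsIdem U r k s) {n : ℕ} (hn : 0 < n) {x : J}
    (hx : r ^ k • x = 0) : itr U (s * n) x = itr U s x := by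
  obtain ⟨m, rfl⟩ := Nat.exists_eq_succ_of_ne_zero hn.ne'
  induction m with
  | zero => rw [Nat.succ_eq_add_one, zero_add, mul_one]
  | succ m ih =>
    have e1 : s * (m + 1).succ = s + s * m.succ := by rw [Nat.mul_succ, add_comm]
    rw [e1, itr_add, ih (Nat.succ_pos m), h.2 x hx]

/-- Two idempotent exponents give the same projector. -/
theorem IsIdem.eq {k s t : ℕ} (h : IsIdem U r k s) (h' : IsIdem U r k t) {x : J}
    (hx : r ^ k • x = 0) : itr U s x = itr U t x := by
  rw [← h.pow h'.1 hx, ← h'.pow h.1 hx, mul_comm]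

theorem IsIdem.mono {k l s : ℕ} (h : IsIdem U r l s) (hkl : k ≤ l) : IsIdem U r k s := by
  refine ⟨h.1, fun x hx => h.2 x ?_⟩
  obtain ⟨j, rfl⟩ := Nat.exists_eq_add_of_le hkl
  rw [pow_add, mul_comm, mul_smul, hx, smul_zero]

theorem map_torsion {k : ℕ} {x : J} (hx : r ^ k • x = 0) (n : ℕ) : r ^ k • itr U n x = 0 := by
  rw [← map_nsmul, hx, map_zero]

theorem exists_isIdem (hfin : ∀ k, Finite {x : J // r ^ k • x = 0}) (k : ℕ) :
    ∃ s, IsIdem U r k s := by
  have := hfin k
  have h1 : ∀ x : {x : J // r ^ k • x = 0}, r ^ k • U x = 0 := fun x => by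
    rw [← map_nsmul, x.2, map_zero]
  let f : {x : J // r ^ k • x = 0} → {x : J // r ^ k • x = 0} := fun x => ⟨U x, h1 x⟩
  obtain ⟨s, hs, h⟩ := exists_iterate_idem f
  have h2 : ∀ (n : ℕ) (x : {x : J // r ^ k • x = 0}), ((f^[n] x : _) : J) = itr U n x := by
    intro n x
    induction n with
    | zero => rfl
    | succ n ih =>
      rw [Function.iterate_succ_apply', itr_succ, ← ih]
  refine ⟨s, hs, fun x hx => ?_⟩
  have h3 := congrArg Subtype.val (h ⟨x, hx⟩)
  rw [h2, h2] at h3
  exact h3

variable (U) in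
/-- A choice of idempotent exponents. -/
noncomputable def sq (hfin : ∀ k, Finite {x : J // r ^ k • x = 0}) (k : ℕ) : ℕ :=
  (exists_isIdem (U := U) hfin k).choose

theorem isIdem_sq (hfin : ∀ k, Finite {x : J // r ^ k • x = 0}) (k : ℕ) :
    IsIdem U r k (sq U hfin k) := (exists_isIdem (U := U) hfin k).choose_spec

variable [hr : Fact r.Prime] (hfin : ∀ k, Finite {x : J // r ^ k • x = 0})

variable (U) in
/-- **The ordinary projector.** -/
noncomputable def proj : TateModule r J →ₗ[ℤ_[r]] TateModule r J where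
  toFun x := mkT (fun k => itr U (sq U hfin k) (ev k x)) (by rw [ev_zero, map_zero]) fun k => by
    rw [← map_nsmul, smul_ev_succ]
    exact ((isIdem_sq hfin (k + 1)).mono (Nat.le_succ k)).eq (isIdem_sq hfin k) (pow_smul_ev x k)
  map_add' x y := ext fun k => by
    rw [ev_mkT, map_add, map_add, map_add, ev_mkT, ev_mkT]
  map_smul' a x := ext fun k => by
    rw [ev_mkT, ev_smul', map_nsmul, RingHom.id_apply, ev_smul', ev_mkT]

theorem ev_proj' (x : TateModule r J) (k : ℕ) :
    ev k (proj U hfin x) = itr U (sq U hfin k) (ev k x) := rfl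

/-- The projector at level `k`, with any idempotent exponent. -/
theorem ev_proj_eq (x : TateModule r J) {k s : ℕ} (hs : IsIdem U r k s) :
    ev k (proj U hfin x) = itr U s (ev k x) := by
  rw [ev_proj']
  exact (isIdem_sq hfin k).eq hs (pow_smul_ev x k)

theorem proj_idem (x : TateModule r J) : proj U hfin (proj U hfin x) = proj U hfin x :=
  ext fun k => by
    rw [ev_proj', ev_proj']
    exact (isIdem_sq hfin k).2 _ (pow_smul_ev x k)

/-- The projector commutes with the maps commuting with `U`. -/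
theorem proj_comm {g : J →+ J} (hg : ∀ x, g (U x) = U (g x)) (x : TateModule r J) :
    proj U hfin (Tate.map g x) = Tate.map g (proj U hfin x) :=
  ext fun k => by
    rw [ev_proj', ev_map, ev_map, ev_proj']
    have h1 : ∀ n y, itr U n (g y) = g (itr U n y) := by
      intro n y
      induction n with
      | zero => rfl
      | succ n ih => rw [itr_succ, itr_succ, ih, hg]
    exact h1 _ _

/-- The projector preserves stable subgroups. -/
theorem proj_mem {L : AddSubgroup J} (hL : ∀ x ∈ L, U x ∈ L) {x : TateModule r J}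
    (hx : x ∈ subTate r L) : proj U hfin x ∈ subTate r L := by
  intro k
  rw [ev_proj']
  have h1 : ∀ n, ∀ y ∈ L, itr U n y ∈ L := by
    intro n y hy
    induction n with
    | zero => exact hy
    | succ n ih => rw [itr_succ]; exact hL _ ih
  exact h1 _ _ (hx k)

/-- `U` is surjective on the ordinary part of a stable subgroup, at each level. -/
theorem exists_level {L : AddSubgroup J} (hL : ∀ x ∈ L, U x ∈ L) {x : TateModule r J}
    (hx : x ∈ subTate r L) (he : proj U hfin x = x) (k : ℕ) :
    ∃ y ∈ subTate r L, proj U hfin y = y ∧ U (ev k y) = ev k x := by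
  obtain ⟨n, hn⟩ : ∃ n, sq U hfin k = n + 1 :=
    Nat.exists_eq_succ_of_ne_zero (isIdem_sq (U := U) hfin k).1.ne'
  have hmem : ∀ m, Tate.map (p := r) (itr U m) x ∈ subTate r L := by
    intro m j
    rw [ev_map]
    induction m with
    | zero => exact hx j
    | succ m ih => rw [itr_succ]; exact hL _ ih
  have hcomm : ∀ (m : ℕ) (z : J), itr U m (U z) = U (itr U m z) := by
    intro m z
    rw [← itr_succ, itr_add]
    rfl
  refine ⟨Tate.map (itr U n) x, hmem n, ?_, ?_⟩
  · rw [proj_comm hfin (hcomm n), he]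
  · rw [ev_map, ← itr_succ, ← hn]
    conv_rhs => rw [← he]
    rfl

/-- A finite group on which `U` is surjective lies in the ordinary part. -/
theorem exists_proj_eq (hdiv : ∀ x : J, ∃ y, r • y = x) {m : ℕ} {V : Set J} (hV : V.Finite)
    (htors : ∀ v ∈ V, r ^ m • v = 0)
    (hsurj : ∀ v ∈ V, ∃ w ∈ V, U w = v) {v : J} (hv : v ∈ V) :
    ∃ x : TateModule r J, ev m (proj U hfin x) = v := by
  have : Finite V := hV.to_subtype
  obtain ⟨x, hx⟩ := exists_ev_eq (p := r) (fun _ y _ => hdiv y) (htors v hv)
  refine ⟨x, ?_⟩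
  rw [ev_proj', hx]
  -- `U^{s}` is idempotent and surjective on `V`
  have h1 : ∀ n, ∀ v ∈ V, ∃ w ∈ V, itr U n w = v := by
    intro n
    induction n with
    | zero => exact fun v hv => ⟨v, hv, rfl⟩
    | succ n ih =>
      intro v hv
      obtain ⟨w, hw, rfl⟩ := hsurj v hv
      obtain ⟨w', hw', rfl⟩ := ih w hw
      exact ⟨w', hw', itr_succ U n w'⟩
  obtain ⟨w, hw, hwv⟩ := h1 (sq U hfin m) v hv
  rw [← hwv]
  exact (isIdem_sq hfin m).2 w (htors w hw)

end Proj

end Fermat.Agent.Mazur.Unit
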