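import Fermat.Agent.RT.PStep.Basic
import Fermat.Agent.LOC.Multiplicative

/-!
# Valuations of Kummer cocycles of the inertia group at `r` (piece U1 of S15)

For a cocycle `ψ : I → μ_{r^k}` of the inertia group of a place over `r`, the Kummer generator
`θ` (`τ θ = ψ(τ) θ`) has `v(θ^{r^k}) = v(r)^n` with `n` well defined modulo `r^k`.
-/

set_option autoImplicit false

namespace Fermat.Agent.Mazur.Unit

open Fermat.Agent.RT.PStep

local notation "Qb" => AlgebraicClosure ℚ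
local notation "GQ" => AlgebraicClosure ℚ ≃ₐ[ℚ] AlgebraicClosure ℚ

section Val

/-- The Kummer cocycle `ψ` (at level `k`) has value `n`. -/
def IsVal (A : ValuationSubring Qb) (r k : ℕ) (ψ : GQ → Qb) (n : ℤ) : Prop :=
  ∃ θ : Qb, θ ≠ 0 ∧ (∀ τ ∈ A.inertiaSubgroupIn ℚ, τ θ = ψ τ * θ) ∧
    A.valuation (θ ^ (r ^ k)) = A.valuation ((r : Qb) ^ n)

variable {A : ValuationSubring Qb} {r : ℕ}

theorem valuation_zpow_eq_one (hr : r.Prime) (hA : A.LiesOverPrime r) {n : ℤ}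
    (h : A.valuation ((r : Qb) ^ n) = 1) : n = 0 := by
  have hr0 : (r : Qb) ≠ 0 := by exact_mod_cast hr.ne_zero
  have h1 := v_p_lt_one hA
  have h0 : A.valuation (r : Qb) ≠ 0 := by rwa [Ne, map_eq_zero]
  have key : ∀ m : ℕ, m ≠ 0 → A.valuation ((r : Qb) ^ m) ≠ 1 := by
    intro m hm
    rw [map_pow]
    exact (pow_lt_one₀ zero_le h1 hm).ne
  rcases lt_trichotomy n 0 with hn | hn | hn
  · exfalso
    obtain ⟨m, rfl⟩ : ∃ m : ℕ, n = -(m : ℤ) := ⟨n.natAbs, by omega⟩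
    refine key m (by omega) ?_
    rw [zpow_neg, map_inv₀, zpow_natCast, inv_eq_one] at h
    exact h
  · exact hn
  · exfalso
    obtain ⟨m, rfl⟩ : ∃ m : ℕ, n = (m : ℤ) := ⟨n.natAbs, by omega⟩
    refine key m (by omega) ?_
    rwa [zpow_natCast] at h

theorem valuation_zpow_inj (hr : r.Prime) (hA : A.LiesOverPrime r) {n m : ℤ}
    (h : A.valuation ((r : Qb) ^ n) = A.valuation ((r : Qb) ^ m)) : n = m := by
  have hr0 : (r : Qb) ≠ 0 := by exact_mod_cast hr.ne_zero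
  have h0 : A.valuation ((r : Qb) ^ m) ≠ 0 := by
    rw [Ne, map_eq_zero]
    exact zpow_ne_zero _ hr0
  have h1 : A.valuation ((r : Qb) ^ (n - m)) = 1 := by
    rw [zpow_sub₀ hr0, map_div₀, h, div_self h0]
  have := valuation_zpow_eq_one hr hA h1
  omega

theorem IsVal.unique (hr : r.Prime) (hA : A.LiesOverPrime r) {k : ℕ} {ψ : GQ → Qb} {n m : ℤ}
    (hn : IsVal A r k ψ n) (hm : IsVal A r k ψ m) : ((r ^ k : ℕ) : ℤ) ∣ n - m := by
  obtain ⟨θ, hθ0, hθ, hv⟩ := hn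
  obtain ⟨η, hη0, hη, hw⟩ := hm
  have hfix : Fix A (θ / η) := by
    intro τ hτ
    have h1 : ψ τ ≠ 0 := by
      intro h
      have := hθ τ hτ
      rw [h, zero_mul, EmbeddingLike.map_eq_zero_iff] at this
      exact hθ0 this
    rw [map_div₀, hθ τ hτ, hη τ hτ, mul_div_mul_left _ _ h1]
  obtain ⟨j, u, hu0, hu, hu', -, hx⟩ := exists_zpow_mul hr hA (div_ne_zero hθ0 hη0) hfix
  have hu1 : A.valuation u = 1 := valuation_eq_one hu0 hu hu'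
  have h2 : θ = (r : Qb) ^ j * u * η := by
    rw [← hx, div_mul_cancel₀ _ hη0]
  have h3 : A.valuation (θ ^ (r ^ k)) = A.valuation ((r : Qb) ^ (j * (r ^ k : ℕ) + m)) := by
    have hr0 : (r : Qb) ≠ 0 := by exact_mod_cast hr.ne_zero
    rw [h2, mul_pow, mul_pow, map_mul, map_mul, hw, map_pow A.valuation u, hu1, one_pow, mul_one,
      ← map_mul, zpow_add₀ hr0, zpow_mul, zpow_natCast]
  rw [hv] at h3
  have h4 := valuation_zpow_inj hr hA h3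
  exact ⟨j, by rw [h4]; ring⟩

theorem IsVal.of_dvd (hr : r.Prime) {k : ℕ} {ψ : GQ → Qb} {n m : ℤ}
    (hn : IsVal A r k ψ n) (h : ((r ^ k : ℕ) : ℤ) ∣ n - m) : IsVal A r k ψ m := by
  obtain ⟨θ, hθ0, hθ, hv⟩ := hn
  obtain ⟨j, hj⟩ := h
  have hr0 : (r : Qb) ≠ 0 := by exact_mod_cast hr.ne_zero
  refine ⟨(r : Qb) ^ (-j) * θ, mul_ne_zero (zpow_ne_zero _ hr0) hθ0, fun τ hτ => ?_, ?_⟩
  · rw [map_mul, map_zpow₀, map_natCast, hθ τ hτ]
    ring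
  · rw [mul_pow, map_mul, hv, ← map_mul, ← zpow_natCast, ← zpow_mul, ← zpow_add₀ hr0]
    congr 2
    linarith

theorem IsVal.congr {k : ℕ} {ψ φ : GQ → Qb} {n : ℤ} (h : ∀ τ ∈ A.inertiaSubgroupIn ℚ, ψ τ = φ τ)
    (hn : IsVal A r k ψ n) : IsVal A r k φ n := by
  obtain ⟨θ, hθ0, hθ, hv⟩ := hn
  exact ⟨θ, hθ0, fun τ hτ => by rw [← h τ hτ]; exact hθ τ hτ, hv⟩

theorem IsVal.mul (hr : r.Prime) {k : ℕ} {ψ φ : GQ → Qb} {n m : ℤ}
    (hn : IsVal A r k ψ n) (hm : IsVal A r k φ m) :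
    IsVal A r k (fun τ => ψ τ * φ τ) (n + m) := by
  obtain ⟨θ, hθ0, hθ, hv⟩ := hn
  obtain ⟨η, hη0, hη, hw⟩ := hm
  have hr0 : (r : Qb) ≠ 0 := by exact_mod_cast hr.ne_zero
  refine ⟨θ * η, mul_ne_zero hθ0 hη0, fun τ hτ => ?_, ?_⟩
  · rw [map_mul, hθ τ hτ, hη τ hτ]
    ring
  · rw [mul_pow, map_mul, hv, hw, ← map_mul, zpow_add₀ hr0]

theorem IsVal.pow {k : ℕ} {ψ : GQ → Qb} {n : ℤ} (hn : IsVal A r k ψ n) (a : ℕ) :
    IsVal A r k (fun τ => ψ τ ^ a) (a * n) := by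
  obtain ⟨θ, hθ0, hθ, hv⟩ := hn
  refine ⟨θ ^ a, pow_ne_zero _ hθ0, fun τ hτ => ?_, ?_⟩
  · rw [map_pow, hθ τ hτ, mul_pow]
  · rw [← pow_mul, mul_comm a, pow_mul, map_pow, hv, ← map_pow, mul_comm (a : ℤ), zpow_mul,
      zpow_natCast]

theorem isVal_one (k : ℕ) : IsVal A r k (fun _ => 1) 0 :=
  ⟨1, one_ne_zero, fun τ _ => by rw [map_one, mul_one], by rw [one_pow, zpow_zero]⟩

/-- Coboundaries of roots of unity have value `0`. -/
theorem isVal_coboundary (k : ℕ) {ζ : Qb} {n : ℕ} (hn : n ≠ 0) (hζ : ζ ^ n = 1) :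
    IsVal A r k (fun τ => τ ζ * ζ⁻¹) 0 := by
  have hζ0 : ζ ≠ 0 := by
    rintro rfl
    rw [zero_pow hn] at hζ
    exact zero_ne_one hζ
  refine ⟨ζ, hζ0, fun τ _ => by rw [mul_assoc, inv_mul_cancel₀ hζ0, mul_one], ?_⟩
  rw [map_pow, v_eq_one_of_pow hn hζ, one_pow, zpow_zero, map_one]

/-- Conjugation by the decomposition group does not change the value. -/
theorem IsVal.conj {k : ℕ} {ψ : GQ → Qb} {n : ℤ} {σ : GQ} (hσ : σ ∈ A.decompositionSubgroup ℚ)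
    (hnorm : ∀ τ ∈ A.inertiaSubgroupIn ℚ, σ⁻¹ * τ * σ ∈ A.inertiaSubgroupIn ℚ)
    (hn : IsVal A r k ψ n) : IsVal A r k (fun τ => σ (ψ (σ⁻¹ * τ * σ))) n := by
  obtain ⟨θ, hθ0, hθ, hv⟩ := hn
  refine ⟨σ θ, by rwa [Ne, EmbeddingLike.map_eq_zero_iff], fun τ hτ => ?_, ?_⟩
  · rw [← map_mul, ← hθ _ (hnorm τ hτ)]
    have h1 : σ * (σ⁻¹ * τ * σ) = τ * σ := by group
    have h2 := congrArg (fun g : GQ => g θ) h1
    exact h2.symm
  · rw [← map_pow, LOC.decomposition_valuation A hσ, hv]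

/-- Compatibility in the level. -/
theorem IsVal.level_down {k : ℕ} {ψ : GQ → Qb} {n : ℤ} (hn : IsVal A r (k + 1) ψ n) :
    IsVal A r k (fun τ => ψ τ ^ r) n := by
  obtain ⟨θ, hθ0, hθ, hv⟩ := hn
  refine ⟨θ ^ r, pow_ne_zero _ hθ0, fun τ hτ => ?_, ?_⟩
  · rw [map_pow, hθ τ hτ, mul_pow]
  · rw [← pow_mul, mul_comm r, ← pow_succ, hv]

/-- Existence of the value. -/
theorem exists_isVal (hr : r.Prime) (hA : A.LiesOverPrime r) {k : ℕ} {ψ : GQ → Qb}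
    (hψ : ∀ τ ∈ A.inertiaSubgroupIn ℚ, ψ τ ^ (r ^ k) = 1)
    (hmul : ∀ g ∈ A.inertiaSubgroupIn ℚ, ∀ h ∈ A.inertiaSubgroupIn ℚ, ψ (g * h) = ψ g * g (ψ h))
    (E : IntermediateField ℚ Qb) [FiniteDimensional ℚ E]
    (hE : ∀ g ∈ A.inertiaSubgroupIn ℚ, (∀ x ∈ E, g x = x) → ψ g = 1) :
    ∃ n : ℤ, IsVal A r k ψ n := by
  have hrk : r ^ k ≠ 0 := pow_ne_zero _ hr.ne_zero
  obtain ⟨θ, hθ0, hθ⟩ := hilbert90 (A.inertiaSubgroupIn ℚ) ψ (fun g hg h0 => by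
    have := hψ g hg
    rw [h0, zero_pow hrk] at this
    exact zero_ne_one this) hmul E hE
  have hfix : Fix A (θ ^ (r ^ k)) := by
    intro τ hτ
    rw [map_pow, hθ τ hτ, mul_pow, hψ τ hτ, one_mul]
  obtain ⟨j, u, hu0, hu, hu', -, hx⟩ := exists_zpow_mul hr hA (pow_ne_zero (r ^ k) hθ0) hfix
  refine ⟨j, θ, hθ0, hθ, ?_⟩
  rw [hx, map_mul, valuation_eq_one hu0 hu hu', mul_one]

end Val

end Fermat.Agent.Mazur.Unit
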